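/-
S55 / Bridge (helper14): NATURALITY OF THE LEVEL MAPS `ι₁`, `ι₂` of `Formal/LCLevelH.lean` with respect to
morphisms of situations.

For `α : Mor 𝒰 M 𝒰' M'` (group homomorphism `α.f : G' →* G`, equivariant `α.φ : M → M'`), `U ∈ 𝒰`,
`U' ∈ 𝒰'` with `α.f U' ⊆ U`:

* `qf α U U' h : G' ⧸ U' →* G ⧸ U`, `invLin`, `invHom α U U' h : Rep.res (qf …) (M^U) ⟶ M'^{U'}`;
* `levelMap₁`, `levelMap₂ : Hⁿ(G ⧸ U, M^U) →ₗ Hⁿ(G' ⧸ U', M'^{U'})` (Mathlib `groupCohomology.map`);
* `p₁_levelMor`, `p₂_levelMor`, `p₃_levelMor` : cochain-level compatibility with `levelMor`;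
* `h2_ι₂ : α.h2 (ι₂ 𝒰 M U hU y) = ι₂ 𝒰' M' U' hU' (levelMap₂ α U U' h y)`, `h1_ι₁` likewise;
* `h2_ι₂_eq_zero_iff` : if `ι₂` is injective at the target level, `α.h2 (ι₂ y) = 0 ↔ levelMap₂ y = 0`
  (this is how "locally trivial in the LC sense" becomes a finite-level statement).
-/
import Mathlib
import Fermat.Agent.S55.Formal.LCLevelH

set_option autoImplicit false
set_option linter.unusedSectionVars false

open CategoryTheory groupCohomology

namespace Fermat.Agent.S55.Bridge.LevelNat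

open Fermat.Agent.S55.Formal Fermat.Agent.S55.Formal.LCLevel Fermat.Agent.S55.Formal.LCLevelH

noncomputable section

variable {k : Type} [CommRing k] {G G' : Type} [Group G] [Group G']
variable {𝒰 : NBasis G} {M : Rep.{0, 0, 0} k G} {𝒰' : NBasis G'} {M' : Rep.{0, 0, 0} k G'}
variable (α : Mor 𝒰 M 𝒰' M')
variable (U : Subgroup G) [U.Normal] (U' : Subgroup G') [U'.Normal]
variable (h : ∀ s ∈ U', α.f s ∈ U)

/-- the homomorphism of finite quotients induced by `α.f` -/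
def qf : G' ⧸ U' →* G ⧸ U := QuotientGroup.map U' U α.f (fun s hs => h s hs)

@[simp] lemma qf_mk (g : G') :
    qf α U U' h (QuotientGroup.mk g : G' ⧸ U') = (QuotientGroup.mk (α.f g) : G ⧸ U) := rfl

include h in
lemma φ_mem_invariants {m : M} (hm : m ∈ Representation.invariants (M.ρ.comp U.subtype)) :
    α.φ m ∈ Representation.invariants (M'.ρ.comp U'.subtype) := by
  intro s
  have h1 : M.ρ (α.f s.1) m = m := hm ⟨α.f s.1, h s.1 s.2⟩
  show M'.ρ s.1 (α.φ m) = α.φ m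
  rw [← α.equivar, h1]

/-- `α.φ` on invariants -/
def invLin : ↥(Representation.invariants (M.ρ.comp U.subtype)) →ₗ[k]
    ↥(Representation.invariants (M'.ρ.comp U'.subtype)) :=
  (α.φ ∘ₗ Submodule.subtype _).codRestrict _ (fun m => φ_mem_invariants α U U' h m.2)

@[simp] lemma invLin_coe (m : ↥(Representation.invariants (M.ρ.comp U.subtype))) :
    ((invLin α U U' h m : ↥(Representation.invariants (M'.ρ.comp U'.subtype))) : M') =
      α.φ (m : M) := rfl

/-- `α.φ` on invariants, as a morphism of representations of `G' ⧸ U'` -/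
def invHom : Rep.res (qf α U U' h) (M.quotientToInvariants U) ⟶ M'.quotientToInvariants U' :=
  Rep.ofHom (ρ := (M.ρ.quotientToInvariants U).comp (qf α U U' h))
    (σ := M'.ρ.quotientToInvariants U')
    ⟨invLin α U U' h, fun g => by
      induction g using QuotientGroup.induction_on with
      | H g =>
        ext m
        exact α.equivar g m.1⟩

@[simp] lemma invHom_apply_coe (m : M.quotientToInvariants U) :
    (((invHom α U U' h).hom m : M'.quotientToInvariants U') : M') = α.φ (m.1 : M) := rfl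

/-- the finite-level map `H²(G ⧸ U, M^U) → H²(G' ⧸ U', M'^{U'})` induced by `α` -/
def levelMap₂ : groupCohomology.H2 (M.quotientToInvariants U) →ₗ[k]
    groupCohomology.H2 (M'.quotientToInvariants U') :=
  (groupCohomology.map (qf α U U' h) (invHom α U U' h) 2).hom

/-- the finite-level map `H¹(G ⧸ U, M^U) → H¹(G' ⧸ U', M'^{U'})` induced by `α` -/
def levelMap₁ : groupCohomology.H1 (M.quotientToInvariants U) →ₗ[k]
    groupCohomology.H1 (M'.quotientToInvariants U') :=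
  (groupCohomology.map (qf α U U' h) (invHom α U U' h) 1).hom

lemma levelMap₂_π (c : cocycles₂ (M.quotientToInvariants U)) :
    levelMap₂ α U U' h (H2π _ c) = H2π _ (mapCocycles₂ (qf α U U' h) (invHom α U U' h) c) :=
  H2π_comp_map_apply (qf α U U' h) (invHom α U U' h) c

lemma levelMap₁_π (c : cocycles₁ (M.quotientToInvariants U)) :
    levelMap₁ α U U' h (H1π _ c) = H1π _ (mapCocycles₁ (qf α U U' h) (invHom α U U' h) c) :=
  H1π_comp_map_apply (qf α U U' h) (invHom α U U' h) c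

variable [Finite (G ⧸ U)] [Finite (G' ⧸ U')] (hU : 𝒰.mem U) (hU' : 𝒰'.mem U')

/-! ### cochain level -/

lemma p₁_levelMor (c : G ⧸ U → M.quotientToInvariants U) :
    α.p₁ ((levelMor 𝒰 M U hU).p₁ c) =
      (levelMor 𝒰' M' U' hU').p₁ (fun x => (invHom α U U' h).hom (c (qf α U U' h x))) := by
  funext g
  rfl

lemma p₂_levelMor (c : (G ⧸ U) × (G ⧸ U) → M.quotientToInvariants U) :
    α.p₂ ((levelMor 𝒰 M U hU).p₂ c) =
      (levelMor 𝒰' M' U' hU').p₂
        (fun x => (invHom α U U' h).hom (c (qf α U U' h x.1, qf α U U' h x.2))) := by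
  funext ⟨g, g'⟩
  rfl

lemma p₃_levelMor (c : (G ⧸ U) × (G ⧸ U) × (G ⧸ U) → M.quotientToInvariants U) :
    α.p₃ ((levelMor 𝒰 M U hU).p₃ c) =
      (levelMor 𝒰' M' U' hU').p₃
        (fun x => (invHom α U U' h).hom
          (c (qf α U U' h x.1, qf α U U' h x.2.1, qf α U U' h x.2.2))) := by
  funext ⟨g, g', g''⟩
  rfl

/-! ### cohomology level -/

/-- **Naturality of `ι₂`**: `α.h2 ∘ ι₂ = ι₂ ∘ levelMap₂`. -/
theorem h2_ι₂ (y : groupCohomology.H2 (M.quotientToInvariants U)) :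
    α.h2 (ι₂ 𝒰 M U hU y) = ι₂ 𝒰' M' U' hU' (levelMap₂ α U U' h y) := by
  induction y using H2_induction_on with
  | h c =>
    rw [levelMap₂_π, ι₂_π, ι₂_π]
    have hz : dC₂ 𝒰 M (inflZ₂ 𝒰 M U hU c : ↥(C₂ 𝒰 M)) = 0 :=
      LinearMap.mem_ker.mp (inflZ₂ 𝒰 M U hU c).2
    have hz' : dC₂ 𝒰' M' (α.c₂ (inflZ₂ 𝒰 M U hU c : ↥(C₂ 𝒰 M))) = 0 := by
      have := LinearMap.congr_fun α.c₃_dC₂ (inflZ₂ 𝒰 M U hU c : ↥(C₂ 𝒰 M))
      simp only [LinearMap.comp_apply] at this
      rw [← this, hz, map_zero]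
    show (Hmid.of (α.c₂ (inflZ₂ 𝒰 M U hU c : ↥(C₂ 𝒰 M))) hz' : H2 𝒰' M') = _
    show Hmid.mk _ _ _ = Hmid.mk _ _ _
    congr 1

/-- **Naturality of `ι₁`**: `α.h1 ∘ ι₁ = ι₁ ∘ levelMap₁`. -/
theorem h1_ι₁ (y : groupCohomology.H1 (M.quotientToInvariants U)) :
    α.h1 (ι₁ 𝒰 M U hU y) = ι₁ 𝒰' M' U' hU' (levelMap₁ α U U' h y) := by
  induction y using H1_induction_on with
  | h c =>
    rw [levelMap₁_π, ι₁_π, ι₁_π]
    have hz : dC₁ 𝒰 M (inflZ₁ 𝒰 M U hU c : ↥(C₁ 𝒰 M)) = 0 :=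
      LinearMap.mem_ker.mp (inflZ₁ 𝒰 M U hU c).2
    have hz' : dC₁ 𝒰' M' (α.c₁ (inflZ₁ 𝒰 M U hU c : ↥(C₁ 𝒰 M))) = 0 := by
      have := LinearMap.congr_fun α.c₂_dC₁ (inflZ₁ 𝒰 M U hU c : ↥(C₁ 𝒰 M))
      simp only [LinearMap.comp_apply] at this
      rw [← this, hz, map_zero]
    show (Hmid.of (α.c₁ (inflZ₁ 𝒰 M U hU c : ↥(C₁ 𝒰 M))) hz' : H1 𝒰' M') = _
    show Hmid.mk _ _ _ = Hmid.mk _ _ _
    congr 1

/-- If `ι₂` is injective at the target level, LC-triviality of the image is a finite-level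
statement. -/
theorem h2_ι₂_eq_zero_iff (hinj : Function.Injective (ι₂ 𝒰' M' U' hU'))
    (y : groupCohomology.H2 (M.quotientToInvariants U)) :
    α.h2 (ι₂ 𝒰 M U hU y) = 0 ↔ levelMap₂ α U U' h y = 0 := by
  rw [h2_ι₂ α U U' h hU hU']
  constructor
  · intro h0
    exact hinj (h0.trans (map_zero _).symm)
  · intro h0
    rw [h0, map_zero]

theorem h1_ι₁_eq_zero_iff (hinj : Function.Injective (ι₁ 𝒰' M' U' hU'))
    (y : groupCohomology.H1 (M.quotientToInvariants U)) :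
    α.h1 (ι₁ 𝒰 M U hU y) = 0 ↔ levelMap₁ α U U' h y = 0 := by
  rw [h1_ι₁ α U U' h hU hU']
  constructor
  · intro h0
    exact hinj (h0.trans (map_zero _).symm)
  · intro h0
    rw [h0, map_zero]

end

end Fermat.Agent.S55.Bridge.LevelNat
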