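/-
S55 / Bridge (C2-bottom): FINITE-LEVEL LOCAL-GLOBAL COMPATIBILITY on the Prelude objects.

For `F : IntermediateField ℚ ℚ̄` and a prime `q`, `localField q F = ℚ_q(ιF) ⊆ PadicAlgCl q`
(`ι = padicEmbedding q`).  Main results (all interface-independent, Krasner-free):

* `mem_fixingSubgroup_localField_iff`, `comap_fixingSubgroup` :
    `(localGaloisToGlobal q)⁻¹ (Gal(ℚ̄/F)) = Gal(ℚ̄_q/ℚ_q(ιF))`;
* `isLevelConstant₁_local_iff`, `isLevelConstant₂_local_iff` : the Prelude's local level-constant
    cochains are exactly those right-invariant under `Gal(ℚ̄_q/ℚ_q(ιF))`, `F` finite (Galois) over `ℚ`;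
* `localField_toSubmodule`, `mem_localField_iff_mem_span` : `ℚ_q(ιF)` is the `ℚ_q`-span of `ιF`;
* `finiteDimensional_localField`, `normal_localField`, `isGalois_localField`;
* `resHom F : Gal(ℚ_q(ιF)/ℚ_q) →* Gal(F/ℚ)` for `F` normal, with `padicEmbedding_resHom`,
    `resHom_restrictNormalHom` (compatibility with `localGaloisToGlobal`), `resHom_injective`;
* `placeOf F` (the place of `F` below `padicPlace q`), `resHom_mem_decompositionSubgroup`,
    `exists_local_of_mem_decomposition`, `range_resHom` :
    the image of `Gal(ℚ_q(ιF)/ℚ_q)` in `Gal(F/ℚ)` is EXACTLY the decomposition group of `placeOf F`;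
* `norm_eq_of_unitBall_eq`, `norm_apply_of_mem_decomposition` : the decomposition group preserves
    the `q`-adic norm;  `sum_smul_eq_zero_of_norm_eq` : the continuity lemma
    (norm-preserving `ℚ`-maps respect `ℚ_q`-linear relations).

Owner: helper79.
-/
import Mathlib
import Fermat.Prelude.Def_GaloisRep_CompletionBridge
import Fermat.Prelude.Def_GroupCohomology_ContinuousH2
import Fermat.Agent.Lib.InertiaRestrict

set_option autoImplicit false
set_option linter.unusedSectionVars false

namespace Fermat.Agent.S55.Bridge.LocalGlobal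


open IntermediateField
open scoped Pointwise

variable (q : ℕ) [Fact q.Prime]

/-- the local field `ℚ_q(ι F)` generated by (the image of) a subfield `F` of `ℚ̄`. -/
noncomputable def localField (F : IntermediateField ℚ (AlgebraicClosure ℚ)) :
    IntermediateField ℚ_[q] (PadicAlgCl q) :=
  IntermediateField.adjoin ℚ_[q] ((padicEmbedding q) '' (F : Set (AlgebraicClosure ℚ)))

variable {q}

theorem padicEmbedding_mem_localField {F : IntermediateField ℚ (AlgebraicClosure ℚ)}
    {x : AlgebraicClosure ℚ} (hx : x ∈ F) : padicEmbedding q x ∈ localField q F :=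
  IntermediateField.subset_adjoin _ _ ⟨x, hx, rfl⟩

theorem localField_le_iff {F : IntermediateField ℚ (AlgebraicClosure ℚ)}
    {L : IntermediateField ℚ_[q] (PadicAlgCl q)} :
    localField q F ≤ L ↔ ∀ x ∈ F, padicEmbedding q x ∈ L := by
  unfold localField
  rw [IntermediateField.adjoin_le_iff]
  constructor
  · intro h x hx
    exact h ⟨x, hx, rfl⟩
  · rintro h _ ⟨x, hx, rfl⟩
    exact h x hx

theorem localField_mono {F F' : IntermediateField ℚ (AlgebraicClosure ℚ)} (h : F ≤ F') :
    localField q F ≤ localField q F' :=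
  localField_le_iff.2 fun _ hx => padicEmbedding_mem_localField (h hx)

theorem padicEmbedding_injective : Function.Injective (padicEmbedding q) :=
  (padicEmbedding q).toRingHom.injective

/-- **Key compatibility**: the preimage of `Gal(ℚ̄/F)` in the local Galois group is
`Gal(ℚ̄_q/ℚ_q(ιF))`. -/
theorem mem_fixingSubgroup_localField_iff {F : IntermediateField ℚ (AlgebraicClosure ℚ)}
    {τ : PadicAlgCl q ≃ₐ[ℚ_[q]] PadicAlgCl q} :
    τ ∈ (localField q F).fixingSubgroup ↔ localGaloisToGlobal q τ ∈ F.fixingSubgroup := by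
  constructor
  · intro h
    rw [IntermediateField.mem_fixingSubgroup_iff] at h ⊢
    intro x hx
    apply padicEmbedding_injective (q := q)
    rw [padicEmbedding_localGaloisToGlobal]
    exact h _ (padicEmbedding_mem_localField hx)
  · intro h
    rw [IntermediateField.mem_fixingSubgroup_iff] at h
    have h1 : Subgroup.zpowers τ ≤ (localField q F).fixingSubgroup := by
      rw [← IntermediateField.le_iff_le, localField_le_iff]
      intro x hx
      rw [IntermediateField.mem_fixedField_iff]
      intro f hf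
      obtain ⟨n, rfl⟩ := Subgroup.mem_zpowers_iff.1 hf
      have h2 : ∀ σ : PadicAlgCl q ≃ₐ[ℚ_[q]] PadicAlgCl q,
          σ (padicEmbedding q x) = padicEmbedding q x → σ⁻¹ (padicEmbedding q x) = padicEmbedding q x := by
        intro σ hσ
        conv_lhs => rw [← hσ]
        exact σ.symm_apply_apply _
      have h3 : τ (padicEmbedding q x) = padicEmbedding q x := by
        rw [← padicEmbedding_localGaloisToGlobal, h x hx]
      have h4 : ∀ m : ℕ, (τ ^ m) (padicEmbedding q x) = padicEmbedding q x := by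
        intro m
        induction m with
        | zero => simp
        | succ k ih => rw [pow_succ, AlgEquiv.mul_apply, h3, ih]
      rcases Int.eq_nat_or_neg n with ⟨m, rfl | rfl⟩
      · rw [zpow_natCast]; exact h4 m
      · rw [zpow_neg, zpow_natCast]; exact h2 _ (h4 m)
    exact h1 (Subgroup.mem_zpowers τ)

theorem comap_fixingSubgroup (F : IntermediateField ℚ (AlgebraicClosure ℚ)) :
    (F.fixingSubgroup).comap (localGaloisToGlobal q) = (localField q F).fixingSubgroup := by
  ext τ
  rw [Subgroup.mem_comap, mem_fixingSubgroup_localField_iff]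






/-- the subfield of `ℚ̄` of elements mapping into a given local field. -/
noncomputable def globalPart (L : IntermediateField ℚ_[q] (PadicAlgCl q)) :
    IntermediateField ℚ (AlgebraicClosure ℚ) :=
  (L.restrictScalars ℚ).comap (padicEmbedding q)

theorem mem_globalPart {L : IntermediateField ℚ_[q] (PadicAlgCl q)} {x : AlgebraicClosure ℚ} :
    x ∈ globalPart L ↔ padicEmbedding q x ∈ L := Iff.rfl

theorem localField_le_iff_le_globalPart {F : IntermediateField ℚ (AlgebraicClosure ℚ)}
    {L : IntermediateField ℚ_[q] (PadicAlgCl q)} :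
    localField q F ≤ L ↔ F ≤ globalPart L :=
  localField_le_iff

theorem localField_adjoin (T : Set (AlgebraicClosure ℚ)) :
    localField q (IntermediateField.adjoin ℚ T) =
      IntermediateField.adjoin ℚ_[q] ((padicEmbedding q) '' T) := by
  apply le_antisymm
  · rw [localField_le_iff_le_globalPart, IntermediateField.adjoin_le_iff]
    intro x hx
    exact IntermediateField.subset_adjoin _ _ ⟨x, hx, rfl⟩
  · apply IntermediateField.adjoin.mono
    exact Set.image_mono (IntermediateField.subset_adjoin ℚ T)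

/-- `ℚ_q(ιF)` is the `ℚ_q`-span of `ιF`. -/
theorem localField_toSubmodule (F : IntermediateField ℚ (AlgebraicClosure ℚ)) :
    Subalgebra.toSubmodule (localField q F).toSubalgebra =
      Submodule.span ℚ_[q] ((padicEmbedding q) '' (F : Set (AlgebraicClosure ℚ))) := by
  unfold localField
  rw [IntermediateField.adjoin_toSubalgebra, Algebra.adjoin_eq_span]
  congr 1
  have : (padicEmbedding q) '' (F : Set (AlgebraicClosure ℚ)) =
      ((F.toSubfield.toSubmonoid.map (padicEmbedding q).toRingHom.toMonoidHom : Submonoid _) :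
        Set (PadicAlgCl q)) := by
    ext y
    simp
  rw [this, Submonoid.closure_eq]

theorem mem_localField_iff_mem_span {F : IntermediateField ℚ (AlgebraicClosure ℚ)}
    {y : PadicAlgCl q} :
    y ∈ localField q F ↔
      y ∈ Submodule.span ℚ_[q] ((padicEmbedding q) '' (F : Set (AlgebraicClosure ℚ))) := by
  rw [← localField_toSubmodule]
  rfl

instance finiteDimensional_localField (F : IntermediateField ℚ (AlgebraicClosure ℚ))
    [h : FiniteDimensional ℚ F] : FiniteDimensional ℚ_[q] (localField q F) := by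
  have hfg : (F.toSubalgebra.toSubmodule).FG := by
    rw [← Module.Finite.iff_fg]
    exact h
  obtain ⟨t, ht⟩ := hfg
  have h1 : Submodule.span ℚ_[q] ((padicEmbedding q) '' (F : Set (AlgebraicClosure ℚ))) =
      Submodule.span ℚ_[q] ((padicEmbedding q) '' (t : Set (AlgebraicClosure ℚ))) := by
    apply le_antisymm
    · rw [Submodule.span_le]
      rintro _ ⟨x, hx, rfl⟩
      have hx' : x ∈ Submodule.span ℚ (t : Set (AlgebraicClosure ℚ)) := by
        rw [ht]; exact hx
      have h2 : Submodule.span ℚ (t : Set (AlgebraicClosure ℚ)) ≤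
          ((Submodule.span ℚ_[q] ((padicEmbedding q) '' (t : Set (AlgebraicClosure ℚ)))).restrictScalars
            ℚ).comap (padicEmbedding q).toLinearMap := by
        rw [Submodule.span_le]
        intro z hz
        exact Submodule.subset_span ⟨z, hz, rfl⟩
      exact h2 hx'
    · apply Submodule.span_mono
      apply Set.image_mono
      intro z hz
      have : z ∈ Submodule.span ℚ (t : Set (AlgebraicClosure ℚ)) := Submodule.subset_span hz
      rw [ht] at this
      exact this
  have h3 : Module.Finite ℚ_[q] (Subalgebra.toSubmodule (localField q F).toSubalgebra) := by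
    rw [localField_toSubmodule, h1]
    exact FiniteDimensional.span_of_finite ℚ_[q] (Set.Finite.image _ t.finite_toSet)
  exact h3






local instance isAlgebraicQbar_lg : Algebra.IsAlgebraic ℚ (AlgebraicClosure ℚ) :=
  AlgebraicClosure.isAlgebraic ℚ
local instance isAlgClosureQbar_lg : IsAlgClosure ℚ (AlgebraicClosure ℚ) :=
  ⟨inferInstance, inferInstance⟩
local instance normalQbar_lg : Normal ℚ (AlgebraicClosure ℚ) :=
  IsAlgClosure.normal ℚ (AlgebraicClosure ℚ)

theorem apply_mem_of_normal {F : IntermediateField ℚ (AlgebraicClosure ℚ)} [hF : Normal ℚ F]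
    (g : AlgebraicClosure ℚ ≃ₐ[ℚ] AlgebraicClosure ℚ) {x : AlgebraicClosure ℚ} (hx : x ∈ F) :
    g x ∈ F := by
  have h := (IntermediateField.normal_iff_forall_map_le' (F := ℚ) (K := F)
    (L := AlgebraicClosure ℚ)).1 hF g
  exact h ⟨x, hx, rfl⟩

instance normal_localField (F : IntermediateField ℚ (AlgebraicClosure ℚ)) [Normal ℚ F] :
    Normal ℚ_[q] (localField q F) := by
  rw [IntermediateField.normal_iff_forall_map_le']
  intro σ
  unfold localField
  rw [IntermediateField.adjoin_map, IntermediateField.adjoin_le_iff]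
  rintro _ ⟨_, ⟨x, hx, rfl⟩, rfl⟩
  change σ (padicEmbedding q x) ∈ _
  rw [← padicEmbedding_localGaloisToGlobal]
  exact padicEmbedding_mem_localField (apply_mem_of_normal _ hx)

instance isGalois_localField (F : IntermediateField ℚ (AlgebraicClosure ℚ)) [Normal ℚ F] :
    IsGalois ℚ_[q] (localField q F) := ⟨⟩







section Res

variable (F : IntermediateField ℚ (AlgebraicClosure ℚ))

/-- the embedding `F → ℚ_q(ιF)` induced by `padicEmbedding q`. -/
noncomputable def embLocal : F →+* localField q F where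
  toFun x := ⟨padicEmbedding q x, padicEmbedding_mem_localField x.2⟩
  map_one' := Subtype.ext (by simp)
  map_mul' x y := Subtype.ext (by simp)
  map_zero' := Subtype.ext (by simp)
  map_add' x y := Subtype.ext (by simp)

@[simp] theorem coe_embLocal (x : F) :
    ((embLocal (q := q) F x : localField q F) : PadicAlgCl q) = padicEmbedding q x := rfl

theorem embLocal_injective : Function.Injective (embLocal (q := q) F) :=
  (embLocal F).injective

/-- `ℚ_q(ιF)` as an `F`-algebra. -/
@[reducible] noncomputable def algebraLocal : Algebra F (localField q F) :=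
  (embLocal (q := q) F).toAlgebra

attribute [local instance] algebraLocal

instance isScalarTower_local : IsScalarTower ℚ F (localField q F) :=
  IsScalarTower.of_algebraMap_eq' (Subsingleton.elim _ _)

instance isScalarTower_local' : IsScalarTower ℚ ℚ_[q] (localField q F) :=
  IsScalarTower.of_algebraMap_eq' (Subsingleton.elim _ _)

variable [Normal ℚ F]

/-- restriction `Gal(ℚ_q(ιF)/ℚ_q) → Gal(F/ℚ)`. -/
noncomputable def resHom :
    (localField q F ≃ₐ[ℚ_[q]] localField q F) →* (F ≃ₐ[ℚ] F) :=
  (AlgEquiv.restrictNormalHom (F := ℚ) (K₁ := localField q F) F).comp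
    (MonoidHom.mk' (fun τ => τ.restrictScalars ℚ) (fun _ _ => rfl))

theorem embLocal_resHom (σ : localField q F ≃ₐ[ℚ_[q]] localField q F) (x : F) :
    embLocal F (resHom F σ x) = σ (embLocal F x) :=
  AlgEquiv.restrictNormal_commutes (σ.restrictScalars ℚ) F x

theorem padicEmbedding_resHom (σ : localField q F ≃ₐ[ℚ_[q]] localField q F) (x : F) :
    padicEmbedding q (resHom F σ x) = σ (embLocal F x) := by
  rw [← embLocal_resHom]; rfl

end Res







section Res2

variable (F : IntermediateField ℚ (AlgebraicClosure ℚ)) [Normal ℚ F]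

attribute [local instance] algebraLocal

/-- **Compatibility** of the finite-level restriction with `localGaloisToGlobal`. -/
theorem resHom_restrictNormalHom (τ : PadicAlgCl q ≃ₐ[ℚ_[q]] PadicAlgCl q) :
    resHom F (AlgEquiv.restrictNormalHom (localField q F) τ) =
      AlgEquiv.restrictNormalHom F (localGaloisToGlobal q τ) := by
  ext x
  apply padicEmbedding_injective (q := q)
  rw [padicEmbedding_resHom]
  have h1 := AlgEquiv.restrictNormal_commutes τ (localField q F) (embLocal F x)
  have h2 := AlgEquiv.restrictNormal_commutes (localGaloisToGlobal q τ) F x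
  calc ((τ.restrictNormal (localField q F)) (embLocal F x) : PadicAlgCl q)
      = τ (padicEmbedding q x) := h1
    _ = padicEmbedding q (localGaloisToGlobal q τ x) :=
        (padicEmbedding_localGaloisToGlobal q τ x).symm
    _ = padicEmbedding q (((localGaloisToGlobal q τ).restrictNormal F x : F) :
          AlgebraicClosure ℚ) := congrArg _ h2.symm

theorem resHom_injective : Function.Injective (resHom (q := q) F) := by
  rw [injective_iff_map_eq_one]
  intro σ hσ
  obtain ⟨τ, rfl⟩ := AlgEquiv.restrictNormalHom_surjective (F := ℚ_[q])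
    (K₁ := localField q F) (PadicAlgCl q) σ
  rw [resHom_restrictNormalHom] at hσ
  have h1 : localGaloisToGlobal q τ ∈ F.fixingSubgroup := by
    rw [IntermediateField.mem_fixingSubgroup_iff]
    intro x hx
    have h3 : ((AlgEquiv.restrictNormalHom F (localGaloisToGlobal q τ) ⟨x, hx⟩ : F) :
        AlgebraicClosure ℚ) = x := by
      rw [hσ]; rfl
    exact (AlgEquiv.restrictNormal_commutes (localGaloisToGlobal q τ) F ⟨x, hx⟩).symm.trans h3
  rw [← mem_fixingSubgroup_localField_iff] at h1
  rw [← IntermediateField.restrictNormalHom_ker] at h1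
  exact h1

/-- the place of `F` below `padicPlace q`. -/
noncomputable def placeOf : ValuationSubring F :=
  (padicPlace q).comap (algebraMap F (AlgebraicClosure ℚ))

theorem mem_placeOf_iff {x : F} :
    x ∈ placeOf (q := q) F ↔ ‖padicEmbedding q x‖ ≤ 1 := Iff.rfl

theorem resHom_mem_decompositionSubgroup (σ : localField q F ≃ₐ[ℚ_[q]] localField q F) :
    resHom F σ ∈ (placeOf (q := q) F).decompositionSubgroup ℚ := by
  obtain ⟨τ, rfl⟩ := AlgEquiv.restrictNormalHom_surjective (F := ℚ_[q])
    (K₁ := localField q F) (PadicAlgCl q) σ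
  rw [resHom_restrictNormalHom]
  have : IsGalois ℚ (AlgebraicClosure ℚ) := ⟨⟩
  exact Fermat.Agent.Lib.InertiaRestrict.restrict_mem_decomposition F
    (localGaloisToGlobal_mem_decompositionSubgroup q τ)

end Res2






section Norm

variable {K : Type*} [Field K]

/-- the absolute value on a field induced by a ring hom to `PadicAlgCl q`. -/
noncomputable def absOf (f : K →+* PadicAlgCl q) : AbsoluteValue K ℝ where
  toFun x := ‖f x‖
  map_mul' x y := by rw [map_mul, norm_mul]
  nonneg' x := norm_nonneg _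
  eq_zero' x := by rw [norm_eq_zero, map_eq_zero]
  add_le' x y := by rw [map_add]; exact norm_add_le _ _

@[simp] theorem absOf_apply (f : K →+* PadicAlgCl q) (x : K) : absOf f x = ‖f x‖ := rfl

theorem norm_natCast_q : ‖((q : ℕ) : PadicAlgCl q)‖ = (q : ℝ)⁻¹ := by
  have h := PadicAlgCl.valuation_p q
  have h2 : ((Valued.v ((q : ℕ) : PadicAlgCl q) : NNReal) : ℝ) = ‖((q : ℕ) : PadicAlgCl q)‖ :=
    PadicAlgCl.valuation_coe q _
  rw [← h2, h]
  simp

/-- two ring homs `K → PadicAlgCl q` with the same unit ball induce the same norm. -/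
theorem norm_eq_of_unitBall_eq (f f' : K →+* PadicAlgCl q)
    (h : ∀ x : K, ‖f x‖ ≤ 1 ↔ ‖f' x‖ ≤ 1) (x : K) : ‖f x‖ = ‖f' x‖ := by
  have hlt : ∀ x : K, absOf f x < 1 ↔ absOf f' x < 1 := by
    intro x
    by_cases hx : x = 0
    · subst hx; simp
    · have h1 : ∀ g : K →+* PadicAlgCl q, ‖g x‖ < 1 ↔ ¬ ‖g x⁻¹‖ ≤ 1 := by
        intro g
        have hg : 0 < ‖g x‖ := norm_pos_iff.2 ((map_ne_zero g).2 hx)
        rw [map_inv₀, norm_inv, not_le, one_lt_inv₀ hg]
      simp only [absOf_apply]
      rw [h1 f, h1 f', h]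
  have heq : (absOf f).IsEquiv (absOf f') := AbsoluteValue.isEquiv_iff_lt_one_iff.2 hlt
  obtain ⟨c, hc, hcw⟩ := AbsoluteValue.isEquiv_iff_exists_rpow_eq.1 heq
  have hq := congrFun hcw ((q : ℕ) : K)
  simp only [absOf_apply, map_natCast, norm_natCast_q] at hq
  have hq1 : (1 : ℝ) < q := by exact_mod_cast (Fact.out : q.Prime).one_lt
  have hc1 : c = 1 := by
    have h0 : (0 : ℝ) < (q : ℝ)⁻¹ := by positivity
    have hlog : Real.log ((q : ℝ)⁻¹) ≠ 0 := by
      rw [Real.log_inv]
      have := Real.log_pos hq1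
      linarith
    have := congrArg Real.log hq
    rw [Real.log_rpow h0] at this
    have h3 : (c - 1) * Real.log ((q : ℝ)⁻¹) = 0 := by linarith
    rcases mul_eq_zero.1 h3 with h4 | h4
    · linarith
    · exact absurd h4 hlog
  have := congrFun hcw x
  simp only [absOf_apply, hc1, Real.rpow_one] at this
  exact this

end Norm






section Ext

variable {K : Type*} [Field K] [Algebra ℚ K]

/-- **Continuity lemma.** If two `ℚ`-algebra homs `f, f' : K → PadicAlgCl q` induce the same norm
on `K`, every `ℚ_q`-linear relation between values of `f` also holds for `f'`. -/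
theorem sum_smul_eq_zero_of_norm_eq (f f' : K →ₐ[ℚ] PadicAlgCl q)
    (hnorm : ∀ x : K, ‖f x‖ = ‖f' x‖) {ι : Type*} (s : Finset ι) (c : ι → ℚ_[q]) (x : ι → K)
    (h0 : ∑ i ∈ s, c i • f (x i) = 0) : ∑ i ∈ s, c i • f' (x i) = 0 := by
  obtain ⟨y, hy⟩ : ∃ y, y = ∑ i ∈ s, c i • f' (x i) := ⟨_, rfl⟩
  obtain ⟨M, hM⟩ : ∃ M : ℝ, M = ∑ i ∈ s, ‖f (x i)‖ := ⟨_, rfl⟩
  rw [← hy]
  have hM0 : 0 ≤ M := hM ▸ Finset.sum_nonneg fun _ _ => norm_nonneg _
  have key : ∀ ε : ℝ, 0 < ε → ‖y‖ ≤ ε * (2 * M) := by
    intro ε hε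
    have hr : ∀ i, ∃ r : ℚ, ‖c i - (r : ℚ_[q])‖ < ε := fun i => Padic.rat_dense q (c i) hε
    choose r hr using hr
    obtain ⟨z, hz⟩ : ∃ z : K, z = ∑ i ∈ s, r i • x i := ⟨_, rfl⟩
    have hsm : ∀ (g : K →ₐ[ℚ] PadicAlgCl q) (i : ι), g (r i • x i) = (r i : ℚ_[q]) • g (x i) := by
      intro g i
      rw [map_smul, Rat.cast_smul_eq_qsmul]
    have hfz : f z = ∑ i ∈ s, ((r i : ℚ_[q]) - c i) • f (x i) := by
      rw [hz, map_sum]
      simp_rw [hsm f, sub_smul]
      rw [Finset.sum_sub_distrib, h0, sub_zero]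
    have hf'z : y = ∑ i ∈ s, (c i - (r i : ℚ_[q])) • f' (x i) + f' z := by
      rw [hz, map_sum]
      simp_rw [hsm f', sub_smul]
      rw [Finset.sum_sub_distrib, hy]
      abel
    have hb1 : ‖f z‖ ≤ ε * M := by
      rw [hfz, hM, Finset.mul_sum]
      refine (norm_sum_le _ _).trans (Finset.sum_le_sum fun i _ => ?_)
      rw [norm_smul, norm_sub_rev]
      exact mul_le_mul_of_nonneg_right (hr i).le (norm_nonneg _)
    have hb2 : ‖∑ i ∈ s, (c i - (r i : ℚ_[q])) • f' (x i)‖ ≤ ε * M := by
      rw [hM, Finset.mul_sum]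
      refine (norm_sum_le _ _).trans (Finset.sum_le_sum fun i _ => ?_)
      rw [norm_smul, ← hnorm]
      exact mul_le_mul_of_nonneg_right (hr i).le (norm_nonneg _)
    calc ‖y‖ ≤ ‖∑ i ∈ s, (c i - (r i : ℚ_[q])) • f' (x i)‖ + ‖f' z‖ := by
          rw [hf'z]; exact norm_add_le _ _
      _ ≤ ε * M + ε * M := by
          rw [← hnorm z]
          exact add_le_add hb2 hb1
      _ = ε * (2 * M) := by ring
  by_contra hne
  have hpos : 0 < ‖y‖ := norm_pos_iff.2 hne
  have h1 := key (‖y‖ / (2 * (2 * M + 1))) (by positivity)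
  have h2 : ‖y‖ / (2 * (2 * M + 1)) * (2 * M) ≤ ‖y‖ / 2 := by
    rw [div_mul_eq_mul_div, div_le_div_iff₀ (by positivity) (by positivity)]
    nlinarith
  linarith

end Ext







section Surj

variable (F : IntermediateField ℚ (AlgebraicClosure ℚ)) [Normal ℚ F] [FiniteDimensional ℚ F]

attribute [local instance] algebraLocal

theorem mem_placeOf_apply_iff {g : F ≃ₐ[ℚ] F}
    (hg : g ∈ (placeOf (q := q) F).decompositionSubgroup ℚ) (x : F) :
    g x ∈ placeOf (q := q) F ↔ x ∈ placeOf (q := q) F := by
  rw [MulAction.mem_stabilizer_iff] at hg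
  conv_lhs => rw [← hg]
  rw [ValuationSubring.mem_pointwise_smul_iff_inv_smul_mem]
  have : g⁻¹ • g x = x := by
    change g⁻¹ (g x) = x
    exact g.symm_apply_apply x
  rw [this]

/-- elements of the decomposition group of `F` at `q` preserve the `q`-adic norm. -/
theorem norm_apply_of_mem_decomposition {g : F ≃ₐ[ℚ] F}
    (hg : g ∈ (placeOf (q := q) F).decompositionSubgroup ℚ) (x : F) :
    ‖padicEmbedding q (g x)‖ = ‖padicEmbedding q x‖ := by
  have h := norm_eq_of_unitBall_eq (q := q)
    (((padicEmbedding q).comp F.val).comp (g : F →ₐ[ℚ] F)).toRingHom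
    ((padicEmbedding q).comp F.val).toRingHom (fun x => mem_placeOf_apply_iff F hg x) x
  exact h

/-- **Surjectivity onto the decomposition group** (finite level): every element of the
decomposition group of `F` at (the place induced by) `q` comes from `Gal(ℚ̄_q/ℚ_q)`. -/
theorem exists_local_of_mem_decomposition {g : F ≃ₐ[ℚ] F}
    (hg : g ∈ (placeOf (q := q) F).decompositionSubgroup ℚ) :
    ∃ τ : PadicAlgCl q ≃ₐ[ℚ_[q]] PadicAlgCl q,
      AlgEquiv.restrictNormalHom F (localGaloisToGlobal q τ) = g := by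
  set pb := Field.powerBasisOfFiniteOfSeparable ℚ F with hpb
  set f : F →ₐ[ℚ] PadicAlgCl q := (padicEmbedding q).comp F.val with hf
  set f' : F →ₐ[ℚ] PadicAlgCl q := f.comp (g : F →ₐ[ℚ] F) with hf'
  have hnorm : ∀ x : F, ‖f x‖ = ‖f' x‖ := fun x =>
    (norm_apply_of_mem_decomposition F hg x).symm
  have hroot : Polynomial.aeval (f' pb.gen) (minpoly ℚ_[q] (f pb.gen)) = 0 := by
    have h0 := minpoly.aeval ℚ_[q] (f pb.gen)
    rw [Polynomial.aeval_eq_sum_range] at h0 ⊢
    simp_rw [← map_pow] at h0 ⊢
    exact sum_smul_eq_zero_of_norm_eq f f' hnorm _ _ _ h0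
  obtain ⟨τ, hτ⟩ := minpoly.exists_algEquiv_of_root'
    (Algebra.IsAlgebraic.isAlgebraic (R := ℚ_[q]) (f pb.gen)) hroot
  refine ⟨τ, ?_⟩
  have h1 : (AlgEquiv.restrictNormalHom F (localGaloisToGlobal q τ) : F →ₐ[ℚ] F) =
      (g : F →ₐ[ℚ] F) := by
    apply pb.algHom_ext
    apply Subtype.ext
    apply padicEmbedding_injective (q := q)
    have h2 := AlgEquiv.restrictNormal_commutes (localGaloisToGlobal q τ) F pb.gen
    calc padicEmbedding q ((AlgEquiv.restrictNormalHom F (localGaloisToGlobal q τ) pb.gen : F) :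
          AlgebraicClosure ℚ)
        = padicEmbedding q (localGaloisToGlobal q τ (pb.gen : AlgebraicClosure ℚ)) :=
          congrArg _ h2
      _ = τ (padicEmbedding q (pb.gen : AlgebraicClosure ℚ)) :=
          padicEmbedding_localGaloisToGlobal q τ _
      _ = f' pb.gen := hτ
  exact AlgEquiv.ext fun x => congrArg (fun φ : F →ₐ[ℚ] F => φ x) h1

end Surj


section Range

variable (F : IntermediateField ℚ (AlgebraicClosure ℚ)) [Normal ℚ F] [FiniteDimensional ℚ F]

/-- **The image of `Gal(ℚ_q(ιF)/ℚ_q)` in `Gal(F/ℚ)` is the decomposition group** of the place of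
`F` below `padicPlace q`. -/
theorem range_resHom :
    (resHom (q := q) F).range = (placeOf (q := q) F).decompositionSubgroup ℚ := by
  apply le_antisymm
  · rintro _ ⟨σ, rfl⟩
    exact resHom_mem_decompositionSubgroup F σ
  · intro g hg
    obtain ⟨τ, hτ⟩ := exists_local_of_mem_decomposition F hg
    exact ⟨AlgEquiv.restrictNormalHom (localField q F) τ, (resHom_restrictNormalHom F τ).trans hτ⟩

/-- `Gal(ℚ_q(ιF)/ℚ_q) ≃* D(placeOf F)`. -/
noncomputable def resEquiv :
    (localField q F ≃ₐ[ℚ_[q]] localField q F) ≃* (placeOf (q := q) F).decompositionSubgroup ℚ :=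
  (MonoidHom.ofInjective (resHom_injective (q := q) F)).trans
    (MulEquiv.subgroupCongr (range_resHom F))

@[simp] theorem coe_resEquiv (σ : localField q F ≃ₐ[ℚ_[q]] localField q F) :
    ((resEquiv F σ : (placeOf (q := q) F).decompositionSubgroup ℚ) : F ≃ₐ[ℚ] F) = resHom F σ := rfl

/-- `[ℚ_q(ιF) : ℚ_q] = |D(placeOf F)|`. -/
theorem finrank_localField_eq_card :
    Module.finrank ℚ_[q] (localField q F) =
      Nat.card ((placeOf (q := q) F).decompositionSubgroup ℚ) := by
  rw [← IsGalois.card_aut_eq_finrank]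
  exact Nat.card_congr (resEquiv F).toEquiv

end Range

section Level

open groupCohomology

/-- every finite subextension of `ℚ̄/ℚ` lies in a finite Galois one. -/
theorem exists_normal_ge (F : IntermediateField ℚ (AlgebraicClosure ℚ)) [FiniteDimensional ℚ F] :
    ∃ F' : IntermediateField ℚ (AlgebraicClosure ℚ), F ≤ F' ∧ FiniteDimensional ℚ F' ∧
      Normal ℚ F' :=
  ⟨IntermediateField.normalClosure ℚ F (AlgebraicClosure ℚ), IntermediateField.le_normalClosure F,
    normalClosure.is_finiteDimensional ℚ F (AlgebraicClosure ℚ),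
    normalClosure.normal ℚ F (AlgebraicClosure ℚ)⟩

/-- local level-constant 1-cochains = those right-invariant under `Gal(ℚ̄_q/ℚ_q(ιF))` for some
finite Galois `F/ℚ`. -/
theorem isLevelConstant₁_local_iff {X : Type*}
    (f : (PadicAlgCl q ≃ₐ[ℚ_[q]] PadicAlgCl q) → X) :
    IsLevelConstant₁ (localGaloisToGlobal q) f ↔
      ∃ F : IntermediateField ℚ (AlgebraicClosure ℚ), FiniteDimensional ℚ F ∧ Normal ℚ F ∧
        ∀ g s, s ∈ (localField q F).fixingSubgroup → f (g * s) = f g := by
  constructor
  · rintro ⟨F, hF, h⟩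
    obtain ⟨F', hle, hfd, hn⟩ := exists_normal_ge F
    refine ⟨F', hfd, hn, fun g s hs => h g s ?_⟩
    exact IntermediateField.fixingSubgroup_antitone hle (mem_fixingSubgroup_localField_iff.1 hs)
  · rintro ⟨F, hF, -, h⟩
    exact ⟨F, hF, fun g s hs => h g s (mem_fixingSubgroup_localField_iff.2 hs)⟩

/-- local level-constant 2-cochains = those right-invariant (in both variables) under
`Gal(ℚ̄_q/ℚ_q(ιF))` for some finite Galois `F/ℚ`. -/
theorem isLevelConstant₂_local_iff {X : Type*}
    (f : (PadicAlgCl q ≃ₐ[ℚ_[q]] PadicAlgCl q) × (PadicAlgCl q ≃ₐ[ℚ_[q]] PadicAlgCl q) → X) :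
    IsLevelConstant₂ (localGaloisToGlobal q) f ↔
      ∃ F : IntermediateField ℚ (AlgebraicClosure ℚ), FiniteDimensional ℚ F ∧ Normal ℚ F ∧
        ∀ g g' s s', s ∈ (localField q F).fixingSubgroup → s' ∈ (localField q F).fixingSubgroup →
          f (g * s, g' * s') = f (g, g') := by
  constructor
  · rintro ⟨F, hF, h⟩
    obtain ⟨F', hle, hfd, hn⟩ := exists_normal_ge F
    refine ⟨F', hfd, hn, fun g g' s s' hs hs' => h g g' s s' ?_ ?_⟩
    · exact IntermediateField.fixingSubgroup_antitone hle (mem_fixingSubgroup_localField_iff.1 hs)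
    · exact IntermediateField.fixingSubgroup_antitone hle (mem_fixingSubgroup_localField_iff.1 hs')
  · rintro ⟨F, hF, -, h⟩
    exact ⟨F, hF, fun g g' s s' hs hs' => h g g' s s' (mem_fixingSubgroup_localField_iff.2 hs)
      (mem_fixingSubgroup_localField_iff.2 hs')⟩

end Level

end Fermat.Agent.S55.Bridge.LocalGlobal
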