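/-
S55 / Bridge (C1): the PRISM HOMOTOPY for homogeneous cochains, degrees ≤ 3, and the dictionary
homogeneous ↔ inhomogeneous cochains (curried shapes).  Mathlib only.  Owner: helper14.

`G` is any type (a group only for the dictionary), `A` an additive commutative group,
`ρ : G → G` ANY function.  Homogeneous `n`-cochains are curried functions of `n+1` variables.

* `D0 … D3` : the homogeneous differentials (alternating sums of omissions);
* `P1 … P3` : pull-back along `ρ` in every variable;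
* `h1 … h3` : the prism operator `(hψ)(a₀,…,a_{n-1}) = Σ_i (-1)^i ψ(a₀,…,a_i,ρ a_i,…,ρ a_{n-1})`;
* `prism1/2/3` : for a cocycle `ψ` (`D_n ψ = 0`): `P_n ψ - ψ = D_{n-1} (h_n ψ)`.
-/
import Mathlib

set_option autoImplicit false

namespace Fermat.Agent.S55.Bridge.Prism

variable {G A : Type*} [AddCommGroup A]

/-! ### homogeneous differentials -/

def D0 (ψ : G → A) : G → G → A := fun a b => ψ b - ψ a

def D1 (ψ : G → G → A) : G → G → G → A := fun a b c => ψ b c - ψ a c + ψ a b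

def D2 (ψ : G → G → G → A) : G → G → G → G → A :=
  fun a b c d => ψ b c d - ψ a c d + ψ a b d - ψ a b c

def D3 (ψ : G → G → G → G → A) : G → G → G → G → G → A :=
  fun a b c d e => ψ b c d e - ψ a c d e + ψ a b d e - ψ a b c e + ψ a b c d

theorem D1_D0 (ψ : G → A) : D1 (D0 ψ) = 0 := by
  funext a b c; simp only [D1, D0, Pi.zero_apply]; abel

theorem D2_D1 (ψ : G → G → A) : D2 (D1 ψ) = 0 := by
  funext a b c d; simp only [D2, D1, Pi.zero_apply]; abel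

theorem D3_D2 (ψ : G → G → G → A) : D3 (D2 ψ) = 0 := by
  funext a b c d e; simp only [D3, D2, Pi.zero_apply]; abel

/-! ### pull-back and prism -/

variable (ρ : G → G)

def P0 (ψ : G → A) : G → A := fun a => ψ (ρ a)
def P1 (ψ : G → G → A) : G → G → A := fun a b => ψ (ρ a) (ρ b)
def P2 (ψ : G → G → G → A) : G → G → G → A := fun a b c => ψ (ρ a) (ρ b) (ρ c)
def P3 (ψ : G → G → G → G → A) : G → G → G → G → A := fun a b c d => ψ (ρ a) (ρ b) (ρ c) (ρ d)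

def h1 (ψ : G → G → A) : G → A := fun a => ψ a (ρ a)

def h2 (ψ : G → G → G → A) : G → G → A := fun a b => ψ a (ρ a) (ρ b) - ψ a b (ρ b)

def h3 (ψ : G → G → G → G → A) : G → G → G → A :=
  fun a b c => ψ a (ρ a) (ρ b) (ρ c) - ψ a b (ρ b) (ρ c) + ψ a b c (ρ c)

/-- `P - id = h D` in degree `0`. -/
theorem prism0 (ψ : G → A) : P0 ρ ψ - ψ = h1 ρ (D0 ψ) := by
  funext a; simp only [P0, h1, D0, Pi.sub_apply]

/-- Prism identity in degree `1` for cocycles. -/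
theorem prism1 (ψ : G → G → A) (hψ : D1 ψ = 0) : P1 ρ ψ - ψ = D0 (h1 ρ ψ) := by
  funext a b
  have e1 := congrFun (congrFun (congrFun hψ a) b) (ρ b)
  have e2 := congrFun (congrFun (congrFun hψ a) (ρ a)) (ρ b)
  simp only [D1, Pi.zero_apply] at e1 e2
  simp only [P1, h1, D0, Pi.sub_apply]
  have : ψ (ρ a) (ρ b) - ψ a b - (ψ b (ρ b) - ψ a (ρ a)) =
      (ψ (ρ a) (ρ b) - ψ a (ρ b) + ψ a (ρ a)) - (ψ b (ρ b) - ψ a (ρ b) + ψ a b) := by abel
  rw [← sub_eq_zero, this, e1, e2, sub_zero]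

/-- Prism identity in degree `2` for cocycles. -/
theorem prism2 (ψ : G → G → G → A) (hψ : D2 ψ = 0) : P2 ρ ψ - ψ = D1 (h2 ρ ψ) := by
  funext a b c
  have e1 := congrFun (congrFun (congrFun (congrFun hψ a) (ρ a)) (ρ b)) (ρ c)
  have e2 := congrFun (congrFun (congrFun (congrFun hψ a) b) (ρ b)) (ρ c)
  have e3 := congrFun (congrFun (congrFun (congrFun hψ a) b) c) (ρ c)
  simp only [D2, Pi.zero_apply] at e1 e2 e3
  simp only [P2, h2, D1, Pi.sub_apply]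
  rw [← sub_eq_zero]
  have : ψ (ρ a) (ρ b) (ρ c) - ψ a b c -
      (ψ b (ρ b) (ρ c) - ψ b c (ρ c) - (ψ a (ρ a) (ρ c) - ψ a c (ρ c)) +
        (ψ a (ρ a) (ρ b) - ψ a b (ρ b))) =
      (ψ (ρ a) (ρ b) (ρ c) - ψ a (ρ b) (ρ c) + ψ a (ρ a) (ρ c) - ψ a (ρ a) (ρ b))
      - (ψ b (ρ b) (ρ c) - ψ a (ρ b) (ρ c) + ψ a b (ρ c) - ψ a b (ρ b))
      + (ψ b c (ρ c) - ψ a c (ρ c) + ψ a b (ρ c) - ψ a b c) := by abel
  rw [this, e1, e2, e3]; abel

/-- Prism identity in degree `3` for cocycles. -/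
theorem prism3 (ψ : G → G → G → G → A) (hψ : D3 ψ = 0) : P3 ρ ψ - ψ = D2 (h3 ρ ψ) := by
  funext a b c d
  have e1 := congrFun (congrFun (congrFun (congrFun (congrFun hψ a) (ρ a)) (ρ b)) (ρ c)) (ρ d)
  have e2 := congrFun (congrFun (congrFun (congrFun (congrFun hψ a) b) (ρ b)) (ρ c)) (ρ d)
  have e3 := congrFun (congrFun (congrFun (congrFun (congrFun hψ a) b) c) (ρ c)) (ρ d)
  have e4 := congrFun (congrFun (congrFun (congrFun (congrFun hψ a) b) c) d) (ρ d)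
  simp only [D3, Pi.zero_apply] at e1 e2 e3 e4
  simp only [P3, h3, D2, Pi.sub_apply]
  rw [← sub_eq_zero]
  have : ψ (ρ a) (ρ b) (ρ c) (ρ d) - ψ a b c d -
      (ψ b (ρ b) (ρ c) (ρ d) - ψ b c (ρ c) (ρ d) + ψ b c d (ρ d) -
        (ψ a (ρ a) (ρ c) (ρ d) - ψ a c (ρ c) (ρ d) + ψ a c d (ρ d)) +
        (ψ a (ρ a) (ρ b) (ρ d) - ψ a b (ρ b) (ρ d) + ψ a b d (ρ d)) -
        (ψ a (ρ a) (ρ b) (ρ c) - ψ a b (ρ b) (ρ c) + ψ a b c (ρ c))) =
      (ψ (ρ a) (ρ b) (ρ c) (ρ d) - ψ a (ρ b) (ρ c) (ρ d) + ψ a (ρ a) (ρ c) (ρ d)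
          - ψ a (ρ a) (ρ b) (ρ d) + ψ a (ρ a) (ρ b) (ρ c))
      - (ψ b (ρ b) (ρ c) (ρ d) - ψ a (ρ b) (ρ c) (ρ d) + ψ a b (ρ c) (ρ d)
          - ψ a b (ρ b) (ρ d) + ψ a b (ρ b) (ρ c))
      + (ψ b c (ρ c) (ρ d) - ψ a c (ρ c) (ρ d) + ψ a b (ρ c) (ρ d)
          - ψ a b c (ρ d) + ψ a b c (ρ c))
      - (ψ b c d (ρ d) - ψ a c d (ρ d) + ψ a b d (ρ d) - ψ a b c (ρ d) + ψ a b c d) := by abel
  rw [this, e1, e2, e3, e4]; abel

end Fermat.Agent.S55.Bridge.Prism
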