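/-
S55 / Bridge (C1): generic cochain-level SHAPIRO LEMMA in degrees ≤ 3 with invariance tracking.
Mathlib only.  Owner: helper14.

`G` a group, `U ≤ G` a subgroup, `σ : Representation k U A`, `r : G → U` a `U`-equivariant
retraction (`r (u * g) = u * r g`; equivalently a choice of right coset representatives).

Cochains of `G` with values in the coinduced module `coind_U^G A` are written CURRIED:
`F : G → … → G → G → A`, the LAST variable being the point of `G` at which the coinduced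
function is evaluated; `Eq_n σ F` says `F g… (u * x) = σ u (F g… x)`.

* `δ0 … δ3`   : inhomogeneous differentials of coind-valued cochains;
* `dU0 … dU3` : inhomogeneous differentials of `U`-cochains with values in `(A, σ)`;
* `Sh_n F := fun u… => F u… 1` (evaluation at `1`), `Sh'_n c` (extension by the retraction);
* `Sh_δ`, `Sh'_dU` : both are cochain maps; `Sh_Sh'` : `Sh ∘ Sh' = id`;
* `homotopy1/2/3` : for a cocycle `F` (equivariant): `Sh' (Sh F) - F = δ (Hom_n F)`;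
* invariance under a normal subgroup `N ≤ U` of `G` is preserved by `Sh`, `Sh'`, `Hom_n`.
-/
import Mathlib
import Fermat.Agent.S55.Bridge.Prism

set_option autoImplicit false
set_option linter.unusedSectionVars false

namespace Fermat.Agent.S55.Bridge.ShapiroGeneric

open Fermat.Agent.S55.Bridge.Prism

section Dictionary

variable {G A : Type*} [Group G] [AddCommGroup A]

/-! ### homogeneous ↔ inhomogeneous (curried; coind-valued) -/

def inh1 (ψ : G → G → A) : G → G → A := fun g x => ψ x (x * g)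
def inh2 (ψ : G → G → G → A) : G → G → G → A := fun g h x => ψ x (x * g) (x * g * h)
def inh3 (ψ : G → G → G → G → A) : G → G → G → G → A :=
  fun g h j x => ψ x (x * g) (x * g * h) (x * g * h * j)
def inh4 (ψ : G → G → G → G → G → A) : G → G → G → G → G → A :=
  fun g h j l x => ψ x (x * g) (x * g * h) (x * g * h * j) (x * g * h * j * l)

def hom1 (F : G → G → A) : G → G → A := fun a b => F (a⁻¹ * b) a
def hom2 (F : G → G → G → A) : G → G → G → A := fun a b c => F (a⁻¹ * b) (b⁻¹ * c) a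
def hom3 (F : G → G → G → G → A) : G → G → G → G → A :=
  fun a b c d => F (a⁻¹ * b) (b⁻¹ * c) (c⁻¹ * d) a
def hom4 (F : G → G → G → G → G → A) : G → G → G → G → G → A :=
  fun a b c d e => F (a⁻¹ * b) (b⁻¹ * c) (c⁻¹ * d) (d⁻¹ * e) a

@[simp] theorem inh1_hom1 (F : G → G → A) : inh1 (hom1 F) = F := by
  funext g x; simp only [inh1, hom1, inv_mul_cancel_left]
@[simp] theorem inh2_hom2 (F : G → G → G → A) : inh2 (hom2 F) = F := by
  funext g h x; simp only [inh2, hom2, inv_mul_cancel_left]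
@[simp] theorem inh3_hom3 (F : G → G → G → G → A) : inh3 (hom3 F) = F := by
  funext g h j x; simp only [inh3, hom3, inv_mul_cancel_left]
@[simp] theorem inh4_hom4 (F : G → G → G → G → G → A) : inh4 (hom4 F) = F := by
  funext g h j l x; simp only [inh4, hom4, inv_mul_cancel_left]

@[simp] theorem hom1_inh1 (ψ : G → G → A) : hom1 (inh1 ψ) = ψ := by
  funext a b; simp only [inh1, hom1, mul_inv_cancel_left]
@[simp] theorem hom2_inh2 (ψ : G → G → G → A) : hom2 (inh2 ψ) = ψ := by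
  funext a b c; simp only [inh2, hom2, mul_inv_cancel_left]
@[simp] theorem hom3_inh3 (ψ : G → G → G → G → A) : hom3 (inh3 ψ) = ψ := by
  funext a b c d; simp only [inh3, hom3, mul_inv_cancel_left]
@[simp] theorem hom4_inh4 (ψ : G → G → G → G → G → A) : hom4 (inh4 ψ) = ψ := by
  funext a b c d e; simp only [inh4, hom4, mul_inv_cancel_left]

/-! ### inhomogeneous differentials of coind-valued cochains -/

def δ0 (e : G → A) : G → G → A := fun g x => e (x * g) - e x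
def δ1 (F : G → G → A) : G → G → G → A := fun g h x => F h (x * g) - F (g * h) x + F g x
def δ2 (F : G → G → G → A) : G → G → G → G → A :=
  fun g h j x => F h j (x * g) - F (g * h) j x + F g (h * j) x - F g h x
def δ3 (F : G → G → G → G → A) : G → G → G → G → G → A :=
  fun g h j l x => F h j l (x * g) - F (g * h) j l x + F g (h * j) l x - F g h (j * l) x + F g h j x

theorem δ0_eq (ψ : G → A) : δ0 ψ = inh1 (D0 ψ) := rfl

theorem δ1_inh1 (ψ : G → G → A) : δ1 (inh1 ψ) = inh2 (D1 ψ) := by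
  funext g h x; simp [δ1, inh1, inh2, D1, mul_assoc]

theorem δ2_inh2 (ψ : G → G → G → A) : δ2 (inh2 ψ) = inh3 (D2 ψ) := by
  funext g h j x; simp [δ2, inh2, inh3, D2, mul_assoc]

theorem δ3_inh3 (ψ : G → G → G → G → A) : δ3 (inh3 ψ) = inh4 (D3 ψ) := by
  funext g h j l x; simp [δ3, inh3, inh4, D3, mul_assoc]

theorem D1_hom1_eq_zero {F : G → G → A} (hF : δ1 F = 0) : D1 (hom1 F) = 0 := by
  have h := δ1_inh1 (hom1 F)
  rw [inh1_hom1, hF] at h
  have := congrArg hom2 h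
  rw [hom2_inh2] at this
  rw [← this]; rfl

theorem D2_hom2_eq_zero {F : G → G → G → A} (hF : δ2 F = 0) : D2 (hom2 F) = 0 := by
  have h := δ2_inh2 (hom2 F)
  rw [inh2_hom2, hF] at h
  have := congrArg hom3 h
  rw [hom3_inh3] at this
  rw [← this]; rfl

theorem D3_hom3_eq_zero {F : G → G → G → G → A} (hF : δ3 F = 0) : D3 (hom3 F) = 0 := by
  have h := δ3_inh3 (hom3 F)
  rw [inh3_hom3, hF] at h
  have := congrArg hom4 h
  rw [hom4_inh4] at this
  rw [← this]; rfl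

end Dictionary

section Shapiro

variable {k G A : Type*} [CommRing k] [Group G] [AddCommGroup A] [Module k A]
variable {U : Subgroup G} (σ : Representation k U A)

/-- A `U`-equivariant retraction `G → U` (= a choice of right coset representatives). -/
structure Retraction (U : Subgroup G) where
  toFun : G → U
  map_mul' : ∀ (u : U) (g : G), toFun ((u : G) * g) = u * toFun g
  map_one' : toFun 1 = 1

namespace Retraction

variable (r : Retraction U)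

/-- the retraction as a map `G → G`. -/
def ρ : G → G := fun x => (r.toFun x : G)

theorem ρ_mul (u : U) (g : G) : r.ρ ((u : G) * g) = (u : G) * r.ρ g := by
  simp [ρ, r.map_mul']

@[simp] theorem toFun_coe (u : U) : r.toFun (u : G) = u := by
  have := r.map_mul' u 1
  rwa [mul_one, r.map_one', mul_one] at this

end Retraction

/-! ### equivariance in the evaluation variable -/

def Eq0 (e : G → A) : Prop := ∀ (u : U) (x : G), e ((u : G) * x) = σ u (e x)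
def Eq1 (F : G → G → A) : Prop := ∀ (u : U) (g x : G), F g ((u : G) * x) = σ u (F g x)
def Eq2 (F : G → G → G → A) : Prop :=
  ∀ (u : U) (g h x : G), F g h ((u : G) * x) = σ u (F g h x)
def Eq3 (F : G → G → G → G → A) : Prop :=
  ∀ (u : U) (g h j x : G), F g h j ((u : G) * x) = σ u (F g h j x)

def HEq0 (ψ : G → A) : Prop := ∀ (u : U) (a : G), ψ ((u : G) * a) = σ u (ψ a)
def HEq1 (ψ : G → G → A) : Prop :=
  ∀ (u : U) (a b : G), ψ ((u : G) * a) ((u : G) * b) = σ u (ψ a b)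
def HEq2 (ψ : G → G → G → A) : Prop :=
  ∀ (u : U) (a b c : G), ψ ((u : G) * a) ((u : G) * b) ((u : G) * c) = σ u (ψ a b c)
def HEq3 (ψ : G → G → G → G → A) : Prop :=
  ∀ (u : U) (a b c d : G),
    ψ ((u : G) * a) ((u : G) * b) ((u : G) * c) ((u : G) * d) = σ u (ψ a b c d)

variable {σ}

theorem HEq1_hom1 {F : G → G → A} (hF : Eq1 σ F) : HEq1 σ (hom1 F) := by
  intro u a b
  simp only [hom1]
  rw [show ((u : G) * a)⁻¹ * ((u : G) * b) = a⁻¹ * b by group]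
  exact hF u _ _

theorem HEq2_hom2 {F : G → G → G → A} (hF : Eq2 σ F) : HEq2 σ (hom2 F) := by
  intro u a b c
  simp only [hom2]
  rw [show ((u : G) * a)⁻¹ * ((u : G) * b) = a⁻¹ * b by group,
    show ((u : G) * b)⁻¹ * ((u : G) * c) = b⁻¹ * c by group]
  exact hF u _ _ _

theorem HEq3_hom3 {F : G → G → G → G → A} (hF : Eq3 σ F) : HEq3 σ (hom3 F) := by
  intro u a b c d
  simp only [hom3]
  rw [show ((u : G) * a)⁻¹ * ((u : G) * b) = a⁻¹ * b by group,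
    show ((u : G) * b)⁻¹ * ((u : G) * c) = b⁻¹ * c by group,
    show ((u : G) * c)⁻¹ * ((u : G) * d) = c⁻¹ * d by group]
  exact hF u _ _ _ _

theorem Eq1_inh1 {ψ : G → G → A} (hψ : HEq1 σ ψ) : Eq1 σ (inh1 ψ) := by
  intro u g x
  simp only [inh1, mul_assoc]
  exact hψ u _ _

theorem Eq2_inh2 {ψ : G → G → G → A} (hψ : HEq2 σ ψ) : Eq2 σ (inh2 ψ) := by
  intro u g h x
  simp only [inh2, mul_assoc]
  exact hψ u _ _ _

theorem Eq3_inh3 {ψ : G → G → G → G → A} (hψ : HEq3 σ ψ) : Eq3 σ (inh3 ψ) := by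
  intro u g h j x
  simp only [inh3, mul_assoc]
  exact hψ u _ _ _ _

variable (r : Retraction U)

theorem HEq0_h1 {ψ : G → G → A} (hψ : HEq1 σ ψ) : HEq0 σ (h1 r.ρ ψ) := by
  intro u a
  simp only [h1, r.ρ_mul]
  exact hψ u _ _

theorem HEq1_h2 {ψ : G → G → G → A} (hψ : HEq2 σ ψ) : HEq1 σ (h2 r.ρ ψ) := by
  intro u a b
  simp only [h2, r.ρ_mul, map_sub]
  rw [hψ u, hψ u]

theorem HEq2_h3 {ψ : G → G → G → G → A} (hψ : HEq3 σ ψ) : HEq2 σ (h3 r.ρ ψ) := by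
  intro u a b c
  simp only [h3, r.ρ_mul, map_sub, map_add]
  rw [hψ u, hψ u, hψ u]

/-! ### the `U`-side: inhomogeneous cochains of `U` with values in `(A, σ)` -/

variable (σ)

def dU0 (a : A) : U → A := fun u => σ u a - a
def dU1 (c : U → A) : U → U → A := fun u v => σ u (c v) - c (u * v) + c u
def dU2 (c : U → U → A) : U → U → U → A :=
  fun u v w => σ u (c v w) - c (u * v) w + c u (v * w) - c u v
def dU3 (c : U → U → U → A) : U → U → U → U → A :=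
  fun u v w z => σ u (c v w z) - c (u * v) w z + c u (v * w) z - c u v (w * z) + c u v w

def homU0 (a : A) : U → A := fun u => σ u a
def homU1 (c : U → A) : U → U → A := fun u v => σ u (c (u⁻¹ * v))
def homU2 (c : U → U → A) : U → U → U → A := fun u v w => σ u (c (u⁻¹ * v) (v⁻¹ * w))
def homU3 (c : U → U → U → A) : U → U → U → U → A :=
  fun u v w z => σ u (c (u⁻¹ * v) (v⁻¹ * w) (w⁻¹ * z))
def homU4 (c : U → U → U → U → A) : U → U → U → U → U → A :=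
  fun u v w z y => σ u (c (u⁻¹ * v) (v⁻¹ * w) (w⁻¹ * z) (z⁻¹ * y))

theorem σ_mul_apply (u v : U) (a : A) : σ (u * v) a = σ u (σ v a) := by
  rw [map_mul]; rfl

theorem homU1_dU0 (a : A) : homU1 σ (dU0 σ a) = D0 (homU0 σ a) := by
  funext u v
  simp only [homU1, dU0, homU0, D0, map_sub, ← σ_mul_apply, mul_inv_cancel_left]

theorem homU2_dU1 (c : U → A) : homU2 σ (dU1 σ c) = D1 (homU1 σ c) := by
  funext u v w
  simp only [homU2, dU1, homU1, D1, map_sub, map_add, ← σ_mul_apply, mul_inv_cancel_left]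
  rw [show u⁻¹ * v * (v⁻¹ * w) = u⁻¹ * w by group]

theorem homU3_dU2 (c : U → U → A) : homU3 σ (dU2 σ c) = D2 (homU2 σ c) := by
  funext u v w z
  simp only [homU3, dU2, homU2, D2, map_sub, map_add, ← σ_mul_apply, mul_inv_cancel_left]
  rw [show u⁻¹ * v * (v⁻¹ * w) = u⁻¹ * w by group,
    show v⁻¹ * w * (w⁻¹ * z) = v⁻¹ * z by group]

theorem homU4_dU3 (c : U → U → U → A) : homU4 σ (dU3 σ c) = D3 (homU3 σ c) := by
  funext u v w z y
  simp only [homU4, dU3, homU3, D3, map_sub, map_add, ← σ_mul_apply, mul_inv_cancel_left]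
  rw [show u⁻¹ * v * (v⁻¹ * w) = u⁻¹ * w by group,
    show v⁻¹ * w * (w⁻¹ * z) = v⁻¹ * z by group,
    show w⁻¹ * z * (z⁻¹ * y) = w⁻¹ * y by group]

/-! ### pull-back along the retraction -/

def ext0 (ψ : U → A) : G → A := fun a => ψ (r.toFun a)
def ext1 (ψ : U → U → A) : G → G → A := fun a b => ψ (r.toFun a) (r.toFun b)
def ext2 (ψ : U → U → U → A) : G → G → G → A :=
  fun a b c => ψ (r.toFun a) (r.toFun b) (r.toFun c)
def ext3 (ψ : U → U → U → U → A) : G → G → G → G → A :=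
  fun a b c d => ψ (r.toFun a) (r.toFun b) (r.toFun c) (r.toFun d)
def ext4 (ψ : U → U → U → U → U → A) : G → G → G → G → G → A :=
  fun a b c d e => ψ (r.toFun a) (r.toFun b) (r.toFun c) (r.toFun d) (r.toFun e)

theorem D0_ext0 (ψ : U → A) : D0 (ext0 r ψ) = ext1 r (D0 ψ) := rfl
theorem D1_ext1 (ψ : U → U → A) : D1 (ext1 r ψ) = ext2 r (D1 ψ) := rfl
theorem D2_ext2 (ψ : U → U → U → A) : D2 (ext2 r ψ) = ext3 r (D2 ψ) := rfl
theorem D3_ext3 (ψ : U → U → U → U → A) : D3 (ext3 r ψ) = ext4 r (D3 ψ) := rfl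

/-! ### the Shapiro maps -/

def Sh0 (e : G → A) : A := e 1
def Sh1 (F : G → G → A) : U → A := fun u => F u 1
def Sh2 (F : G → G → G → A) : U → U → A := fun u v => F u v 1
def Sh3 (F : G → G → G → G → A) : U → U → U → A := fun u v w => F u v w 1
def Sh4 (F : G → G → G → G → G → A) : U → U → U → U → A := fun u v w z => F u v w z 1

def Sh'0 (a : A) : G → A := ext0 r (homU0 σ a)
def Sh'1 (c : U → A) : G → G → A := inh1 (ext1 r (homU1 σ c))
def Sh'2 (c : U → U → A) : G → G → G → A := inh2 (ext2 r (homU2 σ c))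
def Sh'3 (c : U → U → U → A) : G → G → G → G → A := inh3 (ext3 r (homU3 σ c))
def Sh'4 (c : U → U → U → U → A) : G → G → G → G → G → A := inh4 (ext4 r (homU4 σ c))

/-- `Sh'` is a cochain map. -/
theorem δ0_Sh'0 (a : A) : δ0 (Sh'0 σ r a) = Sh'1 σ r (dU0 σ a) := by
  rw [Sh'0, Sh'1, δ0_eq, D0_ext0, homU1_dU0]

theorem δ1_Sh'1 (c : U → A) : δ1 (Sh'1 σ r c) = Sh'2 σ r (dU1 σ c) := by
  rw [Sh'1, Sh'2, δ1_inh1, D1_ext1, homU2_dU1]

theorem δ2_Sh'2 (c : U → U → A) : δ2 (Sh'2 σ r c) = Sh'3 σ r (dU2 σ c) := by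
  rw [Sh'2, Sh'3, δ2_inh2, D2_ext2, homU3_dU2]

theorem δ3_Sh'3 (c : U → U → U → A) : δ3 (Sh'3 σ r c) = Sh'4 σ r (dU3 σ c) := by
  rw [Sh'3, Sh'4, δ3_inh3, D3_ext3, homU4_dU3]

/-- `Sh ∘ Sh' = id`. -/
theorem Sh0_Sh'0 (a : A) : Sh0 (Sh'0 σ r a) = a := by
  simp [Sh0, Sh'0, ext0, homU0, r.map_one']

theorem Sh1_Sh'1 (c : U → A) : Sh1 (Sh'1 σ r c) = c := by
  funext u
  simp [Sh1, Sh'1, inh1, ext1, homU1, r.map_one']

theorem Sh2_Sh'2 (c : U → U → A) : Sh2 (Sh'2 σ r c) = c := by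
  funext u v
  simp only [Sh2, Sh'2, inh2, ext2, homU2, r.map_one', one_mul, ← Subgroup.coe_mul,
    Retraction.toFun_coe, inv_one, map_one, Module.End.one_apply, inv_mul_cancel_left]

theorem Sh3_Sh'3 (c : U → U → U → A) : Sh3 (Sh'3 σ r c) = c := by
  funext u v w
  simp only [Sh3, Sh'3, inh3, ext3, homU3, r.map_one', one_mul, ← Subgroup.coe_mul,
    Retraction.toFun_coe, inv_one, map_one, Module.End.one_apply, inv_mul_cancel_left]

variable {σ}

/-- `Sh` is a cochain map (on equivariant cochains). -/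
theorem Sh1_δ0 {e : G → A} (he : Eq0 σ e) : Sh1 (δ0 e) = dU0 σ (Sh0 e) := by
  funext u
  simp only [Sh1, δ0, dU0, Sh0, one_mul]
  rw [← he u 1, mul_one]

theorem Sh2_δ1 {F : G → G → A} (hF : Eq1 σ F) : Sh2 (δ1 F) = dU1 σ (Sh1 F) := by
  funext u v
  simp only [Sh2, δ1, dU1, Sh1, one_mul, Subgroup.coe_mul]
  rw [← hF u _ 1, mul_one]

theorem Sh3_δ2 {F : G → G → G → A} (hF : Eq2 σ F) : Sh3 (δ2 F) = dU2 σ (Sh2 F) := by
  funext u v w
  simp only [Sh3, δ2, dU2, Sh2, one_mul, Subgroup.coe_mul]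
  rw [← hF u _ _ 1, mul_one]

theorem Sh4_δ3 {F : G → G → G → G → A} (hF : Eq3 σ F) : Sh4 (δ3 F) = dU3 σ (Sh3 F) := by
  funext u v w z
  simp only [Sh4, δ3, dU3, Sh3, one_mul, Subgroup.coe_mul]
  rw [← hF u _ _ _ 1, mul_one]

/-- `Sh' ∘ Sh` is pull-back along the retraction, in homogeneous terms. -/
theorem Sh'1_Sh1 {F : G → G → A} (hF : Eq1 σ F) :
    Sh'1 σ r (Sh1 F) = inh1 (P1 r.ρ (hom1 F)) := by
  unfold Sh'1
  congr 1
  funext a b
  simp only [ext1, homU1, Sh1, P1, hom1, Retraction.ρ]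
  rw [← hF, mul_one]
  simp

theorem Sh'2_Sh2 {F : G → G → G → A} (hF : Eq2 σ F) :
    Sh'2 σ r (Sh2 F) = inh2 (P2 r.ρ (hom2 F)) := by
  unfold Sh'2
  congr 1
  funext a b c
  simp only [ext2, homU2, Sh2, P2, hom2, Retraction.ρ]
  rw [← hF, mul_one]
  simp

theorem Sh'3_Sh3 {F : G → G → G → G → A} (hF : Eq3 σ F) :
    Sh'3 σ r (Sh3 F) = inh3 (P3 r.ρ (hom3 F)) := by
  unfold Sh'3
  congr 1
  funext a b c d
  simp only [ext3, homU3, Sh3, P3, hom3, Retraction.ρ]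
  rw [← hF, mul_one]
  simp

/-! ### the homotopy -/

/-- the homotopy operators (inhomogeneous form). -/
def Hom1 (F : G → G → A) : G → A := h1 r.ρ (hom1 F)
def Hom2 (F : G → G → G → A) : G → G → A := inh1 (h2 r.ρ (hom2 F))
def Hom3 (F : G → G → G → G → A) : G → G → G → A := inh2 (h3 r.ρ (hom3 F))

theorem homotopy1 {F : G → G → A} (hF : Eq1 σ F) (hc : δ1 F = 0) :
    Sh'1 σ r (Sh1 F) - F = δ0 (Hom1 r F) := by
  have h := prism1 r.ρ (hom1 F) (D1_hom1_eq_zero hc)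
  have key : inh1 (P1 r.ρ (hom1 F)) - inh1 (hom1 F) = δ0 (Hom1 r F) := by
    rw [δ0_eq, Hom1, ← h]; rfl
  rwa [inh1_hom1, ← Sh'1_Sh1 r hF] at key

theorem homotopy2 {F : G → G → G → A} (hF : Eq2 σ F) (hc : δ2 F = 0) :
    Sh'2 σ r (Sh2 F) - F = δ1 (Hom2 r F) := by
  have h := prism2 r.ρ (hom2 F) (D2_hom2_eq_zero hc)
  have key : inh2 (P2 r.ρ (hom2 F)) - inh2 (hom2 F) = δ1 (Hom2 r F) := by
    rw [Hom2, δ1_inh1, ← h]; rfl
  rwa [inh2_hom2, ← Sh'2_Sh2 r hF] at key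

theorem homotopy3 {F : G → G → G → G → A} (hF : Eq3 σ F) (hc : δ3 F = 0) :
    Sh'3 σ r (Sh3 F) - F = δ2 (Hom3 r F) := by
  have h := prism3 r.ρ (hom3 F) (D3_hom3_eq_zero hc)
  have key : inh3 (P3 r.ρ (hom3 F)) - inh3 (hom3 F) = δ2 (Hom3 r F) := by
    rw [Hom3, δ2_inh2, ← h]; rfl
  rwa [inh3_hom3, ← Sh'3_Sh3 r hF] at key

theorem Eq0_Hom1 {F : G → G → A} (hF : Eq1 σ F) : Eq0 σ (Hom1 r F) :=
  HEq0_h1 r (HEq1_hom1 hF)

theorem Eq1_Hom2 {F : G → G → G → A} (hF : Eq2 σ F) : Eq1 σ (Hom2 r F) :=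
  Eq1_inh1 (HEq1_h2 r (HEq2_hom2 hF))

theorem Eq2_Hom3 {F : G → G → G → G → A} (hF : Eq3 σ F) : Eq2 σ (Hom3 r F) :=
  Eq2_inh2 (HEq2_h3 r (HEq3_hom3 hF))

end Shapiro

/-! ### invariance under a normal subgroup = factorisation through the quotient -/

section Fac

variable {G X : Type*} [Group G] (N : Subgroup G) [N.Normal]

def Fac1 (F : G → X) : Prop := ∃ F' : G ⧸ N → X, ∀ g, F g = F' g
def Fac2 (F : G → G → X) : Prop := ∃ F' : G ⧸ N → G ⧸ N → X, ∀ g h, F g h = F' g h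
def Fac3 (F : G → G → G → X) : Prop :=
  ∃ F' : G ⧸ N → G ⧸ N → G ⧸ N → X, ∀ g h j, F g h j = F' g h j

omit [N.Normal] in
theorem out_eq_mul (g : G) : ∃ s ∈ N, (Quotient.out (g : G ⧸ N) : G) = g * s := by
  obtain ⟨h, hh⟩ := QuotientGroup.mk_out_eq_mul N g
  exact ⟨h, h.2, hh⟩

theorem fac1_iff {F : G → X} : Fac1 N F ↔ ∀ g, ∀ s ∈ N, F (g * s) = F g := by
  constructor
  · rintro ⟨F', hF'⟩ g s hs
    rw [hF', hF']
    congr 1
    exact (QuotientGroup.mk_mul_of_mem g hs)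
  · intro h
    refine ⟨fun q => F (Quotient.out q), fun g => ?_⟩
    obtain ⟨s, hs, e⟩ := out_eq_mul N g
    change F g = F (Quotient.out (g : G ⧸ N))
    rw [e, h g s hs]

theorem fac2_iff {F : G → G → X} :
    Fac2 N F ↔ ∀ g h, ∀ s ∈ N, F (g * s) h = F g h ∧ F g (h * s) = F g h := by
  constructor
  · rintro ⟨F', hF'⟩ g h s hs
    simp only [hF', QuotientGroup.mk_mul_of_mem _ hs, and_self]
  · intro H
    refine ⟨fun q q' => F (Quotient.out q) (Quotient.out q'), fun g h => ?_⟩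
    obtain ⟨s, hs, e⟩ := out_eq_mul N g
    obtain ⟨s', hs', e'⟩ := out_eq_mul N h
    change F g h = F (Quotient.out (g : G ⧸ N)) (Quotient.out (h : G ⧸ N))
    rw [e, e', (H g (h * s') s hs).1, (H g h s' hs').2]

theorem fac3_iff {F : G → G → G → X} :
    Fac3 N F ↔ ∀ g h j, ∀ s ∈ N,
      F (g * s) h j = F g h j ∧ F g (h * s) j = F g h j ∧ F g h (j * s) = F g h j := by
  constructor
  · rintro ⟨F', hF'⟩ g h j s hs
    simp only [hF', QuotientGroup.mk_mul_of_mem _ hs, and_self]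
  · intro H
    refine ⟨fun q q' q'' => F (Quotient.out q) (Quotient.out q') (Quotient.out q''),
      fun g h j => ?_⟩
    obtain ⟨s, hs, e⟩ := out_eq_mul N g
    obtain ⟨s', hs', e'⟩ := out_eq_mul N h
    obtain ⟨s'', hs'', e''⟩ := out_eq_mul N j
    change F g h j = F (Quotient.out (g : G ⧸ N)) (Quotient.out (h : G ⧸ N))
      (Quotient.out (j : G ⧸ N))
    rw [e, e', e'', (H g (h * s') (j * s'') s hs).1, (H g h (j * s'') s' hs').2.1,
      (H g h j s'' hs'').2.2]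

end Fac

section FacShapiro

variable {k G A : Type*} [CommRing k] [Group G] [AddCommGroup A] [Module k A]
variable {U : Subgroup G} (σ : Representation k U A) (r : Retraction U)
variable (N : Subgroup G) [N.Normal]

/-- homogeneous cochains factoring through `G ⧸ N` in the slots `≥ 1`. -/
def HFac1 (ψ : G → G → A) : Prop := ∃ ψ' : G → G ⧸ N → A, ∀ a b, ψ a b = ψ' a b
def HFac2 (ψ : G → G → G → A) : Prop :=
  ∃ ψ' : G → G ⧸ N → G ⧸ N → A, ∀ a b c, ψ a b c = ψ' a b c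
def HFac3 (ψ : G → G → G → G → A) : Prop :=
  ∃ ψ' : G → G ⧸ N → G ⧸ N → G ⧸ N → A, ∀ a b c d, ψ a b c d = ψ' a b c d

variable {N}

theorem HFac1_hom1 {F : G → G → A} (hF : Fac1 N F) : HFac1 N (hom1 F) := by
  obtain ⟨F', hF'⟩ := hF
  refine ⟨fun a q => F' ((a : G ⧸ N)⁻¹ * q) a, fun a b => ?_⟩
  simp only [hom1, hF', QuotientGroup.mk_mul, QuotientGroup.mk_inv]

theorem HFac2_hom2 {F : G → G → G → A} (hF : Fac2 N F) : HFac2 N (hom2 F) := by
  obtain ⟨F', hF'⟩ := hF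
  refine ⟨fun a q q' => F' ((a : G ⧸ N)⁻¹ * q) (q⁻¹ * q') a, fun a b c => ?_⟩
  simp only [hom2, hF', QuotientGroup.mk_mul, QuotientGroup.mk_inv]

theorem HFac3_hom3 {F : G → G → G → G → A} (hF : Fac3 N F) : HFac3 N (hom3 F) := by
  obtain ⟨F', hF'⟩ := hF
  refine ⟨fun a q q' q'' => F' ((a : G ⧸ N)⁻¹ * q) (q⁻¹ * q') (q'⁻¹ * q'') a,
    fun a b c d => ?_⟩
  simp only [hom3, hF', QuotientGroup.mk_mul, QuotientGroup.mk_inv]

theorem Fac1_inh1 {ψ : G → G → A} (hψ : HFac1 N ψ) : Fac1 N (inh1 ψ) := by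
  obtain ⟨ψ', hψ'⟩ := hψ
  refine ⟨fun q x => ψ' x ((x : G ⧸ N) * q), fun g => ?_⟩
  funext x
  simp only [inh1, hψ', QuotientGroup.mk_mul]

theorem Fac2_inh2 {ψ : G → G → G → A} (hψ : HFac2 N ψ) : Fac2 N (inh2 ψ) := by
  obtain ⟨ψ', hψ'⟩ := hψ
  refine ⟨fun q q' x => ψ' x ((x : G ⧸ N) * q) ((x : G ⧸ N) * q * q'), fun g h => ?_⟩
  funext x
  simp only [inh2, hψ', QuotientGroup.mk_mul]

theorem Fac3_inh3 {ψ : G → G → G → G → A} (hψ : HFac3 N ψ) : Fac3 N (inh3 ψ) := by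
  obtain ⟨ψ', hψ'⟩ := hψ
  refine ⟨fun q q' q'' x => ψ' x ((x : G ⧸ N) * q) ((x : G ⧸ N) * q * q')
    ((x : G ⧸ N) * q * q' * q''), fun g h j => ?_⟩
  funext x
  simp only [inh3, hψ', QuotientGroup.mk_mul]

/-- the retraction descends to the quotients (`N ≤ U` normal in `G`). -/
theorem exists_retraction_quot (hNU : N ≤ U) :
    ∃ r' : G ⧸ N → U ⧸ N.subgroupOf U,
      ∀ x : G, ((r.toFun x : U) : U ⧸ N.subgroupOf U) = r' x := by
  refine ⟨fun q => Quotient.liftOn' q (fun x => ((r.toFun x : U) : U ⧸ N.subgroupOf U)) ?_,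
    fun x => rfl⟩
  intro a b hab
  rw [QuotientGroup.leftRel_apply] at hab
  -- `b = (a s a⁻¹) a` with `s = a⁻¹ b ∈ N`
  have hn : a * (a⁻¹ * b) * a⁻¹ ∈ N := ‹N.Normal›.conj_mem _ hab a
  have hb : b = ((⟨a * (a⁻¹ * b) * a⁻¹, hNU hn⟩ : U) : G) * a := by
    simp
  have e : r.toFun b = ⟨a * (a⁻¹ * b) * a⁻¹, hNU hn⟩ * r.toFun a := by
    conv_lhs => rw [hb]
    exact r.map_mul' _ _
  change ((r.toFun a : U) : U ⧸ N.subgroupOf U) = ((r.toFun b : U) : U ⧸ N.subgroupOf U)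
  rw [QuotientGroup.eq, e, Subgroup.mem_subgroupOf]
  have : ((((r.toFun a)⁻¹ * (⟨a * (a⁻¹ * b) * a⁻¹, hNU hn⟩ * r.toFun a) : U)) : G) =
      ((r.toFun a : U) : G)⁻¹ * (a * (a⁻¹ * b) * a⁻¹) * (((r.toFun a : U) : G)⁻¹)⁻¹ := by
    simp [mul_assoc]
  rw [this]
  exact ‹N.Normal›.conj_mem _ hn _

/-- the natural map `U ⧸ (N ∩ U) → G ⧸ N`. -/
def quotIncl : U ⧸ N.subgroupOf U →* G ⧸ N :=
  QuotientGroup.map (N.subgroupOf U) N U.subtype (fun _ hx => hx)

@[simp] theorem quotIncl_mk (u : U) : quotIncl (N := N) (u : U ⧸ N.subgroupOf U) = ((u : G) : G ⧸ N) :=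
  rfl

theorem exists_ρ_quot (hNU : N ≤ U) :
    ∃ ρ' : G ⧸ N → G ⧸ N, ∀ x : G, ((r.ρ x : G) : G ⧸ N) = ρ' x := by
  obtain ⟨r', hr'⟩ := exists_retraction_quot r hNU
  refine ⟨fun q => quotIncl (r' q), fun x => ?_⟩
  change _ = quotIncl (r' x)
  rw [← hr']
  rfl

theorem HFac1_h2 (hNU : N ≤ U) {ψ : G → G → G → A} (hψ : HFac2 N ψ) : HFac1 N (h2 r.ρ ψ) := by
  obtain ⟨ψ', hψ'⟩ := hψ
  obtain ⟨ρ', hρ'⟩ := exists_ρ_quot r hNU
  refine ⟨fun a q => ψ' a (r.ρ a : G) (ρ' q) - ψ' a q (ρ' q), fun a b => ?_⟩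
  simp only [h2, hψ', hρ']

theorem HFac2_h3 (hNU : N ≤ U) {ψ : G → G → G → G → A} (hψ : HFac3 N ψ) :
    HFac2 N (h3 r.ρ ψ) := by
  obtain ⟨ψ', hψ'⟩ := hψ
  obtain ⟨ρ', hρ'⟩ := exists_ρ_quot r hNU
  refine ⟨fun a q q' => ψ' a (r.ρ a : G) (ρ' q) (ρ' q') - ψ' a q (ρ' q) (ρ' q')
    + ψ' a q q' (ρ' q'), fun a b c => ?_⟩
  simp only [h3, hψ', hρ']

theorem Fac1_Hom2 (hNU : N ≤ U) {F : G → G → G → A} (hF : Fac2 N F) : Fac1 N (Hom2 r F) :=
  Fac1_inh1 (HFac1_h2 r hNU (HFac2_hom2 hF))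

theorem Fac2_Hom3 (hNU : N ≤ U) {F : G → G → G → G → A} (hF : Fac3 N F) :
    Fac2 N (Hom3 r F) :=
  Fac2_inh2 (HFac2_h3 r hNU (HFac3_hom3 hF))

/-- `Sh'` preserves invariance. -/
theorem Fac1_Sh'1 (hNU : N ≤ U) {c : U → A} (hc : Fac1 (N.subgroupOf U) c) :
    Fac1 N (Sh'1 σ r c) := by
  obtain ⟨c', hc'⟩ := hc
  obtain ⟨r', hr'⟩ := exists_retraction_quot r hNU
  refine Fac1_inh1 ⟨fun a q => σ (r.toFun a)
    (c' (((r.toFun a : U) : U ⧸ N.subgroupOf U)⁻¹ * r' q)), fun a b => ?_⟩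
  simp only [ext1, homU1, hc', QuotientGroup.mk_mul, QuotientGroup.mk_inv, hr']

theorem Fac2_Sh'2 (hNU : N ≤ U) {c : U → U → A} (hc : Fac2 (N.subgroupOf U) c) :
    Fac2 N (Sh'2 σ r c) := by
  obtain ⟨c', hc'⟩ := hc
  obtain ⟨r', hr'⟩ := exists_retraction_quot r hNU
  refine Fac2_inh2 ⟨fun a q q' => σ (r.toFun a)
    (c' (((r.toFun a : U) : U ⧸ N.subgroupOf U)⁻¹ * r' q) ((r' q)⁻¹ * r' q')), fun a b c => ?_⟩
  simp only [ext2, homU2, hc', QuotientGroup.mk_mul, QuotientGroup.mk_inv, hr']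

theorem Fac3_Sh'3 (hNU : N ≤ U) {c : U → U → U → A} (hc : Fac3 (N.subgroupOf U) c) :
    Fac3 N (Sh'3 σ r c) := by
  obtain ⟨c', hc'⟩ := hc
  obtain ⟨r', hr'⟩ := exists_retraction_quot r hNU
  refine Fac3_inh3 ⟨fun a q q' q'' => σ (r.toFun a)
    (c' (((r.toFun a : U) : U ⧸ N.subgroupOf U)⁻¹ * r' q) ((r' q)⁻¹ * r' q')
      ((r' q')⁻¹ * r' q'')), fun a b c d => ?_⟩
  simp only [ext3, homU3, hc', QuotientGroup.mk_mul, QuotientGroup.mk_inv, hr']

/-- `Sh` preserves invariance. -/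
theorem Fac1_Sh1 {F : G → G → A} (hF : Fac1 N F) : Fac1 (N.subgroupOf U) (Sh1 (U := U) F) := by
  obtain ⟨F', hF'⟩ := hF
  refine ⟨fun q => F' (quotIncl q) 1, fun u => ?_⟩
  simp only [Sh1, hF', quotIncl_mk]

theorem Fac2_Sh2 {F : G → G → G → A} (hF : Fac2 N F) :
    Fac2 (N.subgroupOf U) (Sh2 (U := U) F) := by
  obtain ⟨F', hF'⟩ := hF
  refine ⟨fun q q' => F' (quotIncl q) (quotIncl q') 1, fun u v => ?_⟩
  simp only [Sh2, hF', quotIncl_mk]

theorem Fac3_Sh3 {F : G → G → G → G → A} (hF : Fac3 N F) :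
    Fac3 (N.subgroupOf U) (Sh3 (U := U) F) := by
  obtain ⟨F', hF'⟩ := hF
  refine ⟨fun q q' q'' => F' (quotIncl q) (quotIncl q') (quotIncl q'') 1, fun u v w => ?_⟩
  simp only [Sh3, hF', quotIncl_mk]

end FacShapiro

/-! ### equivariance of `Sh'`, linearity, and the packaged statements -/

section Packaged

variable {k G A : Type*} [CommRing k] [Group G] [AddCommGroup A] [Module k A]
variable {U : Subgroup G} (σ : Representation k U A) (r : Retraction U)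

theorem Eq0_Sh'0 (a : A) : Eq0 σ (Sh'0 σ r a) := by
  intro u x
  simp only [Sh'0, ext0, homU0, r.map_mul', σ_mul_apply]

theorem Eq1_Sh'1 (c : U → A) : Eq1 σ (Sh'1 σ r c) := by
  refine Eq1_inh1 fun u a b => ?_
  simp only [ext1, homU1, r.map_mul', σ_mul_apply]
  rw [show (u * r.toFun a)⁻¹ * (u * r.toFun b) = (r.toFun a)⁻¹ * r.toFun b by group]

theorem Eq2_Sh'2 (c : U → U → A) : Eq2 σ (Sh'2 σ r c) := by
  refine Eq2_inh2 fun u a b d => ?_
  simp only [ext2, homU2, r.map_mul', σ_mul_apply]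
  rw [show (u * r.toFun a)⁻¹ * (u * r.toFun b) = (r.toFun a)⁻¹ * r.toFun b by group,
    show (u * r.toFun b)⁻¹ * (u * r.toFun d) = (r.toFun b)⁻¹ * r.toFun d by group]

theorem Eq3_Sh'3 (c : U → U → U → A) : Eq3 σ (Sh'3 σ r c) := by
  refine Eq3_inh3 fun u a b d e => ?_
  simp only [ext3, homU3, r.map_mul', σ_mul_apply]
  rw [show (u * r.toFun a)⁻¹ * (u * r.toFun b) = (r.toFun a)⁻¹ * r.toFun b by group,
    show (u * r.toFun b)⁻¹ * (u * r.toFun d) = (r.toFun b)⁻¹ * r.toFun d by group,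
    show (u * r.toFun d)⁻¹ * (u * r.toFun e) = (r.toFun d)⁻¹ * r.toFun e by group]

theorem Sh'1_zero : Sh'1 σ r (0 : U → A) = 0 := by
  funext g x; simp [Sh'1, inh1, ext1, homU1]
theorem Sh'2_zero : Sh'2 σ r (0 : U → U → A) = 0 := by
  funext g h x; simp [Sh'2, inh2, ext2, homU2]
theorem Sh'3_zero : Sh'3 σ r (0 : U → U → U → A) = 0 := by
  funext g h j x; simp [Sh'3, inh3, ext3, homU3]
theorem Sh'4_zero : Sh'4 σ r (0 : U → U → U → U → A) = 0 := by
  funext g h j l x; simp [Sh'4, inh4, ext4, homU4]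

theorem Sh'1_add (c c' : U → A) : Sh'1 σ r (c + c') = Sh'1 σ r c + Sh'1 σ r c' := by
  funext g x; simp [Sh'1, inh1, ext1, homU1]
theorem Sh'2_add (c c' : U → U → A) : Sh'2 σ r (c + c') = Sh'2 σ r c + Sh'2 σ r c' := by
  funext g h x; simp [Sh'2, inh2, ext2, homU2]
theorem Sh'3_add (c c' : U → U → U → A) : Sh'3 σ r (c + c') = Sh'3 σ r c + Sh'3 σ r c' := by
  funext g h j x; simp [Sh'3, inh3, ext3, homU3]

theorem Sh'1_smul (t : k) (c : U → A) : Sh'1 σ r (t • c) = t • Sh'1 σ r c := by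
  funext g x; simp [Sh'1, inh1, ext1, homU1]
theorem Sh'2_smul (t : k) (c : U → U → A) : Sh'2 σ r (t • c) = t • Sh'2 σ r c := by
  funext g h x; simp [Sh'2, inh2, ext2, homU2]
theorem Sh'3_smul (t : k) (c : U → U → U → A) : Sh'3 σ r (t • c) = t • Sh'3 σ r c := by
  funext g h j x; simp [Sh'3, inh3, ext3, homU3]

variable {σ} (N : Subgroup G) [N.Normal]

theorem Fac1_sub {X : Type*} [AddGroup X] {F F' : G → X} (h : Fac1 N F) (h' : Fac1 N F') :
    Fac1 N (F - F') := by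
  obtain ⟨a, ha⟩ := h
  obtain ⟨b, hb⟩ := h'
  exact ⟨a - b, fun g => by simp [ha, hb]⟩

theorem Fac2_sub {X : Type*} [AddGroup X] {F F' : G → G → X} (h : Fac2 N F) (h' : Fac2 N F') :
    Fac2 N (F - F') := by
  obtain ⟨a, ha⟩ := h
  obtain ⟨b, hb⟩ := h'
  exact ⟨a - b, fun g g' => by simp [ha, hb]⟩

theorem Eq0_sub {e e' : G → A} (h : Eq0 σ e) (h' : Eq0 σ e') : Eq0 σ (e - e') := by
  intro u x; simp [h u x, h' u x]

theorem Eq1_sub {F F' : G → G → A} (h : Eq1 σ F) (h' : Eq1 σ F') : Eq1 σ (F - F') := by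
  intro u g x; simp [h u g x, h' u g x]

theorem Eq2_sub {F F' : G → G → G → A} (h : Eq2 σ F) (h' : Eq2 σ F') : Eq2 σ (F - F') := by
  intro u g g' x; simp [h u g g' x, h' u g g' x]

theorem δ0_sub (e e' : G → A) : δ0 (e - e') = δ0 e - δ0 e' := by
  funext g x; simp only [δ0, Pi.sub_apply]; abel
theorem δ1_sub (F F' : G → G → A) : δ1 (F - F') = δ1 F - δ1 F' := by
  funext g h x; simp only [δ1, Pi.sub_apply]; abel
theorem δ2_sub (F F' : G → G → G → A) : δ2 (F - F') = δ2 F - δ2 F' := by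
  funext g h j x; simp only [δ2, Pi.sub_apply]; abel

include r in
/-- **Shapiro, injectivity in degree 1.** -/
theorem shapiro_inj1 {F : G → G → A} (hF : Eq1 σ F) (hc : δ1 F = 0) {a : A}
    (h : Sh1 F = dU0 σ a) : ∃ e : G → A, Eq0 σ e ∧ F = δ0 e := by
  refine ⟨Sh'0 σ r a - Hom1 r F, Eq0_sub (Eq0_Sh'0 σ r a) (Eq0_Hom1 r hF), ?_⟩
  have h1 := homotopy1 r hF hc
  rw [h, ← δ0_Sh'0] at h1
  rw [δ0_sub, ← h1]; abel

include r in
/-- **Shapiro, injectivity in degree 2.** -/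
theorem shapiro_inj2 (hNU : N ≤ U) {F : G → G → G → A} (hF : Eq2 σ F) (hFN : Fac2 N F)
    (hc : δ2 F = 0) {c : U → A} (hcN : Fac1 (N.subgroupOf U) c) (h : Sh2 F = dU1 σ c) :
    ∃ E : G → G → A, Eq1 σ E ∧ Fac1 N E ∧ F = δ1 E := by
  refine ⟨Sh'1 σ r c - Hom2 r F, Eq1_sub (Eq1_Sh'1 σ r c) (Eq1_Hom2 r hF),
    Fac1_sub N (Fac1_Sh'1 σ r hNU hcN) (Fac1_Hom2 r hNU hFN), ?_⟩
  have h1 := homotopy2 r hF hc
  rw [h, ← δ1_Sh'1] at h1
  rw [δ1_sub, ← h1]; abel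

include r in
/-- **Shapiro, injectivity in degree 3.** -/
theorem shapiro_inj3 (hNU : N ≤ U) {F : G → G → G → G → A} (hF : Eq3 σ F) (hFN : Fac3 N F)
    (hc : δ3 F = 0) {c : U → U → A} (hcN : Fac2 (N.subgroupOf U) c) (h : Sh3 F = dU2 σ c) :
    ∃ E : G → G → G → A, Eq2 σ E ∧ Fac2 N E ∧ F = δ2 E := by
  refine ⟨Sh'2 σ r c - Hom3 r F, Eq2_sub (Eq2_Sh'2 σ r c) (Eq2_Hom3 r hF),
    Fac2_sub N (Fac2_Sh'2 σ r hNU hcN) (Fac2_Hom3 r hNU hFN), ?_⟩
  have h1 := homotopy3 r hF hc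
  rw [h, ← δ2_Sh'2] at h1
  rw [δ2_sub, ← h1]; abel

/-- **Shapiro, surjectivity in degree 1/2/3**: `Sh' c` is an equivariant invariant cocycle with
`Sh (Sh' c) = c`. -/
theorem shapiro_surj1 (hNU : N ≤ U) {c : U → A} (hc : dU1 σ c = 0)
    (hcN : Fac1 (N.subgroupOf U) c) :
    Eq1 σ (Sh'1 σ r c) ∧ Fac1 N (Sh'1 σ r c) ∧ δ1 (Sh'1 σ r c) = 0 ∧ Sh1 (Sh'1 σ r c) = c :=
  ⟨Eq1_Sh'1 σ r c, Fac1_Sh'1 σ r hNU hcN, by rw [δ1_Sh'1, hc, Sh'2_zero], Sh1_Sh'1 σ r c⟩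

theorem shapiro_surj2 (hNU : N ≤ U) {c : U → U → A} (hc : dU2 σ c = 0)
    (hcN : Fac2 (N.subgroupOf U) c) :
    Eq2 σ (Sh'2 σ r c) ∧ Fac2 N (Sh'2 σ r c) ∧ δ2 (Sh'2 σ r c) = 0 ∧ Sh2 (Sh'2 σ r c) = c :=
  ⟨Eq2_Sh'2 σ r c, Fac2_Sh'2 σ r hNU hcN, by rw [δ2_Sh'2, hc, Sh'3_zero], Sh2_Sh'2 σ r c⟩

theorem shapiro_surj3 (hNU : N ≤ U) {c : U → U → U → A} (hc : dU3 σ c = 0)
    (hcN : Fac3 (N.subgroupOf U) c) :
    Eq3 σ (Sh'3 σ r c) ∧ Fac3 N (Sh'3 σ r c) ∧ δ3 (Sh'3 σ r c) = 0 ∧ Sh3 (Sh'3 σ r c) = c :=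
  ⟨Eq3_Sh'3 σ r c, Fac3_Sh'3 σ r hNU hcN, by rw [δ3_Sh'3, hc, Sh'4_zero], Sh3_Sh'3 σ r c⟩

end Packaged

/-! ### existence of retractions -/

section Exists

variable {G : Type*} [Group G] (U : Subgroup G)

/-- Retractions normalised on a prescribed set `T ∋ 1` of representatives of pairwise distinct
right cosets: `r t = 1` for all `t ∈ T`. -/
theorem exists_retraction_of (T : Set G) (h1 : (1 : G) ∈ T)
    (hT : ∀ t ∈ T, ∀ t' ∈ T, t * t'⁻¹ ∈ U → t = t') :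
    ∃ r : Retraction U, ∀ t ∈ T, r.toFun t = 1 := by
  classical
  let mk : G → Quotient (QuotientGroup.rightRel U) := Quotient.mk (QuotientGroup.rightRel U)
  have hmk : ∀ a b : G, mk a = mk b ↔ b * a⁻¹ ∈ U := fun a b =>
    ⟨fun h => (QuotientGroup.rightRel_apply).1 (Quotient.exact h),
      fun h => Quotient.sound ((QuotientGroup.rightRel_apply).2 h)⟩
  let rep : Quotient (QuotientGroup.rightRel U) → G := fun q =>
    if h : ∃ t ∈ T, mk t = q then h.choose else Quotient.out q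
  have hrep : ∀ q, mk (rep q) = q := by
    intro q
    by_cases h : ∃ t ∈ T, mk t = q
    · simp only [rep, dif_pos h]; exact h.choose_spec.2
    · simp only [rep, dif_neg h]; exact Quotient.out_eq q
  have hrepT : ∀ t ∈ T, rep (mk t) = t := by
    intro t ht
    have h : ∃ t' ∈ T, mk t' = mk t := ⟨t, ht, rfl⟩
    simp only [rep, dif_pos h]
    have h2 := h.choose_spec
    have h3 : t * h.choose⁻¹ ∈ U := (hmk _ _).1 h2.2
    exact (hT t ht _ h2.1 h3).symm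
  have ht : ∀ g, g * (rep (mk g))⁻¹ ∈ U := fun g => (hmk _ _).1 (hrep (mk g))
  have htu : ∀ (u : U) (g : G), mk ((u : G) * g) = mk g := by
    intro u g
    rw [hmk]
    simp
  refine ⟨{ toFun := fun g => ⟨g * (rep (mk g))⁻¹, ht g⟩
            map_mul' := fun u g => ?_
            map_one' := ?_ }, fun t ht => ?_⟩
  · apply Subtype.ext
    simp only [htu, Subgroup.coe_mul, mul_assoc]
  · apply Subtype.ext
    simp [hrepT 1 h1]
  · apply Subtype.ext
    simp [hrepT t ht]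

/-- Every subgroup admits an equivariant retraction. -/
theorem exists_retraction : Nonempty (Retraction U) := by
  obtain ⟨r, -⟩ := exists_retraction_of U {1} rfl (by
    intro t ht t' ht' _
    rw [Set.mem_singleton_iff] at ht ht'
    rw [ht, ht'])
  exact ⟨r⟩

end Exists

end Fermat.Agent.S55.Bridge.ShapiroGeneric
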