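/-
S55 / Bridge: the MACKEY decomposition in the concrete function language of `ShapiroGeneric`.
Owner: helper82 (row `Bridge.Mackey` of helper14 #1554 (4)).

`f : D →* G` a group homomorphism, `V ≤ G` a subgroup, `σ : Representation k V A`.  The coinduced
module `coind_V^G A` is the set of `φ : G → A` with `φ (v * x) = σ v (φ x)` (`Eq0 σ φ`), with `G`
acting by right translation; `D` acts through `f`.

For `t : G` put `D_t := f⁻¹(t⁻¹ V t) = {d | t * f d * t⁻¹ ∈ V}` (`conjSub f V t`),
`κ_t : D_t →* V`, `d ↦ t * f d * t⁻¹` (`conjHom f V t`), and `σ_t := σ ∘ κ_t` (`conjRep σ f t`).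

* `mackeyMap f T φ t d := φ (t * f d)`; it maps `coind_V^G A` to `∏_{t ∈ T} coind_{D_t}^D A_t`
  (`eq0_mackeyMap`), commutes with the right translation action of `D` (`mackeyMap_translate`),
  and is BIJECTIVE when `T` is a set of representatives of the double cosets `V \ G / f(D)`
  (`mackeyMap_injective`, `mackeyMap_surjective`, packaged as `mackeyEquiv`).
* cochain identity: for a retraction `r : Retraction V` normalised on `T` (`r t = 1`, from
  `ShapiroGeneric.exists_retraction_of`): `r (t * f d) = κ_t d` for `d ∈ D_t`, and therefore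
  `(Sh'_n σ r c) (f d₁) … (f d_n) t = c (κ_t d₁) … (κ_t d_n)` for `d_i ∈ D_t`, `n = 0, 1, 2, 3`:
  evaluating `Sh' c` at `t` and restricting along `f` IS the pull-back of `c` along `κ_t`.
-/
import Mathlib
import Fermat.Agent.S55.Bridge.ShapiroGeneric

set_option autoImplicit false
set_option linter.unusedSectionVars false

namespace Fermat.Agent.S55.Bridge.Mackey

open Fermat.Agent.S55.Bridge.ShapiroGeneric

section Defs

variable {D G : Type*} [Group D] [Group G] (f : D →* G) (V : Subgroup G)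

/-- `D_t = f⁻¹ (t⁻¹ V t)`. -/
def conjSub (t : G) : Subgroup D where
  carrier := {d | t * f d * t⁻¹ ∈ V}
  one_mem' := by simp
  mul_mem' := by
    intro a b ha hb
    have h : t * f (a * b) * t⁻¹ = (t * f a * t⁻¹) * (t * f b * t⁻¹) := by
      rw [map_mul]; group
    show t * f (a * b) * t⁻¹ ∈ V
    rw [h]
    exact V.mul_mem ha hb
  inv_mem' := by
    intro a ha
    have h : t * f a⁻¹ * t⁻¹ = (t * f a * t⁻¹)⁻¹ := by
      rw [map_inv]; group
    show t * f a⁻¹ * t⁻¹ ∈ V
    rw [h]
    exact V.inv_mem ha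

variable {f V}

theorem mem_conjSub {t : G} {d : D} : d ∈ conjSub f V t ↔ t * f d * t⁻¹ ∈ V := Iff.rfl

variable (f V)

/-- `κ_t : D_t →* V`, `d ↦ t * f d * t⁻¹`. -/
def conjHom (t : G) : conjSub f V t →* V where
  toFun d := ⟨t * f d * t⁻¹, d.2⟩
  map_one' := by
    apply Subtype.ext
    simp
  map_mul' a b := by
    apply Subtype.ext
    show t * f ((a : D) * (b : D)) * t⁻¹ = (t * f a * t⁻¹) * (t * f b * t⁻¹)
    rw [map_mul]; group

@[simp] theorem coe_conjHom (t : G) (d : conjSub f V t) :
    ((conjHom f V t d : V) : G) = t * f d * t⁻¹ := rfl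

end Defs

section Mackey

variable {k D G A : Type*} [CommRing k] [Group D] [Group G] [AddCommGroup A] [Module k A]
variable {V : Subgroup G} (σ : Representation k V A) (f : D →* G)

/-- `σ_t = σ ∘ κ_t`, the representation of `D_t` on `A`. -/
def conjRep (t : G) : Representation k (conjSub f V t) A := σ.comp (conjHom f V t)

@[simp] theorem conjRep_apply (t : G) (d : conjSub f V t) (a : A) :
    conjRep σ f t d a = σ (conjHom f V t d) a := rfl

/-- the Mackey map `φ ↦ (d ↦ φ (t * f d))_t`. -/
def mackeyMap (T : Set G) (φ : G → A) : T → D → A := fun t d => φ ((t : G) * f d)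

@[simp] theorem mackeyMap_apply (T : Set G) (φ : G → A) (t : T) (d : D) :
    mackeyMap f T φ t d = φ ((t : G) * f d) := rfl

/-- the components of the Mackey map are equivariant for `σ_t`. -/
theorem eq0_mackeyMap (T : Set G) {φ : G → A} (hφ : Eq0 σ φ) (t : T) :
    Eq0 (conjRep σ f (t : G)) (mackeyMap f T φ t) := by
  intro e d
  simp only [mackeyMap_apply, conjRep_apply]
  rw [← hφ]
  congr 1
  rw [map_mul, coe_conjHom]
  group

/-- the Mackey map commutes with right translation by `D`. -/
theorem mackeyMap_translate (T : Set G) (φ : G → A) (d' : D) :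
    mackeyMap f T (fun x => φ (x * f d')) = fun t d => mackeyMap f T φ t (d * d') := by
  funext t d
  simp only [mackeyMap_apply, map_mul, mul_assoc]

/-- `T` meets every double coset `V g f(D)`. -/
def Covers (T : Set G) : Prop := ∀ g : G, ∃ t ∈ T, ∃ (v : V) (d : D), g = (v : G) * t * f d

/-- distinct elements of `T` lie in distinct double cosets. -/
def Separated (T : Set G) : Prop :=
  ∀ t ∈ T, ∀ t' ∈ T, (∃ (v : V) (d : D), t' = (v : G) * t * f d) → t = t'

variable {σ f}

theorem mackeyMap_injective {T : Set G} (hT : Covers (V := V) f T) {φ φ' : G → A}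
    (hφ : Eq0 σ φ) (hφ' : Eq0 σ φ') (h : mackeyMap f T φ = mackeyMap f T φ') : φ = φ' := by
  funext g
  obtain ⟨t, ht, v, d, rfl⟩ := hT g
  have h1 := congrFun (congrFun h ⟨t, ht⟩) d
  simp only [mackeyMap_apply] at h1
  rw [mul_assoc, hφ, hφ', h1]

/-- well-definedness: the value `σ v (ψ t d)` only depends on the element `v * t * f d`. -/
theorem mackey_wellDefined {T : Set G} (hS : Separated (V := V) f T)
    (ψ : T → D → A) (hψ : ∀ t : T, Eq0 (conjRep σ f (t : G)) (ψ t))
    (t t' : T) (v v' : V) (d d' : D) (h : (v : G) * t * f d = (v' : G) * t' * f d') :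
    σ v (ψ t d) = σ v' (ψ t' d') := by
  have htt' : t = t' := by
    apply Subtype.ext
    refine hS _ t.2 _ t'.2 ⟨v'⁻¹ * v, d * d'⁻¹, ?_⟩
    have h2 : (t' : G) = (v' : G)⁻¹ * ((v' : G) * t' * f d') * (f d')⁻¹ := by group
    rw [h2, ← h, Subgroup.coe_mul, Subgroup.coe_inv, map_mul, map_inv]
    group
  subst htt'
  have hmem : (t : G) * f (d' * d⁻¹) * (t : G)⁻¹ = ((v'⁻¹ * v : V) : G) := by
    have h2 : (t : G) * f d' = (v' : G)⁻¹ * ((v' : G) * t * f d') := by group
    rw [map_mul, map_inv, Subgroup.coe_mul, Subgroup.coe_inv, ← mul_assoc, h2, ← h]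
    group
  have he : d' * d⁻¹ ∈ conjSub f V (t : G) := by
    rw [mem_conjSub, hmem]
    exact (v'⁻¹ * v).2
  have hk : conjHom f V (t : G) ⟨d' * d⁻¹, he⟩ = v'⁻¹ * v := Subtype.ext hmem
  have h3 : ψ t d' = σ (v'⁻¹ * v) (ψ t d) := by
    have := hψ t ⟨d' * d⁻¹, he⟩ d
    simp only [conjRep_apply, hk] at this
    rw [← this]
    congr 1
    simp
  rw [h3, ← σ_mul_apply, mul_inv_cancel_left]

theorem mackeyMap_surjective {T : Set G} (hT : Covers (V := V) f T) (hS : Separated (V := V) f T)
    (ψ : T → D → A) (hψ : ∀ t : T, Eq0 (conjRep σ f (t : G)) (ψ t)) :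
    ∃ φ : G → A, Eq0 σ φ ∧ mackeyMap f T φ = ψ := by
  classical
  choose tt htt vv dd hg using hT
  refine ⟨fun g => σ (vv g) (ψ ⟨tt g, htt g⟩ (dd g)), ?_, ?_⟩
  · intro v x
    show σ (vv ((v : G) * x)) (ψ ⟨tt ((v : G) * x), htt _⟩ (dd ((v : G) * x))) =
      σ v (σ (vv x) (ψ ⟨tt x, htt x⟩ (dd x)))
    rw [← σ_mul_apply]
    apply mackey_wellDefined hS ψ hψ
    have e1 : ((vv ((v : G) * x) : V) : G) * tt ((v : G) * x) * f (dd ((v : G) * x)) =
        (v : G) * x := (hg _).symm
    have e2 : ((v * vv x : V) : G) * tt x * f (dd x) = (v : G) * x := by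
      calc ((v * vv x : V) : G) * tt x * f (dd x)
          = (v : G) * (((vv x : V) : G) * tt x * f (dd x)) := by
            rw [Subgroup.coe_mul]; group
        _ = (v : G) * x := by rw [← hg x]
    exact e1.trans e2.symm
  · funext t d
    show σ (vv ((t : G) * f d)) (ψ ⟨tt ((t : G) * f d), htt _⟩ (dd ((t : G) * f d))) = ψ t d
    have := mackey_wellDefined hS ψ hψ ⟨tt ((t : G) * f d), htt _⟩ t (vv ((t : G) * f d)) 1
      (dd ((t : G) * f d)) d (by
        have e1 : ((vv ((t : G) * f d) : V) : G) * tt ((t : G) * f d) * f (dd ((t : G) * f d)) =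
            (t : G) * f d := (hg _).symm
        simpa using e1)
    rw [this, map_one, Module.End.one_apply]

end Mackey

/-! ### packaging: the Mackey isomorphism as a `k`-linear equivalence -/

section Equiv

variable {k D G A : Type*} [CommRing k] [Group D] [Group G] [AddCommGroup A] [Module k A]
variable {V : Subgroup G} (σ : Representation k V A) (f : D →* G)

/-- `coind_V^G A` as a `k`-submodule of `G → A`. -/
def coindSub : Submodule k (G → A) where
  carrier := {φ | Eq0 σ φ}
  add_mem' := by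
    intro a b ha hb u x
    simp only [Pi.add_apply, ha u x, hb u x, map_add]
  zero_mem' := by
    intro u x
    simp only [Pi.zero_apply, map_zero]
  smul_mem' := by
    intro c a ha u x
    simp only [Pi.smul_apply, ha u x, map_smul]

theorem mem_coindSub {φ : G → A} : φ ∈ coindSub σ ↔ Eq0 σ φ := Iff.rfl

/-- `∏_{t ∈ T} coind_{D_t}^D A_t` as a `k`-submodule of `T → D → A`. -/
def prodCoindSub (T : Set G) : Submodule k (T → D → A) where
  carrier := {ψ | ∀ t : T, Eq0 (conjRep σ f (t : G)) (ψ t)}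
  add_mem' := by
    intro a b ha hb t u x
    simp only [Pi.add_apply, ha t u x, hb t u x, map_add]
  zero_mem' := by
    intro t u x
    simp only [Pi.zero_apply, map_zero]
  smul_mem' := by
    intro c a ha t u x
    simp only [Pi.smul_apply, ha t u x, map_smul]

theorem mem_prodCoindSub {T : Set G} {ψ : T → D → A} :
    ψ ∈ prodCoindSub σ f T ↔ ∀ t : T, Eq0 (conjRep σ f (t : G)) (ψ t) := Iff.rfl

/-- the Mackey map as a `k`-linear map `coind_V^G A → ∏_t coind_{D_t}^D A_t`. -/
def mackeyLin (T : Set G) : coindSub σ →ₗ[k] prodCoindSub σ f T where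
  toFun φ := ⟨mackeyMap f T φ.1, fun t => eq0_mackeyMap σ f T φ.2 t⟩
  map_add' _ _ := rfl
  map_smul' _ _ := rfl

@[simp] theorem mackeyLin_apply (T : Set G) (φ : coindSub σ) (t : T) (d : D) :
    (mackeyLin σ f T φ).1 t d = φ.1 ((t : G) * f d) := rfl

variable {σ f}

theorem mackeyLin_bijective {T : Set G} (hT : Covers (V := V) f T)
    (hS : Separated (V := V) f T) : Function.Bijective (mackeyLin σ f T) := by
  constructor
  · intro φ φ' h
    apply Subtype.ext
    exact mackeyMap_injective hT φ.2 φ'.2 (congrArg Subtype.val h)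
  · intro ψ
    obtain ⟨φ, hφ, h⟩ := mackeyMap_surjective hT hS ψ.1 ψ.2
    exact ⟨⟨φ, hφ⟩, Subtype.ext h⟩

/-- **Mackey**: `res_f coind_V^G A ≃ ∏_{t ∈ T} coind_{D_t}^D A_t` for `T` a set of representatives
of `V \ G / f(D)`; `D`-equivariance is `mackeyMap_translate`. -/
noncomputable def mackeyEquiv {T : Set G} (hT : Covers (V := V) f T)
    (hS : Separated (V := V) f T) : coindSub σ ≃ₗ[k] prodCoindSub σ f T :=
  LinearEquiv.ofBijective (mackeyLin σ f T) (mackeyLin_bijective hT hS)

@[simp] theorem mackeyEquiv_apply {T : Set G} (hT : Covers (V := V) f T)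
    (hS : Separated (V := V) f T) (φ : coindSub σ) (t : T) (d : D) :
    (mackeyEquiv hT hS φ).1 t d = φ.1 ((t : G) * f d) := rfl

end Equiv

/-! ### double coset representatives exist, and normalised retractions on them -/

section Reps

variable {D G : Type*} [Group D] [Group G] (V : Subgroup G) (f : D →* G)

/-- there is a set `T ∋ 1` of representatives of the double cosets `V \ G / f(D)`. -/
theorem exists_reps : ∃ T : Set G, (1 : G) ∈ T ∧ Covers (V := V) f T ∧ Separated (V := V) f T := by
  classical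
  -- the double coset relation
  let R : G → G → Prop := fun a b => ∃ (v : V) (d : D), b = (v : G) * a * f d
  have hrefl : ∀ a, R a a := fun a => ⟨1, 1, by simp⟩
  have hsymm : ∀ a b, R a b → R b a := by
    rintro a b ⟨v, d, rfl⟩
    refine ⟨v⁻¹, d⁻¹, ?_⟩
    rw [Subgroup.coe_inv, map_inv]; group
  have htrans : ∀ a b c, R a b → R b c → R a c := by
    rintro a b c ⟨v, d, rfl⟩ ⟨v', d', rfl⟩
    refine ⟨v' * v, d * d', ?_⟩
    rw [Subgroup.coe_mul, map_mul]; group
  let S : Setoid G := ⟨R, ⟨hrefl, fun {a b} => hsymm a b, fun {a b c} => htrans a b c⟩⟩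
  let rep : Quotient S → G := fun q =>
    if q = Quotient.mk S 1 then 1 else Quotient.out q
  have hrep : ∀ q, Quotient.mk S (rep q) = q := by
    intro q
    by_cases h : q = Quotient.mk S 1
    · simp only [rep, if_pos h]; exact h.symm
    · simp only [rep, if_neg h]; exact Quotient.out_eq q
  refine ⟨Set.range rep, ⟨Quotient.mk S 1, by simp [rep]⟩, ?_, ?_⟩
  · intro g
    have h : R (rep (Quotient.mk S g)) g := Quotient.exact (s := S) (hrep _)
    obtain ⟨v, d, e⟩ := h
    exact ⟨_, ⟨_, rfl⟩, v, d, e⟩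
  · rintro _ ⟨q, rfl⟩ _ ⟨q', rfl⟩ h
    have : Quotient.mk S (rep q) = Quotient.mk S (rep q') := Quotient.sound (s := S) h
    rw [hrep, hrep] at this
    rw [this]

variable {V f}

/-- distinct double-coset representatives lie in distinct right cosets `V t`, so that
`ShapiroGeneric.exists_retraction_of` applies. -/
theorem exists_retraction_normalised {T : Set G} (h1 : (1 : G) ∈ T)
    (hS : Separated (V := V) f T) : ∃ r : Retraction V, ∀ t ∈ T, r.toFun t = 1 := by
  refine exists_retraction_of V T h1 ?_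
  intro t ht t' ht' h
  refine (hS t' ht' t ht ⟨⟨t * t'⁻¹, h⟩, 1, ?_⟩).symm
  simp

end Reps

/-! ### the cochain identity: `Sh'` evaluated at `t` and restricted along `f` is `κ_t^*` -/

section Cochain

variable {k D G A : Type*} [CommRing k] [Group D] [Group G] [AddCommGroup A] [Module k A]
variable {V : Subgroup G} (σ : Representation k V A) (f : D →* G)

/-- restriction along `f` followed by the `t`-component of the Mackey map, on coind-valued
cochains (curried, last variable = evaluation point). -/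
def mk0 (t : G) (e : G → A) : D → A := fun x => e (t * f x)
def mk1 (t : G) (F : G → G → A) : D → D → A := fun d x => F (f d) (t * f x)
def mk2 (t : G) (F : G → G → G → A) : D → D → D → A := fun d₁ d₂ x => F (f d₁) (f d₂) (t * f x)
def mk3 (t : G) (F : G → G → G → G → A) : D → D → D → D → A :=
  fun d₁ d₂ d₃ x => F (f d₁) (f d₂) (f d₃) (t * f x)
def mk4 (t : G) (F : G → G → G → G → G → A) : D → D → D → D → D → A :=
  fun d₁ d₂ d₃ d₄ x => F (f d₁) (f d₂) (f d₃) (f d₄) (t * f x)

theorem mk0_eq_mackeyMap (T : Set G) (t : T) (e : G → A) : mk0 f (t : G) e = mackeyMap f T e t :=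
  rfl

/-- `mk` is a cochain map. -/
theorem δ0_mk0 (t : G) (e : G → A) : δ0 (mk0 f t e) = mk1 f t (δ0 e) := by
  funext d x
  simp only [δ0, mk0, mk1, map_mul, mul_assoc]

theorem δ1_mk1 (t : G) (F : G → G → A) : δ1 (mk1 f t F) = mk2 f t (δ1 F) := by
  funext d₁ d₂ x
  simp only [δ1, mk1, mk2, map_mul, mul_assoc]

theorem δ2_mk2 (t : G) (F : G → G → G → A) : δ2 (mk2 f t F) = mk3 f t (δ2 F) := by
  funext d₁ d₂ d₃ x
  simp only [δ2, mk2, mk3, map_mul, mul_assoc]

theorem δ3_mk3 (t : G) (F : G → G → G → G → A) : δ3 (mk3 f t F) = mk4 f t (δ3 F) := by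
  funext d₁ d₂ d₃ d₄ x
  simp only [δ3, mk3, mk4, map_mul, mul_assoc]

variable {σ}

/-- `mk` preserves equivariance (for `σ_t = σ ∘ κ_t`). -/
theorem Eq0_mk0 (t : G) {e : G → A} (he : Eq0 σ e) : Eq0 (conjRep σ f t) (mk0 f t e) := by
  intro u x
  simp only [mk0, conjRep_apply]
  rw [← he]
  congr 1
  rw [map_mul, coe_conjHom]
  group

theorem Eq1_mk1 (t : G) {F : G → G → A} (hF : Eq1 σ F) : Eq1 (conjRep σ f t) (mk1 f t F) :=
  fun u d x => Eq0_mk0 f t (fun v y => hF v (f d) y) u x

theorem Eq2_mk2 (t : G) {F : G → G → G → A} (hF : Eq2 σ F) :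
    Eq2 (conjRep σ f t) (mk2 f t F) :=
  fun u d₁ d₂ x => Eq0_mk0 f t (fun v y => hF v (f d₁) (f d₂) y) u x

theorem Eq3_mk3 (t : G) {F : G → G → G → G → A} (hF : Eq3 σ F) :
    Eq3 (conjRep σ f t) (mk3 f t F) :=
  fun u d₁ d₂ d₃ x => Eq0_mk0 f t (fun v y => hF v (f d₁) (f d₂) (f d₃) y) u x

variable (σ)
variable (r : Retraction V) {t : G} (ht : r.toFun t = 1)

include ht in
/-- the key point: a retraction normalised at `t` restricts to `κ_t` on `t * f(D_t)`. -/
theorem retraction_mul_map (d : conjSub f V t) : r.toFun (t * f d) = conjHom f V t d := by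
  have h : t * f d = ((conjHom f V t d : V) : G) * t := by
    rw [coe_conjHom]; group
  rw [h, r.map_mul', ht, mul_one]

include ht in
theorem Sh'0_at (a : A) : Sh'0 σ r a t = a := by
  simp only [Sh'0, ext0, homU0, ht, map_one, Module.End.one_apply]

include ht in
theorem Sh'1_at (c : V → A) (d : conjSub f V t) :
    Sh'1 σ r c (f d) t = c (conjHom f V t d) := by
  simp only [Sh'1, inh1, ext1, homU1, ht, retraction_mul_map f r ht, map_one,
    Module.End.one_apply, inv_one, one_mul]

include ht in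
theorem Sh'2_at (c : V → V → A) (d₁ d₂ : conjSub f V t) :
    Sh'2 σ r c (f d₁) (f d₂) t = c (conjHom f V t d₁) (conjHom f V t d₂) := by
  have h2 : t * f d₁ * f d₂ = t * f ((d₁ * d₂ : conjSub f V t) : D) := by
    rw [Subgroup.coe_mul, map_mul, mul_assoc]
  simp only [Sh'2, inh2, ext2, homU2, h2, ht, retraction_mul_map f r ht, map_one,
    Module.End.one_apply, inv_one, one_mul, map_mul, inv_mul_cancel_left]

include ht in
theorem Sh'3_at (c : V → V → V → A) (d₁ d₂ d₃ : conjSub f V t) :
    Sh'3 σ r c (f d₁) (f d₂) (f d₃) t =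
      c (conjHom f V t d₁) (conjHom f V t d₂) (conjHom f V t d₃) := by
  have h2 : t * f d₁ * f d₂ = t * f ((d₁ * d₂ : conjSub f V t) : D) := by
    rw [Subgroup.coe_mul, map_mul, mul_assoc]
  have h3 : t * f ((d₁ * d₂ : conjSub f V t) : D) * f d₃ =
      t * f ((d₁ * d₂ * d₃ : conjSub f V t) : D) := by
    rw [Subgroup.coe_mul _ (d₁ * d₂) d₃, map_mul, mul_assoc]
  simp only [Sh'3, inh3, ext3, homU3, h2, h3, ht, retraction_mul_map f r ht, map_one,
    Module.End.one_apply, inv_one, one_mul, map_mul, inv_mul_cancel_left]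

include ht in
/-- **cochain identity**, packaged: the Shapiro map `Sh` of `D_t ≤ D` applied to the
`t`-component of the restriction along `f` of `Sh' c` is the pull-back of `c` along `κ_t`. -/
theorem Sh0_mk0_Sh'0 (a : A) : Sh0 (mk0 f t (Sh'0 σ r a)) = a := by
  simp only [Sh0, mk0, map_one, mul_one]
  exact Sh'0_at σ r ht a

include ht in
theorem Sh1_mk1_Sh'1 (c : V → A) :
    Sh1 (U := conjSub f V t) (mk1 f t (Sh'1 σ r c)) = fun d => c (conjHom f V t d) := by
  funext d
  simp only [Sh1, mk1, map_one, mul_one]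
  exact Sh'1_at σ f r ht c d

include ht in
theorem Sh2_mk2_Sh'2 (c : V → V → A) :
    Sh2 (U := conjSub f V t) (mk2 f t (Sh'2 σ r c)) =
      fun d₁ d₂ => c (conjHom f V t d₁) (conjHom f V t d₂) := by
  funext d₁ d₂
  simp only [Sh2, mk2, map_one, mul_one]
  exact Sh'2_at σ f r ht c d₁ d₂

include ht in
theorem Sh3_mk3_Sh'3 (c : V → V → V → A) :
    Sh3 (U := conjSub f V t) (mk3 f t (Sh'3 σ r c)) =
      fun d₁ d₂ d₃ => c (conjHom f V t d₁) (conjHom f V t d₂) (conjHom f V t d₃) := by
  funext d₁ d₂ d₃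
  simp only [Sh3, mk3, map_one, mul_one]
  exact Sh'3_at σ f r ht c d₁ d₂ d₃

end Cochain


end Fermat.Agent.S55.Bridge.Mackey
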