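/-
S55 / Bridge (C1): generic Shapiro lemma, FULL invariance tracking.  Mathlib only.
Owner: helper14.  Continuation of `Bridge/ShapiroGeneric.lean`.

In helper76's `Formal/LC.lean` a level-constant cochain is invariant under a basic normal subgroup
`N` in every variable AND its values are fixed by `N`.  For a cochain with values in a coinduced
module, written curried `F g … x`, "values fixed by `N`" means invariance in the evaluation
variable `x` as well.  So the right notion is: `F` factors through `G ⧸ N` in ALL its variables,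
i.e. `Fac_{n+1} N F`.  On the `U`-side: `FullU_n N c` := `c` factors through `U ⧸ (N ⊓ U)` and its
values are fixed by `N ⊓ U`.

* `Fac*_hom*`, `Fac*_inh*`, `Fac*_h*`: the homogeneous/inhomogeneous dictionary and the prism operator
  preserve full invariance;
* `Fac*_Sh'*_full`, `FullU*_Sh*`: so do `Sh'` and `Sh`;
* `shapiro_inj1/2/3_full`, `shapiro_surj1/2/3_full`: the packaged statements.
-/
import Mathlib
import Fermat.Agent.S55.Bridge.ShapiroGeneric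

set_option autoImplicit false
set_option linter.unusedSectionVars false

namespace Fermat.Agent.S55.Bridge.ShapiroFull

open Fermat.Agent.S55.Bridge.Prism Fermat.Agent.S55.Bridge.ShapiroGeneric

section Fac4

variable {G X : Type*} [Group G] (N : Subgroup G) [N.Normal]

def Fac4 (F : G → G → G → G → X) : Prop :=
  ∃ F' : G ⧸ N → G ⧸ N → G ⧸ N → G ⧸ N → X, ∀ g h j l, F g h j l = F' g h j l

theorem fac4_iff {F : G → G → G → G → X} :
    Fac4 N F ↔ ∀ g h j l, ∀ s ∈ N,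
      F (g * s) h j l = F g h j l ∧ F g (h * s) j l = F g h j l ∧
      F g h (j * s) l = F g h j l ∧ F g h j (l * s) = F g h j l := by
  constructor
  · rintro ⟨F', hF'⟩ g h j l s hs
    simp only [hF', QuotientGroup.mk_mul_of_mem _ hs, and_self]
  · intro H
    refine ⟨fun q q' q'' q''' => F (Quotient.out q) (Quotient.out q') (Quotient.out q'')
      (Quotient.out q'''), fun g h j l => ?_⟩
    obtain ⟨s, hs, e⟩ := out_eq_mul N g
    obtain ⟨s', hs', e'⟩ := out_eq_mul N h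
    obtain ⟨s'', hs'', e''⟩ := out_eq_mul N j
    obtain ⟨s''', hs''', e'''⟩ := out_eq_mul N l
    change F g h j l = F (Quotient.out (g : G ⧸ N)) (Quotient.out (h : G ⧸ N))
      (Quotient.out (j : G ⧸ N)) (Quotient.out (l : G ⧸ N))
    rw [e, e', e'', e''', (H g (h * s') (j * s'') (l * s''') s hs).1,
      (H g h (j * s'') (l * s''') s' hs').2.1, (H g h j (l * s''') s'' hs'').2.2.1,
      (H g h j l s''' hs''').2.2.2]

end Fac4

section Full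

variable {k G A : Type*} [CommRing k] [Group G] [AddCommGroup A] [Module k A]
variable {U : Subgroup G} (σ : Representation k U A) (r : Retraction U)
variable {N : Subgroup G} [N.Normal]

/-! ### dictionary -/

theorem Fac2_hom1 {F : G → G → A} (hF : Fac2 N F) : Fac2 N (hom1 F) := by
  obtain ⟨F', hF'⟩ := hF
  refine ⟨fun q q' => F' (q⁻¹ * q') q, fun a b => ?_⟩
  simp only [hom1, hF', QuotientGroup.mk_mul, QuotientGroup.mk_inv]

theorem Fac3_hom2 {F : G → G → G → A} (hF : Fac3 N F) : Fac3 N (hom2 F) := by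
  obtain ⟨F', hF'⟩ := hF
  refine ⟨fun q q' q'' => F' (q⁻¹ * q') (q'⁻¹ * q'') q, fun a b c => ?_⟩
  simp only [hom2, hF', QuotientGroup.mk_mul, QuotientGroup.mk_inv]

theorem Fac4_hom3 {F : G → G → G → G → A} (hF : Fac4 N F) : Fac4 N (hom3 F) := by
  obtain ⟨F', hF'⟩ := hF
  refine ⟨fun q q' q'' q''' => F' (q⁻¹ * q') (q'⁻¹ * q'') (q''⁻¹ * q''') q, fun a b c d => ?_⟩
  simp only [hom3, hF', QuotientGroup.mk_mul, QuotientGroup.mk_inv]

theorem Fac2_inh1 {ψ : G → G → A} (hψ : Fac2 N ψ) : Fac2 N (inh1 ψ) := by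
  obtain ⟨ψ', hψ'⟩ := hψ
  refine ⟨fun q qx => ψ' qx (qx * q), fun g x => ?_⟩
  simp only [inh1, hψ', QuotientGroup.mk_mul]

theorem Fac3_inh2 {ψ : G → G → G → A} (hψ : Fac3 N ψ) : Fac3 N (inh2 ψ) := by
  obtain ⟨ψ', hψ'⟩ := hψ
  refine ⟨fun q q' qx => ψ' qx (qx * q) (qx * q * q'), fun g h x => ?_⟩
  simp only [inh2, hψ', QuotientGroup.mk_mul]

theorem Fac4_inh3 {ψ : G → G → G → G → A} (hψ : Fac4 N ψ) : Fac4 N (inh3 ψ) := by
  obtain ⟨ψ', hψ'⟩ := hψ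
  refine ⟨fun q q' q'' qx => ψ' qx (qx * q) (qx * q * q') (qx * q * q' * q''),
    fun g h j x => ?_⟩
  simp only [inh3, hψ', QuotientGroup.mk_mul]

/-! ### prism -/

theorem Fac1_h1 (hNU : N ≤ U) {ψ : G → G → A} (hψ : Fac2 N ψ) : Fac1 N (h1 r.ρ ψ) := by
  obtain ⟨ψ', hψ'⟩ := hψ
  obtain ⟨ρ', hρ'⟩ := exists_ρ_quot r hNU
  refine ⟨fun q => ψ' q (ρ' q), fun a => ?_⟩
  simp only [h1, hψ', hρ']

theorem Fac2_h2 (hNU : N ≤ U) {ψ : G → G → G → A} (hψ : Fac3 N ψ) : Fac2 N (h2 r.ρ ψ) := by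
  obtain ⟨ψ', hψ'⟩ := hψ
  obtain ⟨ρ', hρ'⟩ := exists_ρ_quot r hNU
  refine ⟨fun q q' => ψ' q (ρ' q) (ρ' q') - ψ' q q' (ρ' q'), fun a b => ?_⟩
  simp only [h2, hψ', hρ']

theorem Fac3_h3 (hNU : N ≤ U) {ψ : G → G → G → G → A} (hψ : Fac4 N ψ) :
    Fac3 N (h3 r.ρ ψ) := by
  obtain ⟨ψ', hψ'⟩ := hψ
  obtain ⟨ρ', hρ'⟩ := exists_ρ_quot r hNU
  refine ⟨fun q q' q'' => ψ' q (ρ' q) (ρ' q') (ρ' q'') - ψ' q q' (ρ' q') (ρ' q'')
    + ψ' q q' q'' (ρ' q''), fun a b c => ?_⟩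
  simp only [h3, hψ', hρ']

theorem Fac1_Hom1 (hNU : N ≤ U) {F : G → G → A} (hF : Fac2 N F) : Fac1 N (Hom1 r F) :=
  Fac1_h1 r hNU (Fac2_hom1 hF)

theorem Fac2_Hom2 (hNU : N ≤ U) {F : G → G → G → A} (hF : Fac3 N F) : Fac2 N (Hom2 r F) :=
  Fac2_inh1 (Fac2_h2 r hNU (Fac3_hom2 hF))

theorem Fac3_Hom3 (hNU : N ≤ U) {F : G → G → G → G → A} (hF : Fac4 N F) :
    Fac3 N (Hom3 r F) :=
  Fac3_inh2 (Fac3_h3 r hNU (Fac4_hom3 hF))

/-! ### the `U`-side -/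

variable (N)

/-- fixed by `N ⊓ U`. -/
def FullU0 (a : A) : Prop := ∀ s : U, (s : G) ∈ N → σ s a = a

def FullU1 (c : U → A) : Prop :=
  Fac1 (N.subgroupOf U) c ∧ ∀ s : U, (s : G) ∈ N → ∀ u, σ s (c u) = c u

def FullU2 (c : U → U → A) : Prop :=
  Fac2 (N.subgroupOf U) c ∧ ∀ s : U, (s : G) ∈ N → ∀ u v, σ s (c u v) = c u v

def FullU3 (c : U → U → U → A) : Prop :=
  Fac3 (N.subgroupOf U) c ∧ ∀ s : U, (s : G) ∈ N → ∀ u v w, σ s (c u v w) = c u v w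

variable {N}

/-- `r (a * s) = n * r a` with `n = a s a⁻¹ ∈ N ⊓ U`. -/
theorem exists_toFun_mul (hNU : N ≤ U) (a : G) {s : G} (hs : s ∈ N) :
    ∃ n : U, (n : G) ∈ N ∧ r.toFun (a * s) = n * r.toFun a := by
  have hn : a * s * a⁻¹ ∈ N := ‹N.Normal›.conj_mem _ hs a
  refine ⟨⟨a * s * a⁻¹, hNU hn⟩, hn, ?_⟩
  have : a * s = ((⟨a * s * a⁻¹, hNU hn⟩ : U) : G) * a := by simp
  conv_lhs => rw [this]
  exact r.map_mul' _ _

/-- elements of `N ⊓ U` act trivially on `σ u v` if they act trivially on `v`. -/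
theorem σ_fix_conj {v : A} (hv : ∀ s : U, (s : G) ∈ N → σ s v = v) (u : U) {n : U}
    (hn : (n : G) ∈ N) : σ n (σ u v) = σ u v := by
  have h1 : n * u = u * (u⁻¹ * n * u) := by group
  have h2 : ((u⁻¹ * n * u : U) : G) ∈ N := by
    have := ‹N.Normal›.conj_mem _ hn ((u : G)⁻¹)
    simpa [mul_assoc] using this
  rw [← σ_mul_apply, h1, σ_mul_apply, hv _ h2]

theorem fac2_of_hfac1 {ψ : G → G → A} (h : HFac1 N ψ)
    (h0 : ∀ a b, ∀ s ∈ N, ψ (a * s) b = ψ a b) : Fac2 N ψ := by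
  obtain ⟨ψ', hψ'⟩ := h
  rw [fac2_iff]
  intro a b s hs
  refine ⟨h0 a b s hs, ?_⟩
  rw [hψ', hψ', QuotientGroup.mk_mul_of_mem _ hs]

theorem fac3_of_hfac2 {ψ : G → G → G → A} (h : HFac2 N ψ)
    (h0 : ∀ a b c, ∀ s ∈ N, ψ (a * s) b c = ψ a b c) : Fac3 N ψ := by
  obtain ⟨ψ', hψ'⟩ := h
  rw [fac3_iff]
  intro a b c s hs
  refine ⟨h0 a b c s hs, ?_, ?_⟩
  · rw [hψ', hψ', QuotientGroup.mk_mul_of_mem _ hs]
  · rw [hψ', hψ', QuotientGroup.mk_mul_of_mem _ hs]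

theorem fac4_of_hfac3 {ψ : G → G → G → G → A} (h : HFac3 N ψ)
    (h0 : ∀ a b c d, ∀ s ∈ N, ψ (a * s) b c d = ψ a b c d) : Fac4 N ψ := by
  obtain ⟨ψ', hψ'⟩ := h
  rw [fac4_iff]
  intro a b c d s hs
  refine ⟨h0 a b c d s hs, ?_, ?_, ?_⟩
  · rw [hψ', hψ', QuotientGroup.mk_mul_of_mem _ hs]
  · rw [hψ', hψ', QuotientGroup.mk_mul_of_mem _ hs]
  · rw [hψ', hψ', QuotientGroup.mk_mul_of_mem _ hs]

/-- slots `≥ 1` of `ext (homU c)`. -/
theorem HFac1_ext1 (hNU : N ≤ U) {c : U → A} (hc : Fac1 (N.subgroupOf U) c) :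
    HFac1 N (ext1 r (homU1 σ c)) := by
  obtain ⟨c', hc'⟩ := hc
  obtain ⟨r', hr'⟩ := exists_retraction_quot r hNU
  refine ⟨fun a q => σ (r.toFun a)
    (c' (((r.toFun a : U) : U ⧸ N.subgroupOf U)⁻¹ * r' q)), fun a b => ?_⟩
  simp only [ext1, homU1, hc', QuotientGroup.mk_mul, QuotientGroup.mk_inv, hr']

theorem HFac2_ext2 (hNU : N ≤ U) {c : U → U → A} (hc : Fac2 (N.subgroupOf U) c) :
    HFac2 N (ext2 r (homU2 σ c)) := by
  obtain ⟨c', hc'⟩ := hc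
  obtain ⟨r', hr'⟩ := exists_retraction_quot r hNU
  refine ⟨fun a q q' => σ (r.toFun a)
    (c' (((r.toFun a : U) : U ⧸ N.subgroupOf U)⁻¹ * r' q) ((r' q)⁻¹ * r' q')), fun a b c => ?_⟩
  simp only [ext2, homU2, hc', QuotientGroup.mk_mul, QuotientGroup.mk_inv, hr']

theorem HFac3_ext3 (hNU : N ≤ U) {c : U → U → U → A} (hc : Fac3 (N.subgroupOf U) c) :
    HFac3 N (ext3 r (homU3 σ c)) := by
  obtain ⟨c', hc'⟩ := hc
  obtain ⟨r', hr'⟩ := exists_retraction_quot r hNU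
  refine ⟨fun a q q' q'' => σ (r.toFun a)
    (c' (((r.toFun a : U) : U ⧸ N.subgroupOf U)⁻¹ * r' q) ((r' q)⁻¹ * r' q')
      ((r' q')⁻¹ * r' q'')), fun a b c d => ?_⟩
  simp only [ext3, homU3, hc', QuotientGroup.mk_mul, QuotientGroup.mk_inv, hr']

theorem mk_eq_one_of_mem (n : U) (hn : (n : G) ∈ N) :
    ((n : U) : U ⧸ N.subgroupOf U) = 1 := by
  rw [QuotientGroup.eq_one_iff]
  exact hn

/-- `Sh'` preserves full invariance. -/
theorem Fac1_Sh'0_full (hNU : N ≤ U) {a : A} (ha : FullU0 σ N a) : Fac1 N (Sh'0 σ r a) := by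
  rw [fac1_iff]
  intro x s hs
  obtain ⟨n, hn, e⟩ := exists_toFun_mul r hNU x hs
  simp only [Sh'0, ext0, homU0, e, σ_mul_apply]
  exact σ_fix_conj σ ha _ hn

theorem Fac2_Sh'1_full (hNU : N ≤ U) {c : U → A} (hc : FullU1 σ N c) :
    Fac2 N (Sh'1 σ r c) := by
  refine Fac2_inh1 (fac2_of_hfac1 (HFac1_ext1 σ r hNU hc.1) fun a b s hs => ?_)
  obtain ⟨n, hn, e⟩ := exists_toFun_mul r hNU a hs
  obtain ⟨c', hc'⟩ := hc.1
  simp only [ext1, homU1, e, σ_mul_apply, hc', QuotientGroup.mk_mul, QuotientGroup.mk_inv]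
  rw [mk_eq_one_of_mem n hn, one_mul, ← QuotientGroup.mk_inv, ← QuotientGroup.mk_mul, ← hc']
  exact σ_fix_conj σ (fun s hs => hc.2 s hs _) _ hn

theorem Fac3_Sh'2_full (hNU : N ≤ U) {c : U → U → A} (hc : FullU2 σ N c) :
    Fac3 N (Sh'2 σ r c) := by
  refine Fac3_inh2 (fac3_of_hfac2 (HFac2_ext2 σ r hNU hc.1) fun a b d s hs => ?_)
  obtain ⟨n, hn, e⟩ := exists_toFun_mul r hNU a hs
  obtain ⟨c', hc'⟩ := hc.1
  simp only [ext2, homU2, e, σ_mul_apply, hc', QuotientGroup.mk_mul, QuotientGroup.mk_inv]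
  rw [mk_eq_one_of_mem n hn, one_mul, ← QuotientGroup.mk_inv, ← QuotientGroup.mk_mul,
    ← QuotientGroup.mk_inv, ← QuotientGroup.mk_mul, ← hc']
  exact σ_fix_conj σ (fun s hs => hc.2 s hs _ _) _ hn

theorem Fac4_Sh'3_full (hNU : N ≤ U) {c : U → U → U → A} (hc : FullU3 σ N c) :
    Fac4 N (Sh'3 σ r c) := by
  refine Fac4_inh3 (fac4_of_hfac3 (HFac3_ext3 σ r hNU hc.1) fun a b d e' s hs => ?_)
  obtain ⟨n, hn, e⟩ := exists_toFun_mul r hNU a hs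
  obtain ⟨c', hc'⟩ := hc.1
  simp only [ext3, homU3, e, σ_mul_apply, hc', QuotientGroup.mk_mul, QuotientGroup.mk_inv]
  rw [mk_eq_one_of_mem n hn, one_mul, ← QuotientGroup.mk_inv, ← QuotientGroup.mk_mul,
    ← QuotientGroup.mk_inv, ← QuotientGroup.mk_mul, ← QuotientGroup.mk_inv,
    ← QuotientGroup.mk_mul, ← hc']
  exact σ_fix_conj σ (fun s hs => hc.2 s hs _ _ _) _ hn

variable {σ}

/-- `Sh` preserves full invariance. -/
theorem FullU0_Sh0 {e : G → A} (he : Eq0 σ e) (hN : Fac1 N e) : FullU0 σ N (Sh0 e) := by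
  intro s hs
  rw [fac1_iff] at hN
  simp only [Sh0]
  rw [← he s 1, mul_one]
  have := hN 1 (s : G) hs
  rwa [one_mul] at this

theorem FullU1_Sh1 {F : G → G → A} (hF : Eq1 σ F) (hN : Fac2 N F) :
    FullU1 σ N (Sh1 (U := U) F) := by
  refine ⟨?_, fun s hs u => ?_⟩
  · obtain ⟨F', hF'⟩ := hN
    exact ⟨fun q => F' (quotIncl q) 1, fun u => by simp only [Sh1, hF', quotIncl_mk]; rfl⟩
  · rw [fac2_iff] at hN
    simp only [Sh1]
    rw [← hF s _ 1, mul_one]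
    have := (hN (u : G) 1 (s : G) hs).2
    rwa [one_mul] at this

theorem FullU2_Sh2 {F : G → G → G → A} (hF : Eq2 σ F) (hN : Fac3 N F) :
    FullU2 σ N (Sh2 (U := U) F) := by
  refine ⟨?_, fun s hs u v => ?_⟩
  · obtain ⟨F', hF'⟩ := hN
    exact ⟨fun q q' => F' (quotIncl q) (quotIncl q') 1,
      fun u v => by simp only [Sh2, hF', quotIncl_mk]; rfl⟩
  · rw [fac3_iff] at hN
    simp only [Sh2]
    rw [← hF s _ _ 1, mul_one]
    have := (hN (u : G) (v : G) 1 (s : G) hs).2.2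
    rwa [one_mul] at this

theorem FullU3_Sh3 {F : G → G → G → G → A} (hF : Eq3 σ F) (hN : Fac4 N F) :
    FullU3 σ N (Sh3 (U := U) F) := by
  refine ⟨?_, fun s hs u v w => ?_⟩
  · obtain ⟨F', hF'⟩ := hN
    exact ⟨fun q q' q'' => F' (quotIncl q) (quotIncl q') (quotIncl q'') 1,
      fun u v w => by simp only [Sh3, hF', quotIncl_mk]; rfl⟩
  · rw [fac4_iff] at hN
    simp only [Sh3]
    rw [← hF s _ _ _ 1, mul_one]
    have := (hN (u : G) (v : G) (w : G) 1 (s : G) hs).2.2.2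
    rwa [one_mul] at this

/-! ### packaged statements with full invariance -/

theorem Fac3_sub {X : Type*} [AddGroup X] {F F' : G → G → G → X} (h : Fac3 N F)
    (h' : Fac3 N F') : Fac3 N (F - F') := by
  obtain ⟨a, ha⟩ := h
  obtain ⟨b, hb⟩ := h'
  exact ⟨a - b, fun g g' g'' => by simp [ha, hb]⟩

include r in
/-- **Shapiro, injectivity in degree 1** (full invariance). -/
theorem shapiro_inj1_full (hNU : N ≤ U) {F : G → G → A} (hF : Eq1 σ F) (hFN : Fac2 N F)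
    (hc : δ1 F = 0) {a : A} (ha : FullU0 σ N a) (h : Sh1 F = dU0 σ a) :
    ∃ e : G → A, Eq0 σ e ∧ Fac1 N e ∧ F = δ0 e := by
  refine ⟨Sh'0 σ r a - Hom1 r F, Eq0_sub (Eq0_Sh'0 σ r a) (Eq0_Hom1 r hF),
    Fac1_sub N (Fac1_Sh'0_full σ r hNU ha) (Fac1_Hom1 r hNU hFN), ?_⟩
  have h1 := homotopy1 r hF hc
  rw [h, ← δ0_Sh'0] at h1
  rw [δ0_sub, ← h1]; abel

include r in
/-- **Shapiro, injectivity in degree 2** (full invariance). -/
theorem shapiro_inj2_full (hNU : N ≤ U) {F : G → G → G → A} (hF : Eq2 σ F) (hFN : Fac3 N F)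
    (hc : δ2 F = 0) {c : U → A} (hcN : FullU1 σ N c) (h : Sh2 F = dU1 σ c) :
    ∃ E : G → G → A, Eq1 σ E ∧ Fac2 N E ∧ F = δ1 E := by
  refine ⟨Sh'1 σ r c - Hom2 r F, Eq1_sub (Eq1_Sh'1 σ r c) (Eq1_Hom2 r hF),
    Fac2_sub N (Fac2_Sh'1_full σ r hNU hcN) (Fac2_Hom2 r hNU hFN), ?_⟩
  have h1 := homotopy2 r hF hc
  rw [h, ← δ1_Sh'1] at h1
  rw [δ1_sub, ← h1]; abel

include r in
/-- **Shapiro, injectivity in degree 3** (full invariance). -/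
theorem shapiro_inj3_full (hNU : N ≤ U) {F : G → G → G → G → A} (hF : Eq3 σ F)
    (hFN : Fac4 N F) (hc : δ3 F = 0) {c : U → U → A} (hcN : FullU2 σ N c)
    (h : Sh3 F = dU2 σ c) :
    ∃ E : G → G → G → A, Eq2 σ E ∧ Fac3 N E ∧ F = δ2 E := by
  refine ⟨Sh'2 σ r c - Hom3 r F, Eq2_sub (Eq2_Sh'2 σ r c) (Eq2_Hom3 r hF),
    Fac3_sub (Fac3_Sh'2_full σ r hNU hcN) (Fac3_Hom3 r hNU hFN), ?_⟩
  have h1 := homotopy3 r hF hc
  rw [h, ← δ2_Sh'2] at h1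
  rw [δ2_sub, ← h1]; abel

variable (σ)

/-- **Shapiro, surjectivity** (full invariance). -/
theorem shapiro_surj1_full (hNU : N ≤ U) {c : U → A} (hc : dU1 σ c = 0) (hcN : FullU1 σ N c) :
    Eq1 σ (Sh'1 σ r c) ∧ Fac2 N (Sh'1 σ r c) ∧ δ1 (Sh'1 σ r c) = 0 ∧ Sh1 (Sh'1 σ r c) = c :=
  ⟨Eq1_Sh'1 σ r c, Fac2_Sh'1_full σ r hNU hcN, by rw [δ1_Sh'1, hc, Sh'2_zero], Sh1_Sh'1 σ r c⟩

theorem shapiro_surj2_full (hNU : N ≤ U) {c : U → U → A} (hc : dU2 σ c = 0)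
    (hcN : FullU2 σ N c) :
    Eq2 σ (Sh'2 σ r c) ∧ Fac3 N (Sh'2 σ r c) ∧ δ2 (Sh'2 σ r c) = 0 ∧ Sh2 (Sh'2 σ r c) = c :=
  ⟨Eq2_Sh'2 σ r c, Fac3_Sh'2_full σ r hNU hcN, by rw [δ2_Sh'2, hc, Sh'3_zero], Sh2_Sh'2 σ r c⟩

theorem shapiro_surj3_full (hNU : N ≤ U) {c : U → U → U → A} (hc : dU3 σ c = 0)
    (hcN : FullU3 σ N c) :
    Eq3 σ (Sh'3 σ r c) ∧ Fac4 N (Sh'3 σ r c) ∧ δ3 (Sh'3 σ r c) = 0 ∧ Sh3 (Sh'3 σ r c) = c :=
  ⟨Eq3_Sh'3 σ r c, Fac4_Sh'3_full σ r hNU hcN, by rw [δ3_Sh'3, hc, Sh'4_zero], Sh3_Sh'3 σ r c⟩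

end Full

end Fermat.Agent.S55.Bridge.ShapiroFull
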