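/-
S55 / Bridge (C1): SHAPIRO'S LEMMA FOR LEVEL-CONSTANT COHOMOLOGY, in the language of
`Formal/LC.lean` (helper76).  Owner: helper14.

`G` a group with a basis `𝒰 : NBasis G`, `V ≤ G` an OPEN subgroup (it contains a member of `𝒰`),
`A : Rep k V`.  `subBasis 𝒰 V : NBasis V` is the induced basis, `Rep.coind V.subtype A` the coinduced
representation (Mathlib), and

  `sh 𝒰 V A : Mor 𝒰 (Rep.coind V.subtype A) (subBasis 𝒰 V) A`

is "restrict to `V` and evaluate at `1`".  Main theorems: `sh_h0_bijective … sh_h3_bijective`.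
-/
import Mathlib
import Fermat.Agent.S55.Formal.LC
import Fermat.Agent.S55.Bridge.ShapiroFull

set_option autoImplicit false
set_option linter.unusedSectionVars false

open CategoryTheory groupCohomology

namespace Fermat.Agent.S55.Bridge.ShapiroLC

open Fermat.Agent.S55.Formal Fermat.Agent.S55.Bridge.ShapiroGeneric
  Fermat.Agent.S55.Bridge.ShapiroFull

variable {k : Type} [CommRing k] {G : Type} [Group G]

/-- The basis induced on a subgroup. -/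
def subBasis (𝒰 : NBasis G) (V : Subgroup G) : NBasis V where
  mem W := ∃ N, 𝒰.mem N ∧ W = N.subgroupOf V
  normal := by
    rintro W ⟨N, hN, rfl⟩
    have := 𝒰.normal hN
    infer_instance
  top := ⟨⊤, 𝒰.top, by simp⟩
  inf := by
    rintro _ _ ⟨N, hN, rfl⟩ ⟨N', hN', rfl⟩
    obtain ⟨W, hW, hle⟩ := 𝒰.inf hN hN'
    refine ⟨W.subgroupOf V, ⟨W, hW, rfl⟩, ?_⟩
    intro x hx
    rw [Subgroup.mem_subgroupOf] at hx
    exact ⟨(hle hx).1, (hle hx).2⟩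
  finiteIndex := by
    rintro W ⟨N, hN, rfl⟩
    have := 𝒰.finiteIndex hN
    infer_instance

variable (𝒰 : NBasis G) (V : Subgroup G) (A : Rep.{0, 0, 0} k V)

/-- the coinduced representation -/
noncomputable abbrev CoindV : Rep.{0, 0, 0} k G := Rep.coind V.subtype A

/-- evaluation at `1`. -/
noncomputable def ev1 : (CoindV V A) →ₗ[k] A where
  toFun f := f.1 1
  map_add' _ _ := rfl
  map_smul' _ _ := rfl

/-- "restrict to `V` and evaluate at `1`". -/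
noncomputable def sh : Mor 𝒰 (CoindV V A) (subBasis 𝒰 V) A where
  f := V.subtype
  cont N hN := ⟨N.subgroupOf V, ⟨N, hN, rfl⟩, fun s hs => hs⟩
  φ := ev1 V A
  equivar v a := by
    change a.1 (1 * (v : G)) = A.ρ v (a.1 1)
    rw [one_mul, ← a.2 v 1]
    simp

/-! ### currying -/

variable {V A}

def cur0 (e : CoindV V A) : G → A := e.1
def cur1 (f : G → CoindV V A) : G → G → A := fun g x => (f g).1 x
def cur2 (f : G × G → CoindV V A) : G → G → G → A := fun g h x => (f (g, h)).1 x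
def cur3 (f : G × G × G → CoindV V A) : G → G → G → G → A := fun g h j x => (f (g, h, j)).1 x
def cur4 (f : G × G × G × G → CoindV V A) : G → G → G → G → G → A :=
  fun g h j l x => (f (g, h, j, l)).1 x

theorem cur0_injective : Function.Injective (cur0 (V := V) (A := A)) :=
  fun _ _ h => Subtype.ext h
theorem cur1_injective : Function.Injective (cur1 (V := V) (A := A)) := fun f f' h => by
  funext g; exact Subtype.ext (congrFun h g)
theorem cur2_injective : Function.Injective (cur2 (V := V) (A := A)) := fun f f' h => by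
  funext ⟨g, g'⟩; exact Subtype.ext (congrFun (congrFun h g) g')
theorem cur3_injective : Function.Injective (cur3 (V := V) (A := A)) := fun f f' h => by
  funext ⟨g, g', g''⟩; exact Subtype.ext (congrFun (congrFun (congrFun h g) g') g'')

theorem Eq0_cur0 (e : CoindV V A) : Eq0 A.ρ (cur0 e) := fun v x => e.2 v x
theorem Eq1_cur1 (f : G → CoindV V A) : Eq1 A.ρ (cur1 f) := fun v g x => (f g).2 v x
theorem Eq2_cur2 (f : G × G → CoindV V A) : Eq2 A.ρ (cur2 f) := fun v g h x => (f (g, h)).2 v x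
theorem Eq3_cur3 (f : G × G × G → CoindV V A) : Eq3 A.ρ (cur3 f) :=
  fun v g h j x => (f (g, h, j)).2 v x

/-- uncurrying -/
def unc0 (e : G → A) (he : Eq0 A.ρ e) : CoindV V A := ⟨e, fun v x => he v x⟩
def unc1 (F : G → G → A) (hF : Eq1 A.ρ F) : G → CoindV V A := fun g => ⟨F g, fun v x => hF v g x⟩
def unc2 (F : G → G → G → A) (hF : Eq2 A.ρ F) : G × G → CoindV V A :=
  fun p => ⟨F p.1 p.2, fun v x => hF v p.1 p.2 x⟩
def unc3 (F : G → G → G → G → A) (hF : Eq3 A.ρ F) : G × G × G → CoindV V A :=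
  fun p => ⟨F p.1 p.2.1 p.2.2, fun v x => hF v p.1 p.2.1 p.2.2 x⟩

@[simp] theorem cur0_unc0 (e : G → A) (he : Eq0 A.ρ e) : cur0 (unc0 e he) = e := rfl
@[simp] theorem cur1_unc1 (F : G → G → A) (hF : Eq1 A.ρ F) : cur1 (unc1 F hF) = F := rfl
@[simp] theorem cur2_unc2 (F : G → G → G → A) (hF : Eq2 A.ρ F) : cur2 (unc2 F hF) = F := rfl
@[simp] theorem cur3_unc3 (F : G → G → G → G → A) (hF : Eq3 A.ρ F) :
    cur3 (unc3 F hF) = F := rfl

/-! ### the differentials -/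

theorem coind_ρ_apply (g : G) (e : CoindV V A) (x : G) :
    ((CoindV V A).ρ g e).1 x = e.1 (x * g) := rfl

theorem cur1_d₀₁ (e : CoindV V A) : cur1 ((d₀₁ (CoindV V A)).hom e) = δ0 (cur0 e) := by
  funext g x
  simp only [cur1, δ0, cur0]
  rfl

theorem cur2_d₁₂ (f : G → CoindV V A) : cur2 ((d₁₂ (CoindV V A)).hom f) = δ1 (cur1 f) := by
  funext g h x
  simp only [cur2, d₁₂_hom_apply, δ1, cur1]
  rfl

theorem cur3_d₂₃ (f : G × G → CoindV V A) :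
    cur3 ((d₂₃ (CoindV V A)).hom f) = δ2 (cur2 f) := by
  funext g h j x
  simp only [cur3, d₂₃_hom_apply, δ2, cur2]
  rfl

theorem cur4_d₃₄ (f : G × G × G → CoindV V A) :
    cur4 (d₃₄ (CoindV V A) f) = δ3 (cur3 f) := by
  funext g h j l x
  simp only [cur4, d₃₄_apply, δ3, cur3]
  rfl

/-! ### the `V`-side -/

def curU2 (c : V × V → A) : V → V → A := fun u v => c (u, v)
def curU3 (c : V × V × V → A) : V → V → V → A := fun u v w => c (u, v, w)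
def curU4 (c : V × V × V × V → A) : V → V → V → V → A := fun u v w z => c (u, v, w, z)

theorem d₀₁_eq_dU0 (a : A) : (d₀₁ A).hom a = dU0 A.ρ a := by
  funext u
  simp only [d₀₁_hom_apply, dU0]

theorem curU2_d₁₂ (c : V → A) : curU2 ((d₁₂ A).hom c) = dU1 A.ρ c := by
  funext u v
  simp only [curU2, d₁₂_hom_apply, dU1]

theorem curU3_d₂₃ (c : V × V → A) : curU3 ((d₂₃ A).hom c) = dU2 A.ρ (curU2 c) := by
  funext u v w
  simp only [curU3, d₂₃_hom_apply, dU2, curU2]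

theorem curU4_d₃₄ (c : V × V × V → A) : curU4 (d₃₄ A c) = dU3 A.ρ (curU3 c) := by
  funext u v w z
  simp only [curU4, d₃₄_apply, dU3, curU3]

/-! ### `Sh` is the map `sh` -/

theorem Sh0_cur0 (e : CoindV V A) : Sh0 (cur0 e) = (sh 𝒰 V A).φ e := rfl
theorem Sh1_cur1 (f : G → CoindV V A) : Sh1 (cur1 f) = (sh 𝒰 V A).p₁ f := rfl
theorem Sh2_cur2 (f : G × G → CoindV V A) : Sh2 (cur2 f) = curU2 ((sh 𝒰 V A).p₂ f) := rfl
theorem Sh3_cur3 (f : G × G × G → CoindV V A) :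
    Sh3 (cur3 f) = curU3 ((sh 𝒰 V A).p₃ f) := rfl

/-! ### level constancy ↔ invariance -/

theorem fac1_of_isLC₀ {e : CoindV V A} {N : Subgroup G} [N.Normal]
    (h : ∀ s ∈ N, (CoindV V A).ρ s e = e) : Fac1 N (cur0 e) := by
  rw [fac1_iff]
  intro x s hs
  have := congrArg (fun e' : CoindV V A => e'.1 x) (h s hs)
  exact this

theorem isLC₀_of_fac1 {e : G → A} (he : Eq0 A.ρ e) {N : Subgroup G} [N.Normal]
    (h : Fac1 N e) : ∀ s ∈ N, (CoindV V A).ρ s (unc0 e he) = unc0 e he := by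
  rw [fac1_iff] at h
  intro s hs
  apply Subtype.ext
  funext x
  exact h x s hs

theorem fac2_of_isLC₁ {f : G → CoindV V A} {N : Subgroup G} [N.Normal]
    (h : ∀ s ∈ N, ∀ g, f (g * s) = f g ∧ (CoindV V A).ρ s (f g) = f g) : Fac2 N (cur1 f) := by
  rw [fac2_iff]
  intro g x s hs
  refine ⟨?_, ?_⟩
  · simp only [cur1, (h s hs g).1]
  · exact congrArg (fun e' : CoindV V A => e'.1 x) (h s hs g).2

theorem isLC₁_of_fac2 {F : G → G → A} (hF : Eq1 A.ρ F) {N : Subgroup G} [N.Normal]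
    (h : Fac2 N F) :
    ∀ s ∈ N, ∀ g, unc1 F hF (g * s) = unc1 F hF g ∧
      (CoindV V A).ρ s (unc1 F hF g) = unc1 F hF g := by
  rw [fac2_iff] at h
  intro s hs g
  refine ⟨Subtype.ext (funext fun x => (h g x s hs).1), Subtype.ext (funext fun x => ?_)⟩
  exact (h g x s hs).2

theorem fac3_of_isLC₂ {f : G × G → CoindV V A} {N : Subgroup G} [N.Normal]
    (h : ∀ s ∈ N, ∀ g g', f (g * s, g') = f (g, g') ∧ f (g, g' * s) = f (g, g') ∧
      (CoindV V A).ρ s (f (g, g')) = f (g, g')) : Fac3 N (cur2 f) := by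
  rw [fac3_iff]
  intro g g' x s hs
  refine ⟨?_, ?_, ?_⟩
  · simp only [cur2, (h s hs g g').1]
  · simp only [cur2, (h s hs g g').2.1]
  · exact congrArg (fun e' : CoindV V A => e'.1 x) (h s hs g g').2.2

theorem isLC₂_of_fac3 {F : G → G → G → A} (hF : Eq2 A.ρ F) {N : Subgroup G} [N.Normal]
    (h : Fac3 N F) :
    ∀ s ∈ N, ∀ g g', unc2 F hF (g * s, g') = unc2 F hF (g, g') ∧
      unc2 F hF (g, g' * s) = unc2 F hF (g, g') ∧
      (CoindV V A).ρ s (unc2 F hF (g, g')) = unc2 F hF (g, g') := by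
  rw [fac3_iff] at h
  intro s hs g g'
  refine ⟨Subtype.ext (funext fun x => (h g g' x s hs).1),
    Subtype.ext (funext fun x => (h g g' x s hs).2.1), Subtype.ext (funext fun x => ?_)⟩
  exact (h g g' x s hs).2.2

theorem fac4_of_isLC₃ {f : G × G × G → CoindV V A} {N : Subgroup G} [N.Normal]
    (h : ∀ s ∈ N, ∀ g g' g'', f (g * s, g', g'') = f (g, g', g'') ∧
      f (g, g' * s, g'') = f (g, g', g'') ∧ f (g, g', g'' * s) = f (g, g', g'') ∧
      (CoindV V A).ρ s (f (g, g', g'')) = f (g, g', g'')) : Fac4 N (cur3 f) := by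
  rw [fac4_iff]
  intro g g' g'' x s hs
  refine ⟨?_, ?_, ?_, ?_⟩
  · simp only [cur3, (h s hs g g' g'').1]
  · simp only [cur3, (h s hs g g' g'').2.1]
  · simp only [cur3, (h s hs g g' g'').2.2.1]
  · exact congrArg (fun e' : CoindV V A => e'.1 x) (h s hs g g' g'').2.2.2

theorem isLC₃_of_fac4 {F : G → G → G → G → A} (hF : Eq3 A.ρ F) {N : Subgroup G} [N.Normal]
    (h : Fac4 N F) :
    ∀ s ∈ N, ∀ g g' g'', unc3 F hF (g * s, g', g'') = unc3 F hF (g, g', g'') ∧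
      unc3 F hF (g, g' * s, g'') = unc3 F hF (g, g', g'') ∧
      unc3 F hF (g, g', g'' * s) = unc3 F hF (g, g', g'') ∧
      (CoindV V A).ρ s (unc3 F hF (g, g', g'')) = unc3 F hF (g, g', g'') := by
  rw [fac4_iff] at h
  intro s hs g g' g''
  refine ⟨Subtype.ext (funext fun x => (h g g' g'' x s hs).1),
    Subtype.ext (funext fun x => (h g g' g'' x s hs).2.1),
    Subtype.ext (funext fun x => (h g g' g'' x s hs).2.2.1), Subtype.ext (funext fun x => ?_)⟩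
  exact (h g g' g'' x s hs).2.2.2

/-- `V`-side: level constancy for the induced basis gives `FullU`. -/
theorem fullU1_of_isLC₁ {c : V → A} {N : Subgroup G} [N.Normal]
    (h : ∀ s ∈ N.subgroupOf V, ∀ u, c (u * s) = c u ∧ A.ρ s (c u) = c u) : FullU1 A.ρ N c := by
  refine ⟨(fac1_iff _).2 fun u s hs => (h s hs u).1, fun s hs u => (h s hs u).2⟩

theorem fullU2_of_isLC₂ {c : V × V → A} {N : Subgroup G} [N.Normal]
    (h : ∀ s ∈ N.subgroupOf V, ∀ u v, c (u * s, v) = c (u, v) ∧ c (u, v * s) = c (u, v) ∧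
      A.ρ s (c (u, v)) = c (u, v)) : FullU2 A.ρ N (curU2 c) := by
  refine ⟨(fac2_iff _).2 fun u v s hs => ⟨(h s hs u v).1, (h s hs u v).2.1⟩,
    fun s hs u v => (h s hs u v).2.2⟩

theorem fullU3_of_isLC₃ {c : V × V × V → A} {N : Subgroup G} [N.Normal]
    (h : ∀ s ∈ N.subgroupOf V, ∀ u v w, c (u * s, v, w) = c (u, v, w) ∧
      c (u, v * s, w) = c (u, v, w) ∧ c (u, v, w * s) = c (u, v, w) ∧
      A.ρ s (c (u, v, w)) = c (u, v, w)) : FullU3 A.ρ N (curU3 c) := by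
  refine ⟨(fac3_iff _).2 fun u v w s hs =>
      ⟨(h s hs u v w).1, (h s hs u v w).2.1, (h s hs u v w).2.2.1⟩,
    fun s hs u v w => (h s hs u v w).2.2.2⟩

/-! ### the main theorems -/

variable {𝒰}

/-- a common level below two given ones and inside `V`. -/
theorem exists_level (hV : ∃ N, 𝒰.mem N ∧ N ≤ V) {N₁ N₂ : Subgroup G} (h₁ : 𝒰.mem N₁)
    (h₂ : 𝒰.mem N₂) : ∃ N, 𝒰.mem N ∧ N ≤ N₁ ∧ N ≤ N₂ ∧ N ≤ V := by
  obtain ⟨N₀, h₀, hle₀⟩ := hV
  obtain ⟨W, hW, hWle⟩ := 𝒰.inf h₁ h₂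
  obtain ⟨N, hN, hNle⟩ := 𝒰.inf hW h₀
  exact ⟨N, hN, fun x hx => (hWle (hNle hx).1).1, fun x hx => (hWle (hNle hx).1).2,
    fun x hx => hle₀ (hNle hx).2⟩

theorem sh_h2_injective (hV : ∃ N, 𝒰.mem N ∧ N ≤ V) :
    Function.Injective (sh 𝒰 V A).h2 := by
  obtain ⟨r⟩ := exists_retraction V
  rw [injective_iff_map_eq_zero]
  intro x hx
  obtain ⟨f, hf, rfl⟩ := Hmid.exists_of x
  have hb' : dC₂ (subBasis 𝒰 V) A ((sh 𝒰 V A).c₂ f) = 0 := by
    have := LinearMap.congr_fun (sh 𝒰 V A).c₃_dC₂ f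
    simp only [LinearMap.comp_apply] at this
    rw [← this, hf, map_zero]
  have hx' : (Hmid.of ((sh 𝒰 V A).c₂ f) hb' : H2 (subBasis 𝒰 V) A) = 0 := hx
  rw [Hmid.of_eq_zero_iff] at hx'
  obtain ⟨c', hc'⟩ := hx'
  rw [Hmid.of_eq_zero_iff]
  -- levels
  obtain ⟨N₁, hN₁, hf₁⟩ := f.2
  obtain ⟨W, ⟨N₂, hN₂, rfl⟩, hc₂⟩ := c'.2
  obtain ⟨N, hN, hle₁, hle₂, hNV⟩ := exists_level hV hN₁ hN₂
  have := 𝒰.normal hN
  -- the data
  have hFN : Fac3 N (cur2 f.1) := fac3_of_isLC₂ fun s hs => hf₁ s (hle₁ hs)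
  have hcN : FullU1 A.ρ N c'.1 := fullU1_of_isLC₁ fun s hs => hc₂ s (hle₂ hs)
  have hδ : δ2 (cur2 f.1) = 0 := by
    rw [← cur3_d₂₃]
    have : (d₂₃ (CoindV V A)).hom f.1 = 0 := congrArg Subtype.val hf
    rw [this]; rfl
  have hSh : Sh2 (cur2 f.1) = dU1 A.ρ c'.1 := by
    rw [Sh2_cur2 𝒰, ← curU2_d₁₂]
    congr 1
    exact (congrArg Subtype.val hc').symm
  obtain ⟨E, hE1, hE2, hE3⟩ := shapiro_inj2_full r hNV (Eq2_cur2 f.1) hFN hδ hcN hSh
  refine ⟨⟨unc1 E hE1, N, hN, isLC₁_of_fac2 hE1 hE2⟩, ?_⟩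
  apply Subtype.ext
  apply cur2_injective
  change cur2 ((d₁₂ (CoindV V A)).hom (unc1 E hE1)) = cur2 f.1
  rw [cur2_d₁₂, cur1_unc1, hE3]

theorem sh_h2_surjective (hV : ∃ N, 𝒰.mem N ∧ N ≤ V) :
    Function.Surjective (sh 𝒰 V A).h2 := by
  obtain ⟨r⟩ := exists_retraction V
  intro y
  obtain ⟨c, hc, rfl⟩ := Hmid.exists_of y
  obtain ⟨W, ⟨N₂, hN₂, rfl⟩, hc₂⟩ := c.2
  obtain ⟨N, hN, -, hle₂, hNV⟩ := exists_level hV hN₂ hN₂
  have := 𝒰.normal hN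
  have hcN : FullU2 A.ρ N (curU2 c.1) := fullU2_of_isLC₂ fun s hs => hc₂ s (hle₂ hs)
  have hd : dU2 A.ρ (curU2 c.1) = 0 := by
    rw [← curU3_d₂₃]
    have : (d₂₃ A).hom c.1 = 0 := congrArg Subtype.val hc
    rw [this]; rfl
  obtain ⟨h1, h2, h3, h4⟩ := shapiro_surj2_full A.ρ r hNV hd hcN
  let f : ↥(C₂ 𝒰 (CoindV V A)) := ⟨unc2 _ h1, N, hN, isLC₂_of_fac3 h1 h2⟩
  have hf : dC₂ 𝒰 (CoindV V A) f = 0 := by
    apply Subtype.ext
    apply cur3_injective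
    change cur3 ((d₂₃ (CoindV V A)).hom (unc2 _ h1)) = cur3 0
    rw [cur3_d₂₃, cur2_unc2, h3]; rfl
  refine ⟨Hmid.of f hf, ?_⟩
  have hb' : dC₂ (subBasis 𝒰 V) A ((sh 𝒰 V A).c₂ f) = 0 := by
    have := LinearMap.congr_fun (sh 𝒰 V A).c₃_dC₂ f
    simp only [LinearMap.comp_apply] at this
    rw [← this, hf, map_zero]
  change (Hmid.of ((sh 𝒰 V A).c₂ f) hb' : H2 (subBasis 𝒰 V) A) = Hmid.of c hc
  have e : (sh 𝒰 V A).c₂ f = c := by
    apply Subtype.ext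
    funext ⟨u, v⟩
    exact congrFun (congrFun h4 u) v
  simp only [e]

theorem sh_h1_injective (hV : ∃ N, 𝒰.mem N ∧ N ≤ V) :
    Function.Injective (sh 𝒰 V A).h1 := by
  obtain ⟨r⟩ := exists_retraction V
  rw [injective_iff_map_eq_zero]
  intro x hx
  obtain ⟨f, hf, rfl⟩ := Hmid.exists_of x
  have hb' : dC₁ (subBasis 𝒰 V) A ((sh 𝒰 V A).c₁ f) = 0 := by
    have := LinearMap.congr_fun (sh 𝒰 V A).c₂_dC₁ f
    simp only [LinearMap.comp_apply] at this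
    rw [← this, hf, map_zero]
  have hx' : (Hmid.of ((sh 𝒰 V A).c₁ f) hb' : H1 (subBasis 𝒰 V) A) = 0 := hx
  rw [Hmid.of_eq_zero_iff] at hx'
  obtain ⟨a, ha⟩ := hx'
  rw [Hmid.of_eq_zero_iff]
  obtain ⟨N₁, hN₁, hf₁⟩ := f.2
  obtain ⟨W, ⟨N₂, hN₂, rfl⟩, ha₂⟩ := a.2
  obtain ⟨N, hN, hle₁, hle₂, hNV⟩ := exists_level hV hN₁ hN₂
  have := 𝒰.normal hN
  have hFN : Fac2 N (cur1 f.1) := fac2_of_isLC₁ fun s hs => hf₁ s (hle₁ hs)
  have haN : FullU0 A.ρ N a.1 := fun s hs => ha₂ s (hle₂ hs)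
  have hδ : δ1 (cur1 f.1) = 0 := by
    rw [← cur2_d₁₂]
    have : (d₁₂ (CoindV V A)).hom f.1 = 0 := congrArg Subtype.val hf
    rw [this]; rfl
  have hSh : Sh1 (cur1 f.1) = dU0 A.ρ a.1 := by
    rw [Sh1_cur1 𝒰, ← d₀₁_eq_dU0]
    exact (congrArg Subtype.val ha).symm
  obtain ⟨e, he1, he2, he3⟩ := shapiro_inj1_full r hNV (Eq1_cur1 f.1) hFN hδ haN hSh
  refine ⟨⟨unc0 e he1, N, hN, isLC₀_of_fac1 he1 he2⟩, ?_⟩
  apply Subtype.ext
  apply cur1_injective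
  change cur1 ((d₀₁ (CoindV V A)).hom (unc0 e he1)) = cur1 f.1
  rw [cur1_d₀₁, cur0_unc0, he3]

theorem sh_h1_surjective (hV : ∃ N, 𝒰.mem N ∧ N ≤ V) :
    Function.Surjective (sh 𝒰 V A).h1 := by
  obtain ⟨r⟩ := exists_retraction V
  intro y
  obtain ⟨c, hc, rfl⟩ := Hmid.exists_of y
  obtain ⟨W, ⟨N₂, hN₂, rfl⟩, hc₂⟩ := c.2
  obtain ⟨N, hN, -, hle₂, hNV⟩ := exists_level hV hN₂ hN₂
  have := 𝒰.normal hN
  have hcN : FullU1 A.ρ N c.1 := fullU1_of_isLC₁ fun s hs => hc₂ s (hle₂ hs)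
  have hd : dU1 A.ρ c.1 = 0 := by
    rw [← curU2_d₁₂]
    have : (d₁₂ A).hom c.1 = 0 := congrArg Subtype.val hc
    rw [this]; rfl
  obtain ⟨h1, h2, h3, h4⟩ := shapiro_surj1_full A.ρ r hNV hd hcN
  let f : ↥(C₁ 𝒰 (CoindV V A)) := ⟨unc1 _ h1, N, hN, isLC₁_of_fac2 h1 h2⟩
  have hf : dC₁ 𝒰 (CoindV V A) f = 0 := by
    apply Subtype.ext
    apply cur2_injective
    change cur2 ((d₁₂ (CoindV V A)).hom (unc1 _ h1)) = cur2 0
    rw [cur2_d₁₂, cur1_unc1, h3]; rfl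
  refine ⟨Hmid.of f hf, ?_⟩
  have hb' : dC₁ (subBasis 𝒰 V) A ((sh 𝒰 V A).c₁ f) = 0 := by
    have := LinearMap.congr_fun (sh 𝒰 V A).c₂_dC₁ f
    simp only [LinearMap.comp_apply] at this
    rw [← this, hf, map_zero]
  change (Hmid.of ((sh 𝒰 V A).c₁ f) hb' : H1 (subBasis 𝒰 V) A) = Hmid.of c hc
  have e : (sh 𝒰 V A).c₁ f = c := by
    apply Subtype.ext
    funext u
    exact congrFun h4 u
  simp only [e]

theorem sh_h3_injective (hV : ∃ N, 𝒰.mem N ∧ N ≤ V) :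
    Function.Injective (sh 𝒰 V A).h3 := by
  obtain ⟨r⟩ := exists_retraction V
  rw [injective_iff_map_eq_zero]
  intro x hx
  obtain ⟨f, hf, rfl⟩ := Hmid.exists_of x
  have hb' : dC₃ (subBasis 𝒰 V) A ((sh 𝒰 V A).c₃ f) = 0 := by
    have := LinearMap.congr_fun (sh 𝒰 V A).p₄_dC₃ f
    simp only [LinearMap.comp_apply] at this
    rw [← this, hf, map_zero]
  have hx' : (Hmid.of ((sh 𝒰 V A).c₃ f) hb' : H3 (subBasis 𝒰 V) A) = 0 := hx
  rw [Hmid.of_eq_zero_iff] at hx'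
  obtain ⟨c', hc'⟩ := hx'
  rw [Hmid.of_eq_zero_iff]
  obtain ⟨N₁, hN₁, hf₁⟩ := f.2
  obtain ⟨W, ⟨N₂, hN₂, rfl⟩, hc₂⟩ := c'.2
  obtain ⟨N, hN, hle₁, hle₂, hNV⟩ := exists_level hV hN₁ hN₂
  have := 𝒰.normal hN
  have hFN : Fac4 N (cur3 f.1) := fac4_of_isLC₃ fun s hs => hf₁ s (hle₁ hs)
  have hcN : FullU2 A.ρ N (curU2 c'.1) := fullU2_of_isLC₂ fun s hs => hc₂ s (hle₂ hs)
  have hδ : δ3 (cur3 f.1) = 0 := by
    rw [← cur4_d₃₄]
    have : d₃₄ (CoindV V A) f.1 = 0 := hf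
    rw [this]; rfl
  have hSh : Sh3 (cur3 f.1) = dU2 A.ρ (curU2 c'.1) := by
    rw [Sh3_cur3 𝒰, ← curU3_d₂₃]
    congr 1
    exact (congrArg Subtype.val hc').symm
  obtain ⟨E, hE1, hE2, hE3⟩ := shapiro_inj3_full r hNV (Eq3_cur3 f.1) hFN hδ hcN hSh
  refine ⟨⟨unc2 E hE1, N, hN, isLC₂_of_fac3 hE1 hE2⟩, ?_⟩
  apply Subtype.ext
  apply cur3_injective
  change cur3 ((d₂₃ (CoindV V A)).hom (unc2 E hE1)) = cur3 f.1
  rw [cur3_d₂₃, cur2_unc2, hE3]

theorem sh_h3_surjective (hV : ∃ N, 𝒰.mem N ∧ N ≤ V) :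
    Function.Surjective (sh 𝒰 V A).h3 := by
  obtain ⟨r⟩ := exists_retraction V
  intro y
  obtain ⟨c, hc, rfl⟩ := Hmid.exists_of y
  obtain ⟨W, ⟨N₂, hN₂, rfl⟩, hc₂⟩ := c.2
  obtain ⟨N, hN, -, hle₂, hNV⟩ := exists_level hV hN₂ hN₂
  have := 𝒰.normal hN
  have hcN : FullU3 A.ρ N (curU3 c.1) := fullU3_of_isLC₃ fun s hs => hc₂ s (hle₂ hs)
  have hd : dU3 A.ρ (curU3 c.1) = 0 := by
    rw [← curU4_d₃₄]
    have : d₃₄ A c.1 = 0 := hc
    rw [this]; rfl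
  obtain ⟨h1, h2, h3, h4⟩ := shapiro_surj3_full A.ρ r hNV hd hcN
  let f : ↥(C₃ 𝒰 (CoindV V A)) := ⟨unc3 _ h1, N, hN, isLC₃_of_fac4 h1 h2⟩
  have hf : dC₃ 𝒰 (CoindV V A) f = 0 := by
    change d₃₄ (CoindV V A) (unc3 _ h1) = 0
    funext ⟨g, g', g'', g'''⟩
    apply Subtype.ext
    funext x
    have := congrFun (congrFun (congrFun (congrFun (congrFun h3 g) g') g'') g''') x
    rw [← cur3_unc3 _ h1, ← cur4_d₃₄] at this
    exact this
  refine ⟨Hmid.of f hf, ?_⟩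
  have hb' : dC₃ (subBasis 𝒰 V) A ((sh 𝒰 V A).c₃ f) = 0 := by
    have := LinearMap.congr_fun (sh 𝒰 V A).p₄_dC₃ f
    simp only [LinearMap.comp_apply] at this
    rw [← this, hf, map_zero]
  change (Hmid.of ((sh 𝒰 V A).c₃ f) hb' : H3 (subBasis 𝒰 V) A) = Hmid.of c hc
  have e : (sh 𝒰 V A).c₃ f = c := by
    apply Subtype.ext
    funext ⟨u, v, w⟩
    exact congrFun (congrFun (congrFun h4 u) v) w
  simp only [e]

theorem sh_h0_injective : Function.Injective (sh 𝒰 V A).h0 := by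
  rw [injective_iff_map_eq_zero]
  intro e he
  -- `e` is `G`-invariant and vanishes at `1`
  have h0 : (e.1.1).1 1 = 0 := congrArg (fun z : ↥(H0 (subBasis 𝒰 V) A) => (z.1.1 : A)) he
  have hinv : ∀ g x : G, (e.1.1).1 (x * g) = (e.1.1).1 x := by
    intro g x
    have h1 : dC₀ 𝒰 (CoindV V A) e.1 = 0 := e.2
    have h2 : (d₀₁ (CoindV V A)).hom e.1.1 g = 0 :=
      congrFun (congrArg Subtype.val h1) g
    rw [d₀₁_hom_apply, sub_eq_zero] at h2
    exact congrArg (fun e' : CoindV V A => e'.1 x) h2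
  apply Subtype.ext
  apply Subtype.ext
  apply Subtype.ext
  funext x
  have := hinv x 1
  rw [one_mul] at this
  rw [this, h0]
  rfl

theorem sh_h0_surjective : Function.Surjective (sh 𝒰 V A).h0 := by
  intro a
  -- `a` is `V`-invariant
  have hinv : ∀ v : V, A.ρ v a.1.1 = a.1.1 := by
    intro v
    have h1 : dC₀ (subBasis 𝒰 V) A a.1 = 0 := a.2
    have h2 : (d₀₁ A).hom a.1.1 v = 0 := congrFun (congrArg Subtype.val h1) v
    rw [d₀₁_hom_apply, sub_eq_zero] at h2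
    exact h2
  let e : CoindV V A := ⟨fun _ => a.1.1, fun v _ => (hinv v).symm⟩
  have he : ∀ g : G, (CoindV V A).ρ g e = e := fun g => Subtype.ext (funext fun x => rfl)
  let e' : ↥(C₀ 𝒰 (CoindV V A)) := ⟨e, ⊤, 𝒰.top, fun s _ => he s⟩
  have he' : dC₀ 𝒰 (CoindV V A) e' = 0 := by
    apply Subtype.ext
    funext g
    change (d₀₁ (CoindV V A)).hom e g = 0
    rw [d₀₁_hom_apply, he g, sub_self]
  refine ⟨⟨e', he'⟩, ?_⟩
  apply Subtype.ext
  apply Subtype.ext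
  rfl

/-- **Shapiro's lemma for level-constant cohomology.** -/
theorem sh_h0_bijective : Function.Bijective (sh 𝒰 V A).h0 :=
  ⟨sh_h0_injective, sh_h0_surjective⟩

theorem sh_h1_bijective (hV : ∃ N, 𝒰.mem N ∧ N ≤ V) : Function.Bijective (sh 𝒰 V A).h1 :=
  ⟨sh_h1_injective hV, sh_h1_surjective hV⟩

theorem sh_h2_bijective (hV : ∃ N, 𝒰.mem N ∧ N ≤ V) : Function.Bijective (sh 𝒰 V A).h2 :=
  ⟨sh_h2_injective hV, sh_h2_surjective hV⟩

theorem sh_h3_bijective (hV : ∃ N, 𝒰.mem N ∧ N ≤ V) : Function.Bijective (sh 𝒰 V A).h3 :=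
  ⟨sh_h3_injective hV, sh_h3_surjective hV⟩

/-- vanishing transfers along Shapiro -/
theorem vanish₃_coind_iff (hV : ∃ N, 𝒰.mem N ∧ N ≤ V) :
    Subsingleton (H3 𝒰 (CoindV V A)) ↔ Subsingleton (H3 (subBasis 𝒰 V) A) :=
  (LinearEquiv.ofBijective _ (sh_h3_bijective (A := A) hV)).toEquiv.subsingleton_congr

end Fermat.Agent.S55.Bridge.ShapiroLC
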