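/-
S55 / Bridge: the LOCALISATION SQUARE = Mackey + Shapiro for level-constant cohomology, in the
language of `Formal/LC.lean` (helper76) and `Bridge/ShapiroLC.lean` (helper14).
Owner: helper82 (row `Bridge.MackeyLC`, helper14 #1678 (b)).

`(G, 𝒰)`, `(D, 𝒟)` groups with bases, `f : D →* G` continuous (`hf : IsCont 𝒰 𝒟 f`; think of
`Γ_q → Γ`), `V ≤ G` an OPEN subgroup, `A : Rep k V`.  For `t : G`:
`D_t = conjSub f V t = f⁻¹ (t⁻¹ V t)`, `κ_t = conjHom f V t : D_t →* V`, `A_t = Rep.res κ_t A`.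

* `kap t    : Mor (subBasis 𝒰 V) A (subBasis 𝒟 D_t) A_t`   — restriction along `κ_t`;
* `locSh t  : Mor 𝒰 (coind_V^G A) (subBasis 𝒟 D_t) A_t`     — restrict along `D_t → D → G` and
  evaluate at `t` (= restriction to `D`, `t`-component of the Mackey map, Shapiro for `D_t ≤ D`);
* `locSh_h0 … locSh_h3` : THE SQUARE  `(locSh t).h_i = (kap t).h_i ∘ (sh 𝒰 V A).h_i`
  (for `t` at which some retraction of `V` is normalised: `t = 1` or `t ∉ V`).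
-/
import Mathlib
import Fermat.Agent.S55.Formal.LC
import Fermat.Agent.S55.Bridge.ShapiroLC
import Fermat.Agent.S55.Bridge.Mackey

set_option autoImplicit false
set_option linter.unusedSectionVars false

open CategoryTheory groupCohomology

namespace Fermat.Agent.S55.Bridge.MackeyLC

open Fermat.Agent.S55.Formal Fermat.Agent.S55.Bridge.ShapiroGeneric
  Fermat.Agent.S55.Bridge.ShapiroFull Fermat.Agent.S55.Bridge.ShapiroLC
  Fermat.Agent.S55.Bridge.Mackey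

variable {k : Type} [CommRing k] {G : Type} [Group G] {D : Type} [Group D]

section Defs

variable (𝒰 : NBasis G) (𝒟 : NBasis D) (f : D →* G) (hf : IsCont 𝒰 𝒟 f)
variable (V : Subgroup G) (A : Rep.{0, 0, 0} k V) (t : G)

/-- `A_t`: the representation `A` of `V` pulled back along `κ_t : D_t →* V`. -/
noncomputable abbrev conjCoef : Rep.{0, 0, 0} k (conjSub f V t) := Rep.res (conjHom f V t) A

theorem conjCoef_ρ : (conjCoef f V A t).ρ = conjRep A.ρ f t := rfl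

/-- restriction along `κ_t : D_t →* V`. -/
noncomputable def kap : Mor (subBasis 𝒰 V) A (subBasis 𝒟 (conjSub f V t)) (conjCoef f V A t) where
  f := conjHom f V t
  cont := by
    rintro W ⟨N, hN, rfl⟩
    obtain ⟨N', hN', h⟩ := hf N hN
    refine ⟨N'.subgroupOf (conjSub f V t), ⟨N', hN', rfl⟩, fun s hs => ?_⟩
    rw [Subgroup.mem_subgroupOf] at hs ⊢
    rw [coe_conjHom]
    exact (𝒰.normal hN).conj_mem _ (h _ hs) t
  φ := LinearMap.id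
  equivar _ _ := rfl

/-- evaluation of a coinduced function at `t`. -/
noncomputable def evAt : (CoindV V A) →ₗ[k] (conjCoef f V A t) where
  toFun e := e.1 t
  map_add' _ _ := rfl
  map_smul' _ _ := rfl

@[simp] theorem evAt_apply (e : CoindV V A) : evAt f V A t e = e.1 t := rfl

/-- restrict along `D_t → D → G` and evaluate at `t`. -/
noncomputable def locSh : Mor 𝒰 (CoindV V A) (subBasis 𝒟 (conjSub f V t)) (conjCoef f V A t) where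
  f := f.comp (conjSub f V t).subtype
  cont := by
    intro N hN
    obtain ⟨N', hN', h⟩ := hf N hN
    exact ⟨N'.subgroupOf (conjSub f V t), ⟨N', hN', rfl⟩, fun s hs => h _ hs⟩
  φ := evAt f V A t
  equivar d e := by
    change e.1 (t * f (d : D)) = A.ρ (conjHom f V t d) (e.1 t)
    rw [← e.2 (conjHom f V t d) t]
    have h : t * f (d : D) = V.subtype (conjHom f V t d) * t := by
      change t * f (d : D) = ((conjHom f V t d : V) : G) * t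
      rw [coe_conjHom]; group
    rw [h]

end Defs

/-! ### representatives `Sh' c` of the inverse Shapiro map, for a PRESCRIBED retraction -/

section Lift

variable {𝒰 : NBasis G} {V : Subgroup G} {A : Rep.{0, 0, 0} k V}

theorem exists_lift₁ (hV : ∃ N, 𝒰.mem N ∧ N ≤ V) (r : Retraction V)
    (c : ↥(C₁ (subBasis 𝒰 V) A)) (hc : dC₁ (subBasis 𝒰 V) A c = 0) :
    ∃ F : ↥(C₁ 𝒰 (CoindV V A)), dC₁ 𝒰 (CoindV V A) F = 0 ∧ cur1 F.1 = Sh'1 A.ρ r c.1 ∧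
      (sh 𝒰 V A).c₁ F = c := by
  obtain ⟨W, ⟨N₂, hN₂, rfl⟩, hc₂⟩ := c.2
  obtain ⟨N, hN, -, hle₂, hNV⟩ := exists_level hV hN₂ hN₂
  have := 𝒰.normal hN
  have hcN : FullU1 A.ρ N c.1 := fullU1_of_isLC₁ fun s hs => hc₂ s (hle₂ hs)
  have hd : dU1 A.ρ c.1 = 0 := by
    rw [← curU2_d₁₂]
    have : (d₁₂ A).hom c.1 = 0 := congrArg Subtype.val hc
    rw [this]; rfl
  obtain ⟨h1, h2, h3, h4⟩ := shapiro_surj1_full A.ρ r hNV hd hcN
  refine ⟨⟨unc1 _ h1, N, hN, isLC₁_of_fac2 h1 h2⟩, ?_, rfl, ?_⟩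
  · apply Subtype.ext
    apply cur2_injective
    change cur2 ((d₁₂ (CoindV V A)).hom (unc1 _ h1)) = cur2 0
    rw [cur2_d₁₂, cur1_unc1, h3]; rfl
  · apply Subtype.ext
    funext u
    exact congrFun h4 u

theorem exists_lift₂ (hV : ∃ N, 𝒰.mem N ∧ N ≤ V) (r : Retraction V)
    (c : ↥(C₂ (subBasis 𝒰 V) A)) (hc : dC₂ (subBasis 𝒰 V) A c = 0) :
    ∃ F : ↥(C₂ 𝒰 (CoindV V A)), dC₂ 𝒰 (CoindV V A) F = 0 ∧
      cur2 F.1 = Sh'2 A.ρ r (curU2 c.1) ∧ (sh 𝒰 V A).c₂ F = c := by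
  obtain ⟨W, ⟨N₂, hN₂, rfl⟩, hc₂⟩ := c.2
  obtain ⟨N, hN, -, hle₂, hNV⟩ := exists_level hV hN₂ hN₂
  have := 𝒰.normal hN
  have hcN : FullU2 A.ρ N (curU2 c.1) := fullU2_of_isLC₂ fun s hs => hc₂ s (hle₂ hs)
  have hd : dU2 A.ρ (curU2 c.1) = 0 := by
    rw [← curU3_d₂₃]
    have : (d₂₃ A).hom c.1 = 0 := congrArg Subtype.val hc
    rw [this]; rfl
  obtain ⟨h1, h2, h3, h4⟩ := shapiro_surj2_full A.ρ r hNV hd hcN
  refine ⟨⟨unc2 _ h1, N, hN, isLC₂_of_fac3 h1 h2⟩, ?_, rfl, ?_⟩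
  · apply Subtype.ext
    apply cur3_injective
    change cur3 ((d₂₃ (CoindV V A)).hom (unc2 _ h1)) = cur3 0
    rw [cur3_d₂₃, cur2_unc2, h3]; rfl
  · apply Subtype.ext
    funext ⟨u, v⟩
    exact congrFun (congrFun h4 u) v

theorem exists_lift₃ (hV : ∃ N, 𝒰.mem N ∧ N ≤ V) (r : Retraction V)
    (c : ↥(C₃ (subBasis 𝒰 V) A)) (hc : dC₃ (subBasis 𝒰 V) A c = 0) :
    ∃ F : ↥(C₃ 𝒰 (CoindV V A)), dC₃ 𝒰 (CoindV V A) F = 0 ∧
      cur3 F.1 = Sh'3 A.ρ r (curU3 c.1) ∧ (sh 𝒰 V A).c₃ F = c := by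
  obtain ⟨W, ⟨N₂, hN₂, rfl⟩, hc₂⟩ := c.2
  obtain ⟨N, hN, -, hle₂, hNV⟩ := exists_level hV hN₂ hN₂
  have := 𝒰.normal hN
  have hcN : FullU3 A.ρ N (curU3 c.1) := fullU3_of_isLC₃ fun s hs => hc₂ s (hle₂ hs)
  have hd : dU3 A.ρ (curU3 c.1) = 0 := by
    rw [← curU4_d₃₄]
    have : d₃₄ A c.1 = 0 := hc
    rw [this]; rfl
  obtain ⟨h1, h2, h3, h4⟩ := shapiro_surj3_full A.ρ r hNV hd hcN
  refine ⟨⟨unc3 _ h1, N, hN, isLC₃_of_fac4 h1 h2⟩, ?_, rfl, ?_⟩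
  · change d₃₄ (CoindV V A) (unc3 _ h1) = 0
    funext ⟨g, g', g'', g'''⟩
    apply Subtype.ext
    funext x
    have := congrFun (congrFun (congrFun (congrFun (congrFun h3 g) g') g'') g''') x
    rw [← cur3_unc3 _ h1, ← cur4_d₃₄] at this
    exact this
  · apply Subtype.ext
    funext ⟨u, v, w⟩
    exact congrFun (congrFun (congrFun h4 u) v) w

end Lift

/-! ### the localisation square -/

section Square

variable {𝒰 : NBasis G} {𝒟 : NBasis D} {f : D →* G} (hf : IsCont 𝒰 𝒟 f)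
variable {V : Subgroup G} (A : Rep.{0, 0, 0} k V) {t : G}

/-- degree `0`: no hypothesis on `t`. -/
theorem locSh_h0 (x : ↥(H0 𝒰 (CoindV V A))) :
    (locSh 𝒰 𝒟 f hf V A t).h0 x = (kap 𝒰 𝒟 f hf V A t).h0 ((sh 𝒰 V A).h0 x) := by
  apply Subtype.ext
  apply Subtype.ext
  change (x.1.1).1 t = (x.1.1).1 1
  have h1 : dC₀ 𝒰 (CoindV V A) x.1 = 0 := x.2
  have h2 : (d₀₁ (CoindV V A)).hom x.1.1 t = 0 := congrFun (congrArg Subtype.val h1) t
  rw [d₀₁_hom_apply, sub_eq_zero] at h2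
  have := congrArg (fun e' : CoindV V A => e'.1 1) h2
  simpa [coind_ρ_apply] using this

theorem locSh_h1 (hV : ∃ N, 𝒰.mem N ∧ N ≤ V) (r : Retraction V) (ht : r.toFun t = 1)
    (x : H1 𝒰 (CoindV V A)) :
    (locSh 𝒰 𝒟 f hf V A t).h1 x = (kap 𝒰 𝒟 f hf V A t).h1 ((sh 𝒰 V A).h1 x) := by
  obtain ⟨c, hc, hy⟩ := Hmid.exists_of ((sh 𝒰 V A).h1 x)
  obtain ⟨F, hF, hcur, hsh⟩ := exists_lift₁ hV r c hc
  have hx : x = Hmid.of F hF := by
    apply sh_h1_injective hV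
    rw [hy]
    have hb' : dC₁ (subBasis 𝒰 V) A ((sh 𝒰 V A).c₁ F) = 0 := by rw [hsh]; exact hc
    change Hmid.of c hc = (Hmid.of ((sh 𝒰 V A).c₁ F) hb' : H1 (subBasis 𝒰 V) A)
    simp only [hsh]
  rw [hy, hx]
  have hb₁ : dC₁ (subBasis 𝒟 (conjSub f V t)) (conjCoef f V A t)
      ((locSh 𝒰 𝒟 f hf V A t).c₁ F) = 0 := by
    have := LinearMap.congr_fun (locSh 𝒰 𝒟 f hf V A t).c₂_dC₁ F
    simp only [LinearMap.comp_apply] at this
    rw [← this, hF, map_zero]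
  have hb₂ : dC₁ (subBasis 𝒟 (conjSub f V t)) (conjCoef f V A t)
      ((kap 𝒰 𝒟 f hf V A t).c₁ c) = 0 := by
    have := LinearMap.congr_fun (kap 𝒰 𝒟 f hf V A t).c₂_dC₁ c
    simp only [LinearMap.comp_apply] at this
    rw [← this, hc, map_zero]
  change (Hmid.of ((locSh 𝒰 𝒟 f hf V A t).c₁ F) hb₁ :
      H1 (subBasis 𝒟 (conjSub f V t)) (conjCoef f V A t)) =
    Hmid.of ((kap 𝒰 𝒟 f hf V A t).c₁ c) hb₂
  have e : (locSh 𝒰 𝒟 f hf V A t).c₁ F = (kap 𝒰 𝒟 f hf V A t).c₁ c := by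
    apply Subtype.ext
    funext d
    change cur1 F.1 (f (d : D)) t = c.1 (conjHom f V t d)
    rw [hcur]
    exact Sh'1_at A.ρ f r ht c.1 d
  simp only [e]

theorem locSh_h2 (hV : ∃ N, 𝒰.mem N ∧ N ≤ V) (r : Retraction V) (ht : r.toFun t = 1)
    (x : H2 𝒰 (CoindV V A)) :
    (locSh 𝒰 𝒟 f hf V A t).h2 x = (kap 𝒰 𝒟 f hf V A t).h2 ((sh 𝒰 V A).h2 x) := by
  obtain ⟨c, hc, hy⟩ := Hmid.exists_of ((sh 𝒰 V A).h2 x)
  obtain ⟨F, hF, hcur, hsh⟩ := exists_lift₂ hV r c hc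
  have hx : x = Hmid.of F hF := by
    apply sh_h2_injective hV
    rw [hy]
    have hb' : dC₂ (subBasis 𝒰 V) A ((sh 𝒰 V A).c₂ F) = 0 := by rw [hsh]; exact hc
    change Hmid.of c hc = (Hmid.of ((sh 𝒰 V A).c₂ F) hb' : H2 (subBasis 𝒰 V) A)
    simp only [hsh]
  rw [hy, hx]
  have hb₁ : dC₂ (subBasis 𝒟 (conjSub f V t)) (conjCoef f V A t)
      ((locSh 𝒰 𝒟 f hf V A t).c₂ F) = 0 := by
    have := LinearMap.congr_fun (locSh 𝒰 𝒟 f hf V A t).c₃_dC₂ F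
    simp only [LinearMap.comp_apply] at this
    rw [← this, hF, map_zero]
  have hb₂ : dC₂ (subBasis 𝒟 (conjSub f V t)) (conjCoef f V A t)
      ((kap 𝒰 𝒟 f hf V A t).c₂ c) = 0 := by
    have := LinearMap.congr_fun (kap 𝒰 𝒟 f hf V A t).c₃_dC₂ c
    simp only [LinearMap.comp_apply] at this
    rw [← this, hc, map_zero]
  change (Hmid.of ((locSh 𝒰 𝒟 f hf V A t).c₂ F) hb₁ :
      H2 (subBasis 𝒟 (conjSub f V t)) (conjCoef f V A t)) =
    Hmid.of ((kap 𝒰 𝒟 f hf V A t).c₂ c) hb₂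
  have e : (locSh 𝒰 𝒟 f hf V A t).c₂ F = (kap 𝒰 𝒟 f hf V A t).c₂ c := by
    apply Subtype.ext
    funext ⟨d₁, d₂⟩
    change cur2 F.1 (f (d₁ : D)) (f (d₂ : D)) t = c.1 (conjHom f V t d₁, conjHom f V t d₂)
    rw [hcur]
    exact Sh'2_at A.ρ f r ht (curU2 c.1) d₁ d₂
  simp only [e]

theorem locSh_h3 (hV : ∃ N, 𝒰.mem N ∧ N ≤ V) (r : Retraction V) (ht : r.toFun t = 1)
    (x : H3 𝒰 (CoindV V A)) :
    (locSh 𝒰 𝒟 f hf V A t).h3 x = (kap 𝒰 𝒟 f hf V A t).h3 ((sh 𝒰 V A).h3 x) := by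
  obtain ⟨c, hc, hy⟩ := Hmid.exists_of ((sh 𝒰 V A).h3 x)
  obtain ⟨F, hF, hcur, hsh⟩ := exists_lift₃ hV r c hc
  have hx : x = Hmid.of F hF := by
    apply sh_h3_injective hV
    rw [hy]
    have hb' : dC₃ (subBasis 𝒰 V) A ((sh 𝒰 V A).c₃ F) = 0 := by rw [hsh]; exact hc
    change Hmid.of c hc = (Hmid.of ((sh 𝒰 V A).c₃ F) hb' : H3 (subBasis 𝒰 V) A)
    simp only [hsh]
  rw [hy, hx]
  have hb₁ : dC₃ (subBasis 𝒟 (conjSub f V t)) (conjCoef f V A t)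
      ((locSh 𝒰 𝒟 f hf V A t).c₃ F) = 0 := by
    have := LinearMap.congr_fun (locSh 𝒰 𝒟 f hf V A t).p₄_dC₃ F
    simp only [LinearMap.comp_apply] at this
    rw [← this, hF, map_zero]
  have hb₂ : dC₃ (subBasis 𝒟 (conjSub f V t)) (conjCoef f V A t)
      ((kap 𝒰 𝒟 f hf V A t).c₃ c) = 0 := by
    have := LinearMap.congr_fun (kap 𝒰 𝒟 f hf V A t).p₄_dC₃ c
    simp only [LinearMap.comp_apply] at this
    rw [← this, hc, map_zero]
  change (Hmid.of ((locSh 𝒰 𝒟 f hf V A t).c₃ F) hb₁ :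
      H3 (subBasis 𝒟 (conjSub f V t)) (conjCoef f V A t)) =
    Hmid.of ((kap 𝒰 𝒟 f hf V A t).c₃ c) hb₂
  have e : (locSh 𝒰 𝒟 f hf V A t).c₃ F = (kap 𝒰 𝒟 f hf V A t).c₃ c := by
    apply Subtype.ext
    funext ⟨d₁, d₂, d₃⟩
    change cur3 F.1 (f (d₁ : D)) (f (d₂ : D)) (f (d₃ : D)) t =
      c.1 (conjHom f V t d₁, conjHom f V t d₂, conjHom f V t d₃)
    rw [hcur]
    exact Sh'3_at A.ρ f r ht (curU3 c.1) d₁ d₂ d₃
  simp only [e]

end Square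

end Fermat.Agent.S55.Bridge.MackeyLC
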