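/-
S55 / Bridge: Mackey + Shapiro for level-constant cohomology, part 2: the PRODUCT DECOMPOSITION.
Owner: helper82 (row `Bridge.MackeyLC`, helper14 #1678 (b)).

* generic: LC cohomology commutes with FINITE jointly bijective families of coefficient maps
  (`prod_h0_bijective … prod_h3_bijective`);
* composition of `Mor`s on cohomology (`comp_h0 … comp_h3`);
* `mackPr t : Mor 𝒟 (Rep.res f (coind_V^G A)) 𝒟 (coind_{D_t}^D A_t)` (the `t`-component of the Mackey
  map as a coefficient map), `mackSh t := (mackPr t).comp (sh 𝒟 D_t A_t)`;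
* for a FINITE set `T` of representatives of `V \ G / f(D)`:
  `x ↦ ((mackSh t).h_i x)_{t ∈ T} : H^i_LC(D, res_f coind_V^G A) → ∏_{t ∈ T} H^i_LC(D_t, A_t)` is
  bijective, `i = 0, …, 3` (`mackSh_h0_bijective … mackSh_h3_bijective`);
* `locSh_eq_h0 … h3`: `(locSh t).h_i = (mackSh t).h_i ∘ (Mor.res f).h_i`, linking with the
  localisation square of `Bridge/MackeyLC.lean`.
-/
import Mathlib
import Fermat.Agent.S55.Formal.LC
import Fermat.Agent.S55.Bridge.ShapiroLC
import Fermat.Agent.S55.Bridge.Mackey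
import Fermat.Agent.S55.Bridge.MackeyLC

set_option autoImplicit false
set_option linter.unusedSectionVars false

open CategoryTheory groupCohomology

namespace Fermat.Agent.S55.Bridge.MackeyProd

open Fermat.Agent.S55.Formal Fermat.Agent.S55.Bridge.ShapiroGeneric
  Fermat.Agent.S55.Bridge.ShapiroFull Fermat.Agent.S55.Bridge.ShapiroLC
  Fermat.Agent.S55.Bridge.Mackey Fermat.Agent.S55.Bridge.MackeyLC

variable {k : Type} [CommRing k]

/-! ### finitely many levels have a common refinement -/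

theorem exists_common_level {D : Type} [Group D] (𝒟 : NBasis D) {ι : Type} [Finite ι]
    (U : ι → Subgroup D) (hU : ∀ j, 𝒟.mem (U j)) : ∃ W, 𝒟.mem W ∧ ∀ j, W ≤ U j := by
  classical
  cases nonempty_fintype ι
  have key : ∀ s : Finset ι, ∃ W, 𝒟.mem W ∧ ∀ j ∈ s, W ≤ U j := by
    intro s
    induction s using Finset.induction_on with
    | empty => exact ⟨⊤, 𝒟.top, by simp⟩
    | insert a s ha ih =>
      obtain ⟨W, hW, h⟩ := ih
      obtain ⟨W', hW', hle⟩ := 𝒟.inf hW (hU a)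
      refine ⟨W', hW', fun j hj => ?_⟩
      rcases Finset.mem_insert.1 hj with rfl | hj
      · exact fun x hx => (hle hx).2
      · exact fun x hx => h j hj (hle hx).1
  obtain ⟨W, hW, h⟩ := key Finset.univ
  exact ⟨W, hW, fun j => h j (Finset.mem_univ j)⟩

/-! ### composition of `Mor`s on cohomology -/

section Comp

variable {G : Type} [Group G] {G' : Type} [Group G'] {G'' : Type} [Group G'']
variable {𝒰 : NBasis G} {A : Rep.{0, 0, 0} k G} {𝒰' : NBasis G'} {B : Rep.{0, 0, 0} k G'}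
  {𝒰'' : NBasis G''} {C : Rep.{0, 0, 0} k G''} (α : Mor 𝒰 A 𝒰' B) (β : Mor 𝒰' B 𝒰'' C)

theorem comp_h0 (x : ↥(H0 𝒰 A)) : (α.comp β).h0 x = β.h0 (α.h0 x) := rfl

theorem comp_h1 (x : H1 𝒰 A) : (α.comp β).h1 x = β.h1 (α.h1 x) := by
  obtain ⟨c, hc, rfl⟩ := Hmid.exists_of x
  rfl

theorem comp_h2 (x : H2 𝒰 A) : (α.comp β).h2 x = β.h2 (α.h2 x) := by
  obtain ⟨c, hc, rfl⟩ := Hmid.exists_of x
  rfl

theorem comp_h3 (x : H3 𝒰 A) : (α.comp β).h3 x = β.h3 (α.h3 x) := by
  obtain ⟨c, hc, rfl⟩ := Hmid.exists_of x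
  rfl

end Comp

/-! ### cocycles go to cocycles, and the maps on classes of representatives -/

section Coc

variable {G : Type} [Group G] {G' : Type} [Group G']
variable {𝒰 : NBasis G} {A : Rep.{0, 0, 0} k G} {𝒰' : NBasis G'} {B : Rep.{0, 0, 0} k G'}
  (α : Mor 𝒰 A 𝒰' B)

theorem c₁_coc {c : ↥(C₁ 𝒰 A)} (hc : dC₁ 𝒰 A c = 0) : dC₁ 𝒰' B (α.c₁ c) = 0 := by
  have := LinearMap.congr_fun α.c₂_dC₁ c
  simp only [LinearMap.comp_apply] at this
  rw [← this, hc, map_zero]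

theorem c₂_coc {c : ↥(C₂ 𝒰 A)} (hc : dC₂ 𝒰 A c = 0) : dC₂ 𝒰' B (α.c₂ c) = 0 := by
  have := LinearMap.congr_fun α.c₃_dC₂ c
  simp only [LinearMap.comp_apply] at this
  rw [← this, hc, map_zero]

theorem c₃_coc {c : ↥(C₃ 𝒰 A)} (hc : dC₃ 𝒰 A c = 0) : dC₃ 𝒰' B (α.c₃ c) = 0 := by
  have := LinearMap.congr_fun α.p₄_dC₃ c
  simp only [LinearMap.comp_apply] at this
  rw [← this, hc, map_zero]

theorem h1_of {c : ↥(C₁ 𝒰 A)} (hc : dC₁ 𝒰 A c = 0) :
    α.h1 (Hmid.of c hc) = Hmid.of (α.c₁ c) (c₁_coc α hc) := rfl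

theorem h2_of {c : ↥(C₂ 𝒰 A)} (hc : dC₂ 𝒰 A c = 0) :
    α.h2 (Hmid.of c hc) = Hmid.of (α.c₂ c) (c₂_coc α hc) := rfl

theorem h3_of {c : ↥(C₃ 𝒰 A)} (hc : dC₃ 𝒰 A c = 0) :
    α.h3 (Hmid.of c hc) = Hmid.of (α.c₃ c) (c₃_coc α hc) := rfl

theorem of_congr₁ {c c' : ↥(C₁ 𝒰 A)} (h : c = c') (hc : dC₁ 𝒰 A c = 0)
    (hc' : dC₁ 𝒰 A c' = 0) : (Hmid.of c hc : H1 𝒰 A) = Hmid.of c' hc' := by
  subst h; rfl

theorem of_congr₂ {c c' : ↥(C₂ 𝒰 A)} (h : c = c') (hc : dC₂ 𝒰 A c = 0)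
    (hc' : dC₂ 𝒰 A c' = 0) : (Hmid.of c hc : H2 𝒰 A) = Hmid.of c' hc' := by
  subst h; rfl

theorem of_congr₃ {c c' : ↥(C₃ 𝒰 A)} (h : c = c') (hc : dC₃ 𝒰 A c = 0)
    (hc' : dC₃ 𝒰 A c' = 0) : (Hmid.of c hc : H3 𝒰 A) = Hmid.of c' hc' := by
  subst h; rfl

end Coc

/-! ### finite jointly bijective families of coefficient maps -/

section Generic

variable {D : Type} [Group D] (𝒟 : NBasis D)

/-- a `D`-equivariant linear map as a `Mor` (identity on the group). -/
def coefMor {M N : Rep.{0, 0, 0} k D} (φ : M →ₗ[k] N)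
    (hφ : ∀ g m, φ (M.ρ g m) = N.ρ g (φ m)) : Mor 𝒟 M 𝒟 N where
  f := MonoidHom.id D
  cont := isCont_id 𝒟
  φ := φ
  equivar g a := hφ g a

variable {M : Rep.{0, 0, 0} k D} {ι : Type} [Finite ι] {N : ι → Rep.{0, 0, 0} k D}
variable (φ : ∀ j, M →ₗ[k] N j) (hφ : ∀ j g m, φ j (M.ρ g m) = (N j).ρ g (φ j m))
variable (hbij : Function.Bijective (fun (m : M) (j : ι) => φ j m))

/-- the unique lift of a family of functions. -/
noncomputable def lift {X : Type} (y : ∀ j, X → N j) : X → M :=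
  fun x => Classical.choose (hbij.2 (fun j => y j x))

theorem lift_spec {X : Type} (y : ∀ j, X → N j) (j : ι) (x : X) :
    φ j (lift φ hbij y x) = y j x :=
  congrFun (Classical.choose_spec (hbij.2 (fun j => y j x))) j

include hbij in
theorem joint_inj {m m' : M} (h : ∀ j, φ j m = φ j m') : m = m' := hbij.1 (funext h)

include hφ in
theorem lift_mem_C₁ (y : ∀ j, ↥(C₁ 𝒟 (N j))) :
    lift φ hbij (fun j => (y j).1) ∈ C₁ 𝒟 M := by
  choose U hU h using fun j => (y j).2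
  obtain ⟨W, hW, hle⟩ := exists_common_level 𝒟 U hU
  refine ⟨W, hW, fun s hs g => ⟨?_, ?_⟩⟩
  · apply joint_inj φ hbij
    intro j
    rw [lift_spec, lift_spec]
    exact (h j s (hle j hs) g).1
  · apply joint_inj φ hbij
    intro j
    rw [hφ, lift_spec]
    exact (h j s (hle j hs) g).2

include hφ in
theorem lift_mem_C₂ (y : ∀ j, ↥(C₂ 𝒟 (N j))) :
    lift φ hbij (fun j => (y j).1) ∈ C₂ 𝒟 M := by
  choose U hU h using fun j => (y j).2
  obtain ⟨W, hW, hle⟩ := exists_common_level 𝒟 U hU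
  refine ⟨W, hW, fun s hs g g' => ⟨?_, ?_, ?_⟩⟩
  · apply joint_inj φ hbij
    intro j
    rw [lift_spec, lift_spec]
    exact (h j s (hle j hs) g g').1
  · apply joint_inj φ hbij
    intro j
    rw [lift_spec, lift_spec]
    exact (h j s (hle j hs) g g').2.1
  · apply joint_inj φ hbij
    intro j
    rw [hφ, lift_spec]
    exact (h j s (hle j hs) g g').2.2

include hφ in
theorem lift_mem_C₃ (y : ∀ j, ↥(C₃ 𝒟 (N j))) :
    lift φ hbij (fun j => (y j).1) ∈ C₃ 𝒟 M := by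
  choose U hU h using fun j => (y j).2
  obtain ⟨W, hW, hle⟩ := exists_common_level 𝒟 U hU
  refine ⟨W, hW, fun s hs g g' g'' => ⟨?_, ?_, ?_, ?_⟩⟩
  · apply joint_inj φ hbij
    intro j
    rw [lift_spec, lift_spec]
    exact (h j s (hle j hs) g g' g'').1
  · apply joint_inj φ hbij
    intro j
    rw [lift_spec, lift_spec]
    exact (h j s (hle j hs) g g' g'').2.1
  · apply joint_inj φ hbij
    intro j
    rw [lift_spec, lift_spec]
    exact (h j s (hle j hs) g g' g'').2.2.1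
  · apply joint_inj φ hbij
    intro j
    rw [hφ, lift_spec]
    exact (h j s (hle j hs) g g' g'').2.2.2

theorem coefMor_p₁_lift (y : ∀ j, D → N j) (j : ι) :
    (coefMor 𝒟 (φ j) (hφ j)).p₁ (lift φ hbij y) = y j :=
  funext fun g => lift_spec φ hbij y j g

theorem coefMor_p₂_lift (y : ∀ j, D × D → N j) (j : ι) :
    (coefMor 𝒟 (φ j) (hφ j)).p₂ (lift φ hbij y) = y j :=
  funext fun g => lift_spec φ hbij y j g

theorem coefMor_p₃_lift (y : ∀ j, D × D × D → N j) (j : ι) :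
    (coefMor 𝒟 (φ j) (hφ j)).p₃ (lift φ hbij y) = y j :=
  funext fun g => lift_spec φ hbij y j g

include hbij in
/-- **`H²_LC` commutes with finite jointly bijective families of coefficient maps.** -/
theorem prod_h2_bijective :
    Function.Bijective (fun (x : H2 𝒟 M) (j : ι) => (coefMor 𝒟 (φ j) (hφ j)).h2 x) := by
  have key : ∀ z : H2 𝒟 M, (∀ j, (coefMor 𝒟 (φ j) (hφ j)).h2 z = 0) → z = 0 := by
    intro z h
    obtain ⟨c, hc, rfl⟩ := Hmid.exists_of z
    have hj : ∀ j, ∃ b : ↥(C₁ 𝒟 (N j)), dC₁ 𝒟 (N j) b = (coefMor 𝒟 (φ j) (hφ j)).c₂ c := by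
      intro j
      have hb' : dC₂ 𝒟 (N j) ((coefMor 𝒟 (φ j) (hφ j)).c₂ c) = 0 := by
        have := LinearMap.congr_fun (coefMor 𝒟 (φ j) (hφ j)).c₃_dC₂ c
        simp only [LinearMap.comp_apply] at this
        rw [← this, hc, map_zero]
      have h0 : (Hmid.of ((coefMor 𝒟 (φ j) (hφ j)).c₂ c) hb' : H2 𝒟 (N j)) = 0 := h j
      rwa [Hmid.of_eq_zero_iff] at h0
    choose b hb using hj
    rw [Hmid.of_eq_zero_iff]
    refine ⟨⟨lift φ hbij (fun j => (b j).1), lift_mem_C₁ 𝒟 φ hφ hbij b⟩, ?_⟩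
    apply Subtype.ext
    funext p
    apply joint_inj φ hbij
    intro j
    have h1 := congrFun ((coefMor 𝒟 (φ j) (hφ j)).p₂_d₁₂ (lift φ hbij fun j => (b j).1)) p
    rw [coefMor_p₁_lift] at h1
    have h3 := congrFun (congrArg Subtype.val (hb j)) p
    exact h1.trans h3
  constructor
  · intro x x' h
    rw [← sub_eq_zero]
    apply key
    intro j
    rw [map_sub, sub_eq_zero]
    exact congrFun h j
  · intro y
    have hj : ∀ j, ∃ (c : ↥(C₂ 𝒟 (N j))) (hc : dC₂ 𝒟 (N j) c = 0), y j = Hmid.of c hc :=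
      fun j => Hmid.exists_of (y j)
    choose c hc hy using hj
    have hcoc : dC₂ 𝒟 M ⟨lift φ hbij (fun j => (c j).1), lift_mem_C₂ 𝒟 φ hφ hbij c⟩ = 0 := by
      apply Subtype.ext
      funext p
      apply joint_inj φ hbij
      intro j
      have h1 := congrFun ((coefMor 𝒟 (φ j) (hφ j)).p₃_d₂₃ (lift φ hbij fun j => (c j).1)) p
      rw [coefMor_p₂_lift] at h1
      have h3 := congrFun (congrArg Subtype.val (hc j)) p
      have h4 : φ j ((0 : ↥(C₃ 𝒟 M)).1 p) = (0 : ↥(C₃ 𝒟 (N j))).1 p := map_zero (φ j)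
      exact (h1.trans h3).trans h4.symm
    refine ⟨Hmid.of _ hcoc, ?_⟩
    funext j
    rw [hy j]
    have hb' : dC₂ 𝒟 (N j) ((coefMor 𝒟 (φ j) (hφ j)).c₂
        ⟨lift φ hbij (fun j => (c j).1), lift_mem_C₂ 𝒟 φ hφ hbij c⟩) = 0 := by
      have := LinearMap.congr_fun (coefMor 𝒟 (φ j) (hφ j)).c₃_dC₂
        ⟨lift φ hbij (fun j => (c j).1), lift_mem_C₂ 𝒟 φ hφ hbij c⟩
      simp only [LinearMap.comp_apply] at this
      rw [← this, hcoc, map_zero]
    change (Hmid.of _ hb' : H2 𝒟 (N j)) = Hmid.of (c j) (hc j)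
    have e : (coefMor 𝒟 (φ j) (hφ j)).c₂
        ⟨lift φ hbij (fun j => (c j).1), lift_mem_C₂ 𝒟 φ hφ hbij c⟩ = c j :=
      Subtype.ext (coefMor_p₂_lift 𝒟 φ hφ hbij _ j)
    simp only [e]

include hφ in
theorem lift_mem_C₀ (y : ∀ j, ↥(C₀ 𝒟 (N j))) :
    lift φ hbij (fun j (_ : Unit) => (y j).1) () ∈ C₀ 𝒟 M := by
  choose U hU h using fun j => (y j).2
  obtain ⟨W, hW, hle⟩ := exists_common_level 𝒟 U hU
  refine ⟨W, hW, fun s hs => ?_⟩
  apply joint_inj φ hbij
  intro j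
  rw [hφ, lift_spec]
  exact h j s (hle j hs)

include hbij in
/-- **`H⁰_LC` commutes with finite jointly bijective families of coefficient maps.** -/
theorem prod_h0_bijective :
    Function.Bijective (fun (x : ↥(H0 𝒟 M)) (j : ι) => (coefMor 𝒟 (φ j) (hφ j)).h0 x) := by
  constructor
  · intro x x' h
    apply Subtype.ext
    apply Subtype.ext
    apply joint_inj φ hbij
    intro j
    exact congrArg (fun z : ↥(H0 𝒟 (N j)) => (z.1.1 : N j)) (congrFun h j)
  · intro y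
    have hm := lift_mem_C₀ 𝒟 φ hφ hbij (fun j => (y j).1)
    have hcoc : dC₀ 𝒟 M ⟨_, hm⟩ = 0 := by
      apply Subtype.ext
      funext g
      apply joint_inj φ hbij
      intro j
      have h1 := congrFun ((coefMor 𝒟 (φ j) (hφ j)).p₁_d₀₁
        (lift φ hbij (fun j (_ : Unit) => ((y j).1 : N j)) ())) g
      have h2 : (coefMor 𝒟 (φ j) (hφ j)).φ
          (lift φ hbij (fun j (_ : Unit) => ((y j).1 : N j)) ()) = ((y j).1 : N j) :=
        lift_spec φ hbij _ j ()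
      rw [h2] at h1
      have h3 : dC₀ 𝒟 (N j) (y j).1 = 0 := (y j).2
      have h3' := congrFun (congrArg Subtype.val h3) g
      have h4 : φ j ((0 : ↥(C₁ 𝒟 M)).1 g) = (0 : ↥(C₁ 𝒟 (N j))).1 g := map_zero (φ j)
      exact (h1.trans h3').trans h4.symm
    refine ⟨⟨⟨_, hm⟩, hcoc⟩, ?_⟩
    funext j
    apply Subtype.ext
    apply Subtype.ext
    exact lift_spec φ hbij (fun j (_ : Unit) => (((y j).1 : ↥(C₀ 𝒟 (N j))) : N j)) j ()

include hbij in
/-- **`H¹_LC` commutes with finite jointly bijective families of coefficient maps.** -/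
theorem prod_h1_bijective :
    Function.Bijective (fun (x : H1 𝒟 M) (j : ι) => (coefMor 𝒟 (φ j) (hφ j)).h1 x) := by
  have key : ∀ z : H1 𝒟 M, (∀ j, (coefMor 𝒟 (φ j) (hφ j)).h1 z = 0) → z = 0 := by
    intro z h
    obtain ⟨c, hc, rfl⟩ := Hmid.exists_of z
    have hj : ∀ j, ∃ b : ↥(C₀ 𝒟 (N j)), dC₀ 𝒟 (N j) b = (coefMor 𝒟 (φ j) (hφ j)).c₁ c := by
      intro j
      have h0 := h j
      rw [h1_of, Hmid.of_eq_zero_iff] at h0
      exact h0
    choose b hb using hj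
    rw [Hmid.of_eq_zero_iff]
    refine ⟨⟨_, lift_mem_C₀ 𝒟 φ hφ hbij b⟩, ?_⟩
    apply Subtype.ext
    funext g
    apply joint_inj φ hbij
    intro j
    have h1 := congrFun ((coefMor 𝒟 (φ j) (hφ j)).p₁_d₀₁
      (lift φ hbij (fun j (_ : Unit) => ((b j) : N j)) ())) g
    have h2 : (coefMor 𝒟 (φ j) (hφ j)).φ
        (lift φ hbij (fun j (_ : Unit) => ((b j) : N j)) ()) = ((b j) : N j) :=
      lift_spec φ hbij _ j ()
    rw [h2] at h1
    have h3 := congrFun (congrArg Subtype.val (hb j)) g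
    exact h1.trans h3
  constructor
  · intro x x' h
    rw [← sub_eq_zero]
    apply key
    intro j
    rw [map_sub, sub_eq_zero]
    exact congrFun h j
  · intro y
    have hj : ∀ j, ∃ (c : ↥(C₁ 𝒟 (N j))) (hc : dC₁ 𝒟 (N j) c = 0), y j = Hmid.of c hc :=
      fun j => Hmid.exists_of (y j)
    choose c hc hy using hj
    have hcoc : dC₁ 𝒟 M ⟨lift φ hbij (fun j => (c j).1), lift_mem_C₁ 𝒟 φ hφ hbij c⟩ = 0 := by
      apply Subtype.ext
      funext p
      apply joint_inj φ hbij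
      intro j
      have h1 := congrFun ((coefMor 𝒟 (φ j) (hφ j)).p₂_d₁₂ (lift φ hbij fun j => (c j).1)) p
      rw [coefMor_p₁_lift] at h1
      have h3 := congrFun (congrArg Subtype.val (hc j)) p
      have h4 : φ j ((0 : ↥(C₂ 𝒟 M)).1 p) = (0 : ↥(C₂ 𝒟 (N j))).1 p := map_zero (φ j)
      exact (h1.trans h3).trans h4.symm
    refine ⟨Hmid.of _ hcoc, ?_⟩
    funext j
    rw [hy j]
    change (coefMor 𝒟 (φ j) (hφ j)).h1 (Hmid.of _ hcoc) = _
    rw [h1_of]
    exact of_congr₁ (Subtype.ext (coefMor_p₁_lift 𝒟 φ hφ hbij _ j)) _ _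

include hbij in
/-- **`H³_LC` commutes with finite jointly bijective families of coefficient maps.** -/
theorem prod_h3_bijective :
    Function.Bijective (fun (x : H3 𝒟 M) (j : ι) => (coefMor 𝒟 (φ j) (hφ j)).h3 x) := by
  have key : ∀ z : H3 𝒟 M, (∀ j, (coefMor 𝒟 (φ j) (hφ j)).h3 z = 0) → z = 0 := by
    intro z h
    obtain ⟨c, hc, rfl⟩ := Hmid.exists_of z
    have hj : ∀ j, ∃ b : ↥(C₂ 𝒟 (N j)), dC₂ 𝒟 (N j) b = (coefMor 𝒟 (φ j) (hφ j)).c₃ c := by
      intro j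
      have h0 := h j
      rw [h3_of, Hmid.of_eq_zero_iff] at h0
      exact h0
    choose b hb using hj
    rw [Hmid.of_eq_zero_iff]
    refine ⟨⟨lift φ hbij (fun j => (b j).1), lift_mem_C₂ 𝒟 φ hφ hbij b⟩, ?_⟩
    apply Subtype.ext
    funext p
    apply joint_inj φ hbij
    intro j
    have h1 := congrFun ((coefMor 𝒟 (φ j) (hφ j)).p₃_d₂₃ (lift φ hbij fun j => (b j).1)) p
    rw [coefMor_p₂_lift] at h1
    have h3 := congrFun (congrArg Subtype.val (hb j)) p
    exact h1.trans h3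
  constructor
  · intro x x' h
    rw [← sub_eq_zero]
    apply key
    intro j
    rw [map_sub, sub_eq_zero]
    exact congrFun h j
  · intro y
    have hj : ∀ j, ∃ (c : ↥(C₃ 𝒟 (N j))) (hc : dC₃ 𝒟 (N j) c = 0), y j = Hmid.of c hc :=
      fun j => Hmid.exists_of (y j)
    choose c hc hy using hj
    have hcoc : dC₃ 𝒟 M ⟨lift φ hbij (fun j => (c j).1), lift_mem_C₃ 𝒟 φ hφ hbij c⟩ = 0 := by
      funext p
      apply joint_inj φ hbij
      intro j
      have h1 := congrFun ((coefMor 𝒟 (φ j) (hφ j)).p₄_d₃₄ (lift φ hbij fun j => (c j).1)) p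
      rw [coefMor_p₃_lift] at h1
      have h3 : d₃₄ (N j) (c j).1 p = 0 := congrFun (hc j) p
      have h4 : φ j ((0 : D × D × D × D → M) p) = 0 := map_zero (φ j)
      exact (h1.trans h3).trans h4.symm
    refine ⟨Hmid.of _ hcoc, ?_⟩
    funext j
    rw [hy j]
    change (coefMor 𝒟 (φ j) (hφ j)).h3 (Hmid.of _ hcoc) = _
    rw [h3_of]
    exact of_congr₃ (Subtype.ext (coefMor_p₃_lift 𝒟 φ hφ hbij _ j)) _ _

end Generic

/-! ### the Mackey instance -/

section MackeyInst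

variable {G : Type} [Group G] {D : Type} [Group D]
variable (𝒰 : NBasis G) (𝒟 : NBasis D) (f : D →* G) (hf : IsCont 𝒰 𝒟 f)
variable (V : Subgroup G) (A : Rep.{0, 0, 0} k V)

include hf in
/-- `D_t` is open in `D` when `V` is open in `G` and `f` is continuous. -/
theorem conjSub_open (hV : ∃ N, 𝒰.mem N ∧ N ≤ V) (t : G) :
    ∃ N', 𝒟.mem N' ∧ N' ≤ conjSub f V t := by
  obtain ⟨N, hN, hNV⟩ := hV
  obtain ⟨N', hN', h⟩ := hf N hN
  exact ⟨N', hN', fun s hs => hNV ((𝒰.normal hN).conj_mem _ (h s hs) t)⟩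

/-- the `t`-component of the Mackey map, as a linear map
`res_f coind_V^G A → coind_{D_t}^D A_t`, `e ↦ (d ↦ e (t * f d))`. -/
noncomputable def mackLin (t : G) :
    (Rep.res f (CoindV V A)) →ₗ[k] (CoindV (conjSub f V t) (conjCoef f V A t)) where
  toFun e := ⟨fun d => e.1 (t * f d), fun u x => Eq0_mk0 f t (Eq0_cur0 e) u x⟩
  map_add' _ _ := rfl
  map_smul' _ _ := rfl

@[simp] theorem mackLin_apply (t : G) (e : Rep.res f (CoindV V A)) (d : D) :
    (mackLin f V A t e).1 d = e.1 (t * f d) := rfl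

theorem mackLin_equivar (t : G) (d : D) (e : Rep.res f (CoindV V A)) :
    mackLin f V A t ((Rep.res f (CoindV V A)).ρ d e) =
      (CoindV (conjSub f V t) (conjCoef f V A t)).ρ d (mackLin f V A t e) := by
  apply Subtype.ext
  funext x
  change e.1 (t * f x * f d) = e.1 (t * f (x * d))
  rw [map_mul, mul_assoc]

/-- the `t`-component of the Mackey map as a `Mor` (coefficient map over `D`). -/
noncomputable def mackPr (t : G) :
    Mor 𝒟 (Rep.res f (CoindV V A)) 𝒟 (CoindV (conjSub f V t) (conjCoef f V A t)) :=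
  coefMor 𝒟 (mackLin f V A t) (mackLin_equivar f V A t)

/-- Mackey component followed by Shapiro for `D_t ≤ D`:
group map `D_t → D`, coefficient map `e ↦ e (t * f 1)`. -/
noncomputable def mackSh (t : G) :
    Mor 𝒟 (Rep.res f (CoindV V A)) (subBasis 𝒟 (conjSub f V t)) (conjCoef f V A t) :=
  (mackPr 𝒟 f V A t).comp (sh 𝒟 (conjSub f V t) (conjCoef f V A t))

variable {f V}

/-- joint bijectivity of the Mackey components (= `Mackey.mackeyMap_injective/surjective`). -/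
theorem mackLin_bijective {T : Set G} (hT : Covers (V := V) f T) (hS : Separated (V := V) f T) :
    Function.Bijective (fun (e : Rep.res f (CoindV V A)) (t : T) => mackLin f V A (t : G) e) := by
  constructor
  · intro e e' h
    apply Subtype.ext
    apply mackeyMap_injective hT (Eq0_cur0 e) (Eq0_cur0 e')
    funext t d
    exact congrArg (fun z : CoindV (conjSub f V (t : G)) (conjCoef f V A (t : G)) => z.1 d)
      (congrFun h t)
  · intro ψ
    obtain ⟨φ, hφ, h⟩ := mackeyMap_surjective (σ := A.ρ) hT hS (fun t d => (ψ t).1 d)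
      (fun t u x => (ψ t).2 u x)
    refine ⟨unc0 φ hφ, ?_⟩
    funext t
    apply Subtype.ext
    funext d
    exact congrFun (congrFun h t) d

variable (f V)

section Main

variable {T : Set G} [Finite T] (hT : Covers (V := V) f T) (hS : Separated (V := V) f T)

include hT hS in
theorem mackSh_h0_bijective :
    Function.Bijective (fun (x : ↥(H0 𝒟 (Rep.res f (CoindV V A)))) (t : T) =>
      (mackSh 𝒟 f V A (t : G)).h0 x) := by
  have h1 := prod_h0_bijective 𝒟 (fun t : T => mackLin f V A (t : G))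
    (fun t => mackLin_equivar f V A (t : G)) (mackLin_bijective A hT hS)
  have h2 : Function.Bijective (Pi.map (fun (t : T) =>
      ⇑(sh 𝒟 (conjSub f V (t : G)) (conjCoef f V A (t : G))).h0)) :=
    Function.Bijective.piMap fun t => sh_h0_bijective
  exact h2.comp h1

include hT hS hf in
theorem mackSh_h1_bijective (hV : ∃ N, 𝒰.mem N ∧ N ≤ V) :
    Function.Bijective (fun (x : H1 𝒟 (Rep.res f (CoindV V A))) (t : T) =>
      (mackSh 𝒟 f V A (t : G)).h1 x) := by
  have h1 := prod_h1_bijective 𝒟 (fun t : T => mackLin f V A (t : G))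
    (fun t => mackLin_equivar f V A (t : G)) (mackLin_bijective A hT hS)
  have h2 : Function.Bijective (Pi.map (fun (t : T) =>
      ⇑(sh 𝒟 (conjSub f V (t : G)) (conjCoef f V A (t : G))).h1)) :=
    Function.Bijective.piMap fun t => sh_h1_bijective (conjSub_open 𝒰 𝒟 f hf V hV t)
  have h3 := h2.comp h1
  convert h3 using 1
  funext x t
  exact comp_h1 _ _ x

include hT hS hf in
theorem mackSh_h2_bijective (hV : ∃ N, 𝒰.mem N ∧ N ≤ V) :
    Function.Bijective (fun (x : H2 𝒟 (Rep.res f (CoindV V A))) (t : T) =>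
      (mackSh 𝒟 f V A (t : G)).h2 x) := by
  have h1 := prod_h2_bijective 𝒟 (fun t : T => mackLin f V A (t : G))
    (fun t => mackLin_equivar f V A (t : G)) (mackLin_bijective A hT hS)
  have h2 : Function.Bijective (Pi.map (fun (t : T) =>
      ⇑(sh 𝒟 (conjSub f V (t : G)) (conjCoef f V A (t : G))).h2)) :=
    Function.Bijective.piMap fun t => sh_h2_bijective (conjSub_open 𝒰 𝒟 f hf V hV t)
  have h3 := h2.comp h1
  convert h3 using 1
  funext x t
  exact comp_h2 _ _ x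

include hT hS hf in
theorem mackSh_h3_bijective (hV : ∃ N, 𝒰.mem N ∧ N ≤ V) :
    Function.Bijective (fun (x : H3 𝒟 (Rep.res f (CoindV V A))) (t : T) =>
      (mackSh 𝒟 f V A (t : G)).h3 x) := by
  have h1 := prod_h3_bijective 𝒟 (fun t : T => mackLin f V A (t : G))
    (fun t => mackLin_equivar f V A (t : G)) (mackLin_bijective A hT hS)
  have h2 : Function.Bijective (Pi.map (fun (t : T) =>
      ⇑(sh 𝒟 (conjSub f V (t : G)) (conjCoef f V A (t : G))).h3)) :=
    Function.Bijective.piMap fun t => sh_h3_bijective (conjSub_open 𝒰 𝒟 f hf V hV t)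
  have h3 := h2.comp h1
  convert h3 using 1
  funext x t
  exact comp_h3 _ _ x

end Main

/-! ### link with the localisation square: `locSh t = res_f` then `mackSh t` on cohomology -/

theorem locSh_eq_h0 (t : G) (x : ↥(H0 𝒰 (CoindV V A))) :
    (locSh 𝒰 𝒟 f hf V A t).h0 x =
      (mackSh 𝒟 f V A t).h0 ((Mor.res 𝒰 𝒟 f hf (CoindV V A)).h0 x) := by
  apply Subtype.ext
  apply Subtype.ext
  change (x.1.1).1 t = (x.1.1).1 (t * f 1)
  rw [map_one, mul_one]

theorem locSh_eq_h1 (t : G) (x : H1 𝒰 (CoindV V A)) :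
    (locSh 𝒰 𝒟 f hf V A t).h1 x =
      (mackSh 𝒟 f V A t).h1 ((Mor.res 𝒰 𝒟 f hf (CoindV V A)).h1 x) := by
  obtain ⟨c, hc, rfl⟩ := Hmid.exists_of x
  rw [h1_of, h1_of, h1_of]
  apply of_congr₁
  apply Subtype.ext
  funext d
  change (c.1 (f (d : D))).1 t = (c.1 (f (d : D))).1 (t * f 1)
  rw [map_one, mul_one]

theorem locSh_eq_h2 (t : G) (x : H2 𝒰 (CoindV V A)) :
    (locSh 𝒰 𝒟 f hf V A t).h2 x =
      (mackSh 𝒟 f V A t).h2 ((Mor.res 𝒰 𝒟 f hf (CoindV V A)).h2 x) := by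
  obtain ⟨c, hc, rfl⟩ := Hmid.exists_of x
  rw [h2_of, h2_of, h2_of]
  apply of_congr₂
  apply Subtype.ext
  funext ⟨d₁, d₂⟩
  change (c.1 (f (d₁ : D), f (d₂ : D))).1 t = (c.1 (f (d₁ : D), f (d₂ : D))).1 (t * f 1)
  rw [map_one, mul_one]

theorem locSh_eq_h3 (t : G) (x : H3 𝒰 (CoindV V A)) :
    (locSh 𝒰 𝒟 f hf V A t).h3 x =
      (mackSh 𝒟 f V A t).h3 ((Mor.res 𝒰 𝒟 f hf (CoindV V A)).h3 x) := by
  obtain ⟨c, hc, rfl⟩ := Hmid.exists_of x
  rw [h3_of, h3_of, h3_of]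
  apply of_congr₃
  apply Subtype.ext
  funext ⟨d₁, d₂, d₃⟩
  change (c.1 (f (d₁ : D), f (d₂ : D), f (d₃ : D))).1 t =
    (c.1 (f (d₁ : D), f (d₂ : D), f (d₃ : D))).1 (t * f 1)
  rw [map_one, mul_one]

end MackeyInst

end Fermat.Agent.S55.Bridge.MackeyProd
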