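/-
S55 / Bridge: UNIT and NORM coefficient maps for coinduced modules and the MACKEY FORMULA for the
norm (= `loc ∘ cor = Σ_v cor_v ∘ loc_v` on the level of coefficient maps).  Owner: helper82.

`M : Rep k G`, `V ≤ G` of finite index, `resV V M := Rep.res V.subtype M`.
* `unitLin V M : M →ₗ[k] coind_V^G (res_V M)`, `m ↦ (g ↦ ρ g m)`  (induces RESTRICTION after `sh`);
* `normLin V M : coind_V^G (res_V M) →ₗ[k] M`, `φ ↦ Σ_{gV ∈ G/V} ρ g (φ g⁻¹)` (induces
  CORESTRICTION before `sh`); both `G`-equivariant; `normLin ∘ unitLin = [G : V]`.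
* for `f : D →* G` and `t : G`: the twist `τ_t = ρ t⁻¹ : A_t → res_{D_t} (res_f M)` and
  `mackTw f V M t : res_f coind_V^G (res_V M) →ₗ[k] coind_{D_t}^D (res_{D_t} res_f M)`,
  `φ ↦ (d ↦ ρ t⁻¹ (φ (t * f d)))`;
* `normLin_mackey` : for a finite set `T` of representatives of `V \ G / f(D)`:
  `normLin V M φ = Σ_{t ∈ T} normLin D_t (res_f M) (mackTw f V M t φ)`;
* `mackTw_unitLin` : `mackTw f V M t (unitLin V M m) = unitLin D_t (res_f M) m`;
* hence `normLin_component_unit` : the `t`-summand of `normLin (unitLin m)` is `[D : D_t] • m`.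
-/
import Mathlib
import Fermat.Agent.S55.Formal.LC
import Fermat.Agent.S55.Bridge.ShapiroLC
import Fermat.Agent.S55.Bridge.Mackey
import Fermat.Agent.S55.Bridge.MackeyLC
import Fermat.Agent.S55.Bridge.MackeyProd

set_option autoImplicit false
set_option linter.unusedSectionVars false

open CategoryTheory groupCohomology

namespace Fermat.Agent.S55.Bridge.MackeyCor

open Fermat.Agent.S55.Formal Fermat.Agent.S55.Bridge.ShapiroGeneric
  Fermat.Agent.S55.Bridge.ShapiroLC Fermat.Agent.S55.Bridge.Mackey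
  Fermat.Agent.S55.Bridge.MackeyLC Fermat.Agent.S55.Bridge.MackeyProd

variable {k : Type} [CommRing k] {G : Type} [Group G]

section UnitNorm

variable (V : Subgroup G) (M : Rep.{0, 0, 0} k G)

/-- restriction of `M` to the subgroup `V`. -/
noncomputable abbrev resV : Rep.{0, 0, 0} k V := Rep.res V.subtype M

theorem resV_ρ (v : V) (m : M) : (resV V M).ρ v m = M.ρ (v : G) m := rfl

theorem ρ_mul_apply (a b : G) (m : M) : M.ρ (a * b) m = M.ρ a (M.ρ b m) := by
  rw [map_mul]; rfl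

/-- the unit `M → coind_V^G (res_V M)`, `m ↦ (g ↦ ρ g m)`. -/
noncomputable def unitLin : M →ₗ[k] CoindV V (resV V M) where
  toFun m := ⟨fun g => M.ρ g m, fun v g => by
    change M.ρ ((v : G) * g) m = M.ρ (v : G) (M.ρ g m)
    rw [map_mul]; rfl⟩
  map_add' a b := by
    apply Subtype.ext; funext g; exact map_add _ _ _
  map_smul' c a := by
    apply Subtype.ext; funext g; exact map_smul _ _ _

@[simp] theorem unitLin_apply (m : M) (g : G) : (unitLin V M m).1 g = M.ρ g m := rfl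

theorem unitLin_equivar (h : G) (m : M) :
    unitLin V M (M.ρ h m) = (CoindV V (resV V M)).ρ h (unitLin V M m) := by
  apply Subtype.ext
  funext g
  change M.ρ g (M.ρ h m) = M.ρ (g * h) m
  rw [ρ_mul_apply]

/-- the summand `gV ↦ ρ g (φ g⁻¹)` of the norm. -/
noncomputable def normTerm (φ : CoindV V (resV V M)) (x : G ⧸ V) : M :=
  Quotient.liftOn' x (fun g => M.ρ g (φ.1 g⁻¹)) (by
    intro a b hab
    rw [QuotientGroup.leftRel_apply] at hab
    have h1 := φ.2 (⟨a⁻¹ * b, hab⟩⁻¹ : V) a⁻¹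
    have h2 : V.subtype (⟨a⁻¹ * b, hab⟩⁻¹ : V) * a⁻¹ = b⁻¹ := by
      change (a⁻¹ * b)⁻¹ * a⁻¹ = b⁻¹
      group
    rw [h2] at h1
    change M.ρ a (φ.1 a⁻¹) = M.ρ b (φ.1 b⁻¹)
    rw [h1]
    change M.ρ a (φ.1 a⁻¹) = M.ρ b (M.ρ ((a⁻¹ * b)⁻¹) (φ.1 a⁻¹))
    rw [← ρ_mul_apply]
    congr 2
    group)

@[simp] theorem normTerm_mk (φ : CoindV V (resV V M)) (g : G) :
    normTerm V M φ (g : G ⧸ V) = M.ρ g (φ.1 g⁻¹) := rfl

theorem normTerm_add (φ ψ : CoindV V (resV V M)) (x : G ⧸ V) :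
    normTerm V M (φ + ψ) x = normTerm V M φ x + normTerm V M ψ x := by
  induction x using QuotientGroup.induction_on with
  | H g => exact map_add _ _ _

theorem normTerm_smul (c : k) (φ : CoindV V (resV V M)) (x : G ⧸ V) :
    normTerm V M (c • φ) x = c • normTerm V M φ x := by
  induction x using QuotientGroup.induction_on with
  | H g => exact map_smul _ _ _

theorem normTerm_ρ (h : G) (φ : CoindV V (resV V M)) (x : G ⧸ V) :
    normTerm V M ((CoindV V (resV V M)).ρ h φ) x = M.ρ h (normTerm V M φ (h⁻¹ • x)) := by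
  induction x using QuotientGroup.induction_on with
  | H g =>
    change M.ρ g (φ.1 (g⁻¹ * h)) = M.ρ h (M.ρ (h⁻¹ * g) (φ.1 (h⁻¹ * g)⁻¹))
    have h1 : (h⁻¹ * g)⁻¹ = g⁻¹ * h := by group
    rw [h1]
    rw [← ρ_mul_apply, mul_inv_cancel_left]

variable [Fintype (G ⧸ V)]

/-- the norm `coind_V^G (res_V M) → M`, `φ ↦ Σ_{gV} ρ g (φ g⁻¹)`. -/
noncomputable def normLin : CoindV V (resV V M) →ₗ[k] M where
  toFun φ := ∑ x : G ⧸ V, normTerm V M φ x
  map_add' φ ψ := by
    rw [← Finset.sum_add_distrib]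
    exact Finset.sum_congr rfl fun x _ => normTerm_add V M φ ψ x
  map_smul' c φ := by
    rw [RingHom.id_apply, Finset.smul_sum]
    exact Finset.sum_congr rfl fun x _ => normTerm_smul V M c φ x

theorem normLin_apply (φ : CoindV V (resV V M)) :
    normLin V M φ = ∑ x : G ⧸ V, normTerm V M φ x := rfl

theorem normLin_equivar (h : G) (φ : CoindV V (resV V M)) :
    normLin V M ((CoindV V (resV V M)).ρ h φ) = M.ρ h (normLin V M φ) := by
  rw [normLin_apply, normLin_apply, map_sum]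
  rw [← Equiv.sum_comp (MulAction.toPerm (h⁻¹ : G)) (fun x => M.ρ h (normTerm V M φ x))]
  exact Finset.sum_congr rfl fun x _ => normTerm_ρ V M h φ x

/-- `norm ∘ unit = [G : V]`. -/
theorem normLin_unitLin (m : M) :
    normLin V M (unitLin V M m) = Fintype.card (G ⧸ V) • m := by
  rw [normLin_apply]
  have : ∀ x : G ⧸ V, normTerm V M (unitLin V M m) x = m := by
    intro x
    induction x using QuotientGroup.induction_on with
    | H g =>
      change M.ρ g (M.ρ g⁻¹ m) = m
      rw [← ρ_mul_apply, mul_inv_cancel, map_one]; rfl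
  simp only [this, Finset.sum_const, Finset.card_univ]

end UnitNorm

/-! ### the Mackey formula for the norm -/

section MackeyFormula

variable {D : Type} [Group D] (f : D →* G) (V : Subgroup G) (M : Rep.{0, 0, 0} k G)

/-- the TWISTED `t`-component of the Mackey map:
`res_f coind_V^G (res_V M) → coind_{D_t}^D (res_{D_t} res_f M)`, `φ ↦ (d ↦ ρ t⁻¹ (φ (t * f d)))`. -/
noncomputable def mackTw (t : G) : (Rep.res f (CoindV V (resV V M))) →ₗ[k]
    CoindV (conjSub f V t) (resV (conjSub f V t) (Rep.res f M)) where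
  toFun φ := ⟨fun d => M.ρ t⁻¹ (φ.1 (t * f d)), fun u x => by
    change M.ρ t⁻¹ (φ.1 (t * f ((u : D) * x))) = M.ρ (f (u : D)) (M.ρ t⁻¹ (φ.1 (t * f x)))
    have h1 : t * f ((u : D) * x) = V.subtype (conjHom f V t u) * (t * f x) := by
      change t * f ((u : D) * x) = ((conjHom f V t u : V) : G) * (t * f x)
      rw [coe_conjHom, map_mul]; group
    rw [h1, φ.2 (conjHom f V t u) (t * f x)]
    change M.ρ t⁻¹ (M.ρ ((conjHom f V t u : V) : G) (φ.1 (t * f x))) = _
    rw [coe_conjHom, ← ρ_mul_apply, ← ρ_mul_apply]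
    congr 2
    group⟩
  map_add' a b := by
    apply Subtype.ext; funext d; exact map_add _ _ _
  map_smul' c a := by
    apply Subtype.ext; funext d; exact map_smul _ _ _

@[simp] theorem mackTw_apply (t : G) (φ : Rep.res f (CoindV V (resV V M))) (d : D) :
    (mackTw f V M t φ).1 d = M.ρ t⁻¹ (φ.1 (t * f d)) := rfl

/-- `mackTw` is `D`-equivariant. -/
theorem mackTw_equivar (t : G) (d' : D) (φ : Rep.res f (CoindV V (resV V M))) :
    mackTw f V M t ((Rep.res f (CoindV V (resV V M))).ρ d' φ) =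
      (CoindV (conjSub f V t) (resV (conjSub f V t) (Rep.res f M))).ρ d' (mackTw f V M t φ) := by
  apply Subtype.ext
  funext d
  change M.ρ t⁻¹ (φ.1 (t * f d * f d')) = M.ρ t⁻¹ (φ.1 (t * f (d * d')))
  rw [map_mul, mul_assoc]

/-- `mackTw` is the Mackey component `mackLin` followed by the twist `ρ t⁻¹`. -/
theorem mackTw_eq_mackLin (t : G) (φ : Rep.res f (CoindV V (resV V M))) (d : D) :
    (mackTw f V M t φ).1 d = M.ρ t⁻¹ ((mackLin f V (resV V M) t φ).1 d) := rfl

/-- (MF-unit) localisation commutes with the unit. -/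
theorem mackTw_unitLin (t : G) (m : M) :
    mackTw f V M t (unitLin V M m) = unitLin (conjSub f V t) (Rep.res f M) m := by
  apply Subtype.ext
  funext d
  change M.ρ t⁻¹ (M.ρ (t * f d) m) = M.ρ (f d) m
  rw [← ρ_mul_apply, inv_mul_cancel_left]

/-- the bijection `⊔_t D / D_t ≃ G / V`, `(t, e D_t) ↦ f(e) t⁻¹ V`. -/
noncomputable def beta (T : Set G) : (Σ t : T, D ⧸ conjSub f V (t : G)) → G ⧸ V :=
  fun p => Quotient.liftOn' p.2 (fun e => ((f e * (p.1 : G)⁻¹ : G) : G ⧸ V)) (by
    intro a b hab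
    rw [QuotientGroup.leftRel_apply] at hab
    rw [QuotientGroup.eq]
    have h : (f a * (p.1 : G)⁻¹)⁻¹ * (f b * (p.1 : G)⁻¹) = (p.1 : G) * f (a⁻¹ * b) * (p.1 : G)⁻¹ := by
      rw [map_mul, map_inv]; group
    rw [h]
    exact hab)

theorem beta_mk (T : Set G) (t : T) (e : D) :
    beta f V T ⟨t, (e : D ⧸ conjSub f V (t : G))⟩ = ((f e * (t : G)⁻¹ : G) : G ⧸ V) := rfl

variable {f V}

theorem beta_bijective {T : Set G} (hT : Covers (V := V) f T) (hS : Separated (V := V) f T) :
    Function.Bijective (beta f V T) := by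
  constructor
  · rintro ⟨t, y⟩ ⟨t', y'⟩ h
    induction y using QuotientGroup.induction_on with
    | H e =>
    induction y' using QuotientGroup.induction_on with
    | H e' =>
    rw [beta_mk, beta_mk, QuotientGroup.eq] at h
    have h1 : (f e * (t : G)⁻¹)⁻¹ * (f e' * (t' : G)⁻¹) = (t : G) * f (e⁻¹ * e') * (t' : G)⁻¹ := by
      rw [map_mul, map_inv]; group
    rw [h1] at h
    have htt : t = t' := by
      apply Subtype.ext
      refine hS _ t.2 _ t'.2 ⟨⟨_, h⟩⁻¹, e⁻¹ * e', ?_⟩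
      change (t' : G) = ((t : G) * f (e⁻¹ * e') * (t' : G)⁻¹)⁻¹ * (t : G) * f (e⁻¹ * e')
      group
    subst htt
    congr 1
    rw [QuotientGroup.eq]
    exact h
  · intro x
    induction x using QuotientGroup.induction_on with
    | H g =>
    obtain ⟨t, ht, v, d, hg⟩ := hT g⁻¹
    refine ⟨⟨⟨t, ht⟩, ((d⁻¹ : D) : D ⧸ conjSub f V t)⟩, ?_⟩
    rw [beta_mk, QuotientGroup.eq]
    have h1 : (f d⁻¹ * t⁻¹)⁻¹ * g = ((v : G))⁻¹ := by
      have hg' : g = (v * t * f d)⁻¹ := by rw [← hg, inv_inv]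
      rw [hg', map_inv]; group
    change (f d⁻¹ * t⁻¹)⁻¹ * g ∈ V
    rw [h1]
    exact V.inv_mem v.2

variable (f V)

/-- **(MF-norm) the Mackey formula for the norm.** -/
theorem normLin_mackey [Fintype (G ⧸ V)] {T : Set G} [Fintype T]
    [∀ t : T, Fintype (D ⧸ conjSub f V (t : G))]
    (hT : Covers (V := V) f T) (hS : Separated (V := V) f T)
    (φ : Rep.res f (CoindV V (resV V M))) :
    normLin V M φ =
      ∑ t : T, normLin (conjSub f V (t : G)) (Rep.res f M) (mackTw f V M (t : G) φ) := by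
  rw [normLin_apply]
  rw [← Fintype.sum_bijective (beta f V T) (beta_bijective hT hS)
    (fun p => normTerm V M φ (beta f V T p)) (fun x => normTerm V M φ x) (fun _ => rfl)]
  rw [Fintype.sum_sigma]
  refine Finset.sum_congr rfl fun t _ => ?_
  rw [normLin_apply]
  refine Finset.sum_congr rfl fun y _ => ?_
  induction y using QuotientGroup.induction_on with
  | H e =>
    rw [beta_mk]
    change M.ρ (f e * (t : G)⁻¹) (φ.1 (f e * (t : G)⁻¹)⁻¹) =
      M.ρ (f e) (M.ρ (t : G)⁻¹ (φ.1 ((t : G) * f e⁻¹)))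
    rw [← ρ_mul_apply]
    congr 2
    rw [map_inv]; group

/-- (IDX) the `t`-summand of `norm (unit m)` is `[D : D_t] • m`. -/
theorem normLin_component_unit (t : G) [Fintype (D ⧸ conjSub f V t)] (m : M) :
    normLin (conjSub f V t) (Rep.res f M) (mackTw f V M t (unitLin V M m)) =
      Fintype.card (D ⧸ conjSub f V t) • m := by
  rw [mackTw_unitLin]
  exact normLin_unitLin (conjSub f V t) (Rep.res f M) m

end MackeyFormula

end Fermat.Agent.S55.Bridge.MackeyCor
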