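/-
S55 / Bridge: the MACKEY FORMULA `loc ∘ cor = Σ_t cor_t ∘ loc_t` for level-constant cohomology, in
the language of `Middle/Sylow.lean` (helper66: `nmMor`, `cor1/2/3`, `resMor`).  Owner: helper82.

`(G, 𝒰)`, `(D, 𝒟)`, `f : D →* G` continuous, `V ≤ G` open, `M : Rep k G`, `T` a finite set of
representatives of `V \ G / f(D)` containing `1`.  For `y ∈ H^i_LC(V; res_V M)`, `i = 1, 2, 3`:

  `res_f (cor_V^G y) = Σ_{t ∈ T} cor_{D_t}^D (locTw t y)`        (`res_cor1/2/3`)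

where `locTw t : (V, res_V M) → (D_t, res_{D_t} res_f M)` is "restrict along `κ_t : D_t → V`,
`d ↦ t f(d) t⁻¹`, and apply `ρ t⁻¹` to the coefficients" (= conjugate by `t`, restrict to `D_t`).
-/
import Mathlib
import Fermat.Agent.S55.Formal.LC
import Fermat.Agent.S55.Bridge.ShapiroLC
import Fermat.Agent.S55.Bridge.Mackey
import Fermat.Agent.S55.Bridge.MackeyLC
import Fermat.Agent.S55.Bridge.MackeyProd
import Fermat.Agent.S55.Bridge.MackeyCor
import Fermat.Agent.S55.Middle.Sylow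

set_option autoImplicit false
set_option linter.unusedSectionVars false

open CategoryTheory groupCohomology

namespace Fermat.Agent.S55.Bridge.MackeyCorLC

open Fermat.Agent.S55.Formal Fermat.Agent.S55.Bridge.ShapiroGeneric
  Fermat.Agent.S55.Bridge.ShapiroLC Fermat.Agent.S55.Bridge.Mackey
  Fermat.Agent.S55.Bridge.MackeyLC Fermat.Agent.S55.Bridge.MackeyProd
  Fermat.Agent.S55.Bridge.MackeyCor Fermat.Agent.S55.Middle

variable {k : Type} [CommRing k] {G : Type} [Group G] {D : Type} [Group D]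

/-! ### helper66's norm is `normLin` -/

theorem nm_hom_eq_normLin (V : Subgroup G) [V.FiniteIndex] [Fintype (G ⧸ V)]
    (M : Rep.{0, 0, 0} k G) (φ : CoindV V (resV V M)) :
    (Sylow.nm V M).hom φ = normLin V M φ := by
  rw [Sylow.nm_hom_apply, normLin_apply]
  refine Finset.sum_congr rfl fun c _ => ?_
  conv_rhs => rw [← QuotientGroup.out_eq' c]
  rfl

/-! ### generalities on coefficient maps -/

section Coef

variable (𝒟 : NBasis D) {A B C : Rep.{0, 0, 0} k D}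

theorem coefMor_comp_h2 (φ : A →ₗ[k] B) (hφ : ∀ g m, φ (A.ρ g m) = B.ρ g (φ m))
    (ψ : B →ₗ[k] C) (hψ : ∀ g m, ψ (B.ρ g m) = C.ρ g (ψ m))
    (χ : A →ₗ[k] C) (hχ : ∀ g m, χ (A.ρ g m) = C.ρ g (χ m)) (h : ∀ m, χ m = ψ (φ m))
    (x : H2 𝒟 A) :
    (coefMor 𝒟 χ hχ).h2 x = (coefMor 𝒟 ψ hψ).h2 ((coefMor 𝒟 φ hφ).h2 x) := by
  obtain ⟨c, hc, rfl⟩ := Hmid.exists_of x
  rw [h2_of, h2_of, h2_of]
  apply of_congr₂
  apply Subtype.ext
  funext p
  exact h _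

theorem coefMor_sum_h2 {ι : Type} (s : Finset ι) (φ : ι → (A →ₗ[k] B))
    (hφ : ∀ j g m, φ j (A.ρ g m) = B.ρ g (φ j m))
    (ψ : A →ₗ[k] B) (hψ : ∀ g m, ψ (A.ρ g m) = B.ρ g (ψ m))
    (h : ∀ m, ψ m = ∑ j ∈ s, φ j m) (x : H2 𝒟 A) :
    (coefMor 𝒟 ψ hψ).h2 x = ∑ j ∈ s, (coefMor 𝒟 (φ j) (hφ j)).h2 x := by
  obtain ⟨c, hc, rfl⟩ := Hmid.exists_of x
  simp only [h2_of]
  unfold Hmid.of
  rw [← map_sum]
  congr 1
  apply Subtype.ext
  rw [Submodule.coe_sum]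
  apply Subtype.ext
  rw [Submodule.coe_sum]
  funext p
  rw [Finset.sum_apply]
  exact h _

theorem coefMor_comp_h1 (φ : A →ₗ[k] B) (hφ : ∀ g m, φ (A.ρ g m) = B.ρ g (φ m))
    (ψ : B →ₗ[k] C) (hψ : ∀ g m, ψ (B.ρ g m) = C.ρ g (ψ m))
    (χ : A →ₗ[k] C) (hχ : ∀ g m, χ (A.ρ g m) = C.ρ g (χ m)) (h : ∀ m, χ m = ψ (φ m))
    (x : H1 𝒟 A) :
    (coefMor 𝒟 χ hχ).h1 x = (coefMor 𝒟 ψ hψ).h1 ((coefMor 𝒟 φ hφ).h1 x) := by
  obtain ⟨c, hc, rfl⟩ := Hmid.exists_of x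
  rw [h1_of, h1_of, h1_of]
  apply of_congr₁
  apply Subtype.ext
  funext p
  exact h _

theorem coefMor_sum_h1 {ι : Type} (s : Finset ι) (φ : ι → (A →ₗ[k] B))
    (hφ : ∀ j g m, φ j (A.ρ g m) = B.ρ g (φ j m))
    (ψ : A →ₗ[k] B) (hψ : ∀ g m, ψ (A.ρ g m) = B.ρ g (ψ m))
    (h : ∀ m, ψ m = ∑ j ∈ s, φ j m) (x : H1 𝒟 A) :
    (coefMor 𝒟 ψ hψ).h1 x = ∑ j ∈ s, (coefMor 𝒟 (φ j) (hφ j)).h1 x := by
  obtain ⟨c, hc, rfl⟩ := Hmid.exists_of x
  simp only [h1_of]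
  unfold Hmid.of
  rw [← map_sum]
  congr 1
  apply Subtype.ext
  rw [Submodule.coe_sum]
  apply Subtype.ext
  rw [Submodule.coe_sum]
  funext p
  rw [Finset.sum_apply]
  exact h _

theorem coefMor_comp_h3 (φ : A →ₗ[k] B) (hφ : ∀ g m, φ (A.ρ g m) = B.ρ g (φ m))
    (ψ : B →ₗ[k] C) (hψ : ∀ g m, ψ (B.ρ g m) = C.ρ g (ψ m))
    (χ : A →ₗ[k] C) (hχ : ∀ g m, χ (A.ρ g m) = C.ρ g (χ m)) (h : ∀ m, χ m = ψ (φ m))
    (x : H3 𝒟 A) :
    (coefMor 𝒟 χ hχ).h3 x = (coefMor 𝒟 ψ hψ).h3 ((coefMor 𝒟 φ hφ).h3 x) := by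
  obtain ⟨c, hc, rfl⟩ := Hmid.exists_of x
  rw [h3_of, h3_of, h3_of]
  apply of_congr₃
  apply Subtype.ext
  funext p
  exact h _

theorem coefMor_sum_h3 {ι : Type} (s : Finset ι) (φ : ι → (A →ₗ[k] B))
    (hφ : ∀ j g m, φ j (A.ρ g m) = B.ρ g (φ j m))
    (ψ : A →ₗ[k] B) (hψ : ∀ g m, ψ (A.ρ g m) = B.ρ g (ψ m))
    (h : ∀ m, ψ m = ∑ j ∈ s, φ j m) (x : H3 𝒟 A) :
    (coefMor 𝒟 ψ hψ).h3 x = ∑ j ∈ s, (coefMor 𝒟 (φ j) (hφ j)).h3 x := by
  obtain ⟨c, hc, rfl⟩ := Hmid.exists_of x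
  simp only [h3_of]
  unfold Hmid.of
  rw [← map_sum]
  congr 1
  apply Subtype.ext
  rw [Submodule.coe_sum]
  apply Subtype.ext
  rw [Submodule.coe_sum]
  funext p
  rw [Finset.sum_apply]
  exact h _

end Coef

/-! ### the situation -/

section Main

variable (𝒰 : NBasis G) (𝒟 : NBasis D) (f : D →* G) (hf : IsCont 𝒰 𝒟 f)
variable (V : Subgroup G) (M : Rep.{0, 0, 0} k G)

/-- `normLin V M` as a `D`-equivariant map on the restrictions along `f`. -/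
theorem normLin_equivar_res [Fintype (G ⧸ V)] (d : D)
    (φ : Rep.res f (CoindV V (resV V M))) :
    normLin V M ((Rep.res f (CoindV V (resV V M))).ρ d φ) = (Rep.res f M).ρ d (normLin V M φ) :=
  normLin_equivar V M (f d) φ

/-- the twist `ρ t⁻¹ : A_t → res_{D_t} res_f M` as a linear map. -/
noncomputable def tauLin (t : G) : (conjCoef f V (resV V M) t) →ₗ[k]
    (resV (conjSub f V t) (Rep.res f M)) := M.ρ t⁻¹

theorem tauLin_equivar (t : G) (d : conjSub f V t) (m : conjCoef f V (resV V M) t) :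
    tauLin f V M t ((conjCoef f V (resV V M) t).ρ d m) =
      (resV (conjSub f V t) (Rep.res f M)).ρ d (tauLin f V M t m) := by
  change M.ρ t⁻¹ (M.ρ ((conjHom f V t d : V) : G) m) = M.ρ (f (d : D)) (M.ρ t⁻¹ m)
  rw [coe_conjHom, ← ρ_mul_apply, ← ρ_mul_apply]
  congr 2
  group

/-- the twist as a morphism of situations over `D_t`. -/
noncomputable def tauMor (t : G) : Mor (subBasis 𝒟 (conjSub f V t)) (conjCoef f V (resV V M) t)
    (subBasis 𝒟 (conjSub f V t)) (resV (conjSub f V t) (Rep.res f M)) :=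
  coefMor _ (tauLin f V M t) (tauLin_equivar f V M t)

/-- **localisation of a `V`-class at `t`**: restrict along `κ_t : D_t → V`, then twist by
`ρ t⁻¹`. -/
noncomputable def locTw (t : G) : Mor (subBasis 𝒰 V) (resV V M)
    (subBasis 𝒟 (conjSub f V t)) (resV (conjSub f V t) (Rep.res f M)) :=
  (kap 𝒰 𝒟 f hf V (resV V M) t).comp (tauMor 𝒟 f V M t)

/-- the twisted Mackey component as a coefficient map over `D`. -/
noncomputable def twMor (t : G) : Mor 𝒟 (Rep.res f (CoindV V (resV V M))) 𝒟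
    (CoindV (conjSub f V t) (resV (conjSub f V t) (Rep.res f M))) :=
  coefMor 𝒟 (mackTw f V M t) (mackTw_equivar f V M t)

/-! ### degree 2 -/

/-- helper66's `nmMor` is the coefficient map `normLin`. -/
theorem nmMor_h2 [V.FiniteIndex] [Fintype (G ⧸ V)] (x : H2 𝒰 (CoindV V (resV V M))) :
    (Sylow.nmMor V M 𝒰).h2 x =
      (coefMor 𝒰 (normLin V M) (fun g φ => normLin_equivar V M g φ)).h2 x := by
  obtain ⟨c, hc, rfl⟩ := Hmid.exists_of x
  rw [h2_of, h2_of]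
  apply of_congr₂
  apply Subtype.ext
  funext p
  exact nm_hom_eq_normLin V M _

/-- restriction along `f` commutes with the norm (as coefficient map). -/
theorem res_normLin_h2 [Fintype (G ⧸ V)] (x : H2 𝒰 (CoindV V (resV V M))) :
    (Mor.res 𝒰 𝒟 f hf M).h2
        ((coefMor 𝒰 (normLin V M) (fun g φ => normLin_equivar V M g φ)).h2 x) =
      (coefMor 𝒟 (normLin V M : (Rep.res f (CoindV V (resV V M))) →ₗ[k] (Rep.res f M))
        (fun d φ => normLin_equivar_res f V M d φ)).h2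
        ((Mor.res 𝒰 𝒟 f hf (CoindV V (resV V M))).h2 x) := by
  obtain ⟨c, hc, rfl⟩ := Hmid.exists_of x
  rw [h2_of, h2_of, h2_of, h2_of]
  apply of_congr₂
  apply Subtype.ext
  funext p
  rfl

/-- the Mackey decomposition of the norm on `H²` over `D`. -/
theorem normLin_decomp_h2 [Fintype (G ⧸ V)] {T : Set G} [Fintype T]
    [∀ t : T, (conjSub f V (t : G)).FiniteIndex]
    [∀ t : T, Fintype (D ⧸ conjSub f V (t : G))]
    (hT : Covers (V := V) f T) (hS : Separated (V := V) f T)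
    (w : H2 𝒟 (Rep.res f (CoindV V (resV V M)))) :
    (coefMor 𝒟 (normLin V M : (Rep.res f (CoindV V (resV V M))) →ₗ[k] (Rep.res f M))
        (fun d φ => normLin_equivar_res f V M d φ)).h2 w =
      ∑ t : T, (Sylow.nmMor (conjSub f V (t : G)) (Rep.res f M) 𝒟).h2
        ((twMor 𝒟 f V M (t : G)).h2 w) := by
  rw [coefMor_sum_h2 𝒟 Finset.univ
    (fun t : T => (normLin (conjSub f V (t : G)) (Rep.res f M)) ∘ₗ (mackTw f V M (t : G)))
    (fun t d φ => by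
      rw [LinearMap.comp_apply, LinearMap.comp_apply, mackTw_equivar, normLin_equivar])
    _ _ (fun φ => by
      simp only [LinearMap.comp_apply]
      exact normLin_mackey f V M hT hS φ) w]
  refine Finset.sum_congr rfl fun t _ => ?_
  rw [nmMor_h2]
  exact coefMor_comp_h2 𝒟 _ _ _ _ _ _ (fun _ => rfl) w

/-- the twisted square on cochains/cohomology: Shapiro for `D_t ≤ D` after the twisted Mackey
component after restriction along `f` is the twist of `locSh`. -/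
theorem sh_twMor_res_h2 (t : G) (z : H2 𝒰 (CoindV V (resV V M))) :
    (sh 𝒟 (conjSub f V t) (resV (conjSub f V t) (Rep.res f M))).h2
        ((twMor 𝒟 f V M t).h2 ((Mor.res 𝒰 𝒟 f hf (CoindV V (resV V M))).h2 z)) =
      (tauMor 𝒟 f V M t).h2 ((locSh 𝒰 𝒟 f hf V (resV V M) t).h2 z) := by
  obtain ⟨c, hc, rfl⟩ := Hmid.exists_of z
  rw [h2_of, h2_of, h2_of, h2_of, h2_of]
  apply of_congr₂
  apply Subtype.ext
  funext ⟨d₁, d₂⟩
  change M.ρ t⁻¹ ((c.1 (f (d₁ : D), f (d₂ : D))).1 (t * f 1)) =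
    M.ρ t⁻¹ ((c.1 (f (d₁ : D), f (d₂ : D))).1 t)
  rw [map_one, mul_one]

/-- **Mackey formula for corestriction, degree 2.** -/
theorem res_cor2 (hV : ∃ N, 𝒰.mem N ∧ N ≤ V) {T : Set G} [Fintype T]
    (hT : Covers (V := V) f T) (hS : Separated (V := V) f T)
    (r : Retraction V) (hr : ∀ t ∈ T, r.toFun t = 1)
    (y : H2 (subBasis 𝒰 V) (resV V M)) :
    (Mor.res 𝒰 𝒟 f hf M).h2 (Sylow.cor2 V M 𝒰 hV y) =
      ∑ t : T, Sylow.cor2 (conjSub f V (t : G)) (Rep.res f M) 𝒟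
        (conjSub_open 𝒰 𝒟 f hf V hV (t : G)) ((locTw 𝒰 𝒟 f hf V M (t : G)).h2 y) := by
  have := Sylow.finiteIndex_of_open 𝒰 hV
  have : ∀ t : T, (conjSub f V (t : G)).FiniteIndex := fun t =>
    Sylow.finiteIndex_of_open 𝒟 (conjSub_open 𝒰 𝒟 f hf V hV (t : G))
  let _ : Fintype (G ⧸ V) := Fintype.ofFinite _
  let _ : ∀ t : T, Fintype (D ⧸ conjSub f V (t : G)) := fun t => Fintype.ofFinite _
  -- `y = sh z`
  set z := (Sylow.shEquiv2 V M 𝒰 hV).symm y with hz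
  have hzy : (sh 𝒰 V (resV V M)).h2 z = y := (Sylow.shEquiv2 V M 𝒰 hV).apply_symm_apply y
  have hcor : Sylow.cor2 V M 𝒰 hV y = (Sylow.nmMor V M 𝒰).h2 z := rfl
  rw [hcor, nmMor_h2, res_normLin_h2, normLin_decomp_h2 𝒟 f V M hT hS]
  refine Finset.sum_congr rfl fun t _ => ?_
  have hcor' : Sylow.cor2 (conjSub f V (t : G)) (Rep.res f M) 𝒟
      (conjSub_open 𝒰 𝒟 f hf V hV (t : G)) ((locTw 𝒰 𝒟 f hf V M (t : G)).h2 y) =
      (Sylow.nmMor (conjSub f V (t : G)) (Rep.res f M) 𝒟).h2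
        ((Sylow.shEquiv2 (conjSub f V (t : G)) (Rep.res f M) 𝒟
          (conjSub_open 𝒰 𝒟 f hf V hV (t : G))).symm ((locTw 𝒰 𝒟 f hf V M (t : G)).h2 y)) := rfl
  rw [hcor']
  congr 1
  rw [eq_comm, LinearEquiv.symm_apply_eq]
  change (locTw 𝒰 𝒟 f hf V M (t : G)).h2 y =
    (sh 𝒟 (conjSub f V (t : G)) (resV (conjSub f V (t : G)) (Rep.res f M))).h2 _
  rw [sh_twMor_res_h2, locSh_h2 hf (resV V M) hV r (hr t t.2), hzy]
  exact comp_h2 _ _ y

/-! ### degree 1 -/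

/-- helper66's `nmMor` is the coefficient map `normLin`. -/
theorem nmMor_h1 [V.FiniteIndex] [Fintype (G ⧸ V)] (x : H1 𝒰 (CoindV V (resV V M))) :
    (Sylow.nmMor V M 𝒰).h1 x =
      (coefMor 𝒰 (normLin V M) (fun g φ => normLin_equivar V M g φ)).h1 x := by
  obtain ⟨c, hc, rfl⟩ := Hmid.exists_of x
  rw [h1_of, h1_of]
  apply of_congr₁
  apply Subtype.ext
  funext p
  exact nm_hom_eq_normLin V M _

/-- restriction along `f` commutes with the norm (as coefficient map). -/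
theorem res_normLin_h1 [Fintype (G ⧸ V)] (x : H1 𝒰 (CoindV V (resV V M))) :
    (Mor.res 𝒰 𝒟 f hf M).h1
        ((coefMor 𝒰 (normLin V M) (fun g φ => normLin_equivar V M g φ)).h1 x) =
      (coefMor 𝒟 (normLin V M : (Rep.res f (CoindV V (resV V M))) →ₗ[k] (Rep.res f M))
        (fun d φ => normLin_equivar_res f V M d φ)).h1
        ((Mor.res 𝒰 𝒟 f hf (CoindV V (resV V M))).h1 x) := by
  obtain ⟨c, hc, rfl⟩ := Hmid.exists_of x
  rw [h1_of, h1_of, h1_of, h1_of]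
  apply of_congr₁
  apply Subtype.ext
  funext p
  rfl

/-- the Mackey decomposition of the norm on `H¹` over `D`. -/
theorem normLin_decomp_h1 [Fintype (G ⧸ V)] {T : Set G} [Fintype T]
    [∀ t : T, (conjSub f V (t : G)).FiniteIndex]
    [∀ t : T, Fintype (D ⧸ conjSub f V (t : G))]
    (hT : Covers (V := V) f T) (hS : Separated (V := V) f T)
    (w : H1 𝒟 (Rep.res f (CoindV V (resV V M)))) :
    (coefMor 𝒟 (normLin V M : (Rep.res f (CoindV V (resV V M))) →ₗ[k] (Rep.res f M))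
        (fun d φ => normLin_equivar_res f V M d φ)).h1 w =
      ∑ t : T, (Sylow.nmMor (conjSub f V (t : G)) (Rep.res f M) 𝒟).h1
        ((twMor 𝒟 f V M (t : G)).h1 w) := by
  rw [coefMor_sum_h1 𝒟 Finset.univ
    (fun t : T => (normLin (conjSub f V (t : G)) (Rep.res f M)) ∘ₗ (mackTw f V M (t : G)))
    (fun t d φ => by
      rw [LinearMap.comp_apply, LinearMap.comp_apply, mackTw_equivar, normLin_equivar])
    _ _ (fun φ => by
      simp only [LinearMap.comp_apply]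
      exact normLin_mackey f V M hT hS φ) w]
  refine Finset.sum_congr rfl fun t _ => ?_
  rw [nmMor_h1]
  exact coefMor_comp_h1 𝒟 _ _ _ _ _ _ (fun _ => rfl) w

/-- the twisted square on cochains/cohomology: Shapiro for `D_t ≤ D` after the twisted Mackey
component after restriction along `f` is the twist of `locSh`. -/
theorem sh_twMor_res_h1 (t : G) (z : H1 𝒰 (CoindV V (resV V M))) :
    (sh 𝒟 (conjSub f V t) (resV (conjSub f V t) (Rep.res f M))).h1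
        ((twMor 𝒟 f V M t).h1 ((Mor.res 𝒰 𝒟 f hf (CoindV V (resV V M))).h1 z)) =
      (tauMor 𝒟 f V M t).h1 ((locSh 𝒰 𝒟 f hf V (resV V M) t).h1 z) := by
  obtain ⟨c, hc, rfl⟩ := Hmid.exists_of z
  rw [h1_of, h1_of, h1_of, h1_of, h1_of]
  apply of_congr₁
  apply Subtype.ext
  funext d₁
  change M.ρ t⁻¹ ((c.1 (f (d₁ : D))).1 (t * f 1)) =
    M.ρ t⁻¹ ((c.1 (f (d₁ : D))).1 t)
  rw [map_one, mul_one]

/-- **Mackey formula for corestriction, degree 1.** -/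
theorem res_cor1 (hV : ∃ N, 𝒰.mem N ∧ N ≤ V) {T : Set G} [Fintype T]
    (hT : Covers (V := V) f T) (hS : Separated (V := V) f T)
    (r : Retraction V) (hr : ∀ t ∈ T, r.toFun t = 1)
    (y : H1 (subBasis 𝒰 V) (resV V M)) :
    (Mor.res 𝒰 𝒟 f hf M).h1 (Sylow.cor1 V M 𝒰 hV y) =
      ∑ t : T, Sylow.cor1 (conjSub f V (t : G)) (Rep.res f M) 𝒟
        (conjSub_open 𝒰 𝒟 f hf V hV (t : G)) ((locTw 𝒰 𝒟 f hf V M (t : G)).h1 y) := by
  have := Sylow.finiteIndex_of_open 𝒰 hV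
  have : ∀ t : T, (conjSub f V (t : G)).FiniteIndex := fun t =>
    Sylow.finiteIndex_of_open 𝒟 (conjSub_open 𝒰 𝒟 f hf V hV (t : G))
  let _ : Fintype (G ⧸ V) := Fintype.ofFinite _
  let _ : ∀ t : T, Fintype (D ⧸ conjSub f V (t : G)) := fun t => Fintype.ofFinite _
  -- `y = sh z`
  set z := (Sylow.shEquiv1 V M 𝒰 hV).symm y with hz
  have hzy : (sh 𝒰 V (resV V M)).h1 z = y := (Sylow.shEquiv1 V M 𝒰 hV).apply_symm_apply y
  have hcor : Sylow.cor1 V M 𝒰 hV y = (Sylow.nmMor V M 𝒰).h1 z := rfl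
  rw [hcor, nmMor_h1, res_normLin_h1, normLin_decomp_h1 𝒟 f V M hT hS]
  refine Finset.sum_congr rfl fun t _ => ?_
  have hcor' : Sylow.cor1 (conjSub f V (t : G)) (Rep.res f M) 𝒟
      (conjSub_open 𝒰 𝒟 f hf V hV (t : G)) ((locTw 𝒰 𝒟 f hf V M (t : G)).h1 y) =
      (Sylow.nmMor (conjSub f V (t : G)) (Rep.res f M) 𝒟).h1
        ((Sylow.shEquiv1 (conjSub f V (t : G)) (Rep.res f M) 𝒟
          (conjSub_open 𝒰 𝒟 f hf V hV (t : G))).symm ((locTw 𝒰 𝒟 f hf V M (t : G)).h1 y)) := rfl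
  rw [hcor']
  congr 1
  rw [eq_comm, LinearEquiv.symm_apply_eq]
  change (locTw 𝒰 𝒟 f hf V M (t : G)).h1 y =
    (sh 𝒟 (conjSub f V (t : G)) (resV (conjSub f V (t : G)) (Rep.res f M))).h1 _
  rw [sh_twMor_res_h1, locSh_h1 hf (resV V M) hV r (hr t t.2), hzy]
  exact comp_h1 _ _ y

/-! ### degree 3 -/

/-- helper66's `nmMor` is the coefficient map `normLin`. -/
theorem nmMor_h3 [V.FiniteIndex] [Fintype (G ⧸ V)] (x : H3 𝒰 (CoindV V (resV V M))) :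
    (Sylow.nmMor V M 𝒰).h3 x =
      (coefMor 𝒰 (normLin V M) (fun g φ => normLin_equivar V M g φ)).h3 x := by
  obtain ⟨c, hc, rfl⟩ := Hmid.exists_of x
  rw [h3_of, h3_of]
  apply of_congr₃
  apply Subtype.ext
  funext p
  exact nm_hom_eq_normLin V M _

/-- restriction along `f` commutes with the norm (as coefficient map). -/
theorem res_normLin_h3 [Fintype (G ⧸ V)] (x : H3 𝒰 (CoindV V (resV V M))) :
    (Mor.res 𝒰 𝒟 f hf M).h3
        ((coefMor 𝒰 (normLin V M) (fun g φ => normLin_equivar V M g φ)).h3 x) =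
      (coefMor 𝒟 (normLin V M : (Rep.res f (CoindV V (resV V M))) →ₗ[k] (Rep.res f M))
        (fun d φ => normLin_equivar_res f V M d φ)).h3
        ((Mor.res 𝒰 𝒟 f hf (CoindV V (resV V M))).h3 x) := by
  obtain ⟨c, hc, rfl⟩ := Hmid.exists_of x
  rw [h3_of, h3_of, h3_of, h3_of]
  apply of_congr₃
  apply Subtype.ext
  funext p
  rfl

/-- the Mackey decomposition of the norm on `H³` over `D`. -/
theorem normLin_decomp_h3 [Fintype (G ⧸ V)] {T : Set G} [Fintype T]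
    [∀ t : T, (conjSub f V (t : G)).FiniteIndex]
    [∀ t : T, Fintype (D ⧸ conjSub f V (t : G))]
    (hT : Covers (V := V) f T) (hS : Separated (V := V) f T)
    (w : H3 𝒟 (Rep.res f (CoindV V (resV V M)))) :
    (coefMor 𝒟 (normLin V M : (Rep.res f (CoindV V (resV V M))) →ₗ[k] (Rep.res f M))
        (fun d φ => normLin_equivar_res f V M d φ)).h3 w =
      ∑ t : T, (Sylow.nmMor (conjSub f V (t : G)) (Rep.res f M) 𝒟).h3
        ((twMor 𝒟 f V M (t : G)).h3 w) := by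
  rw [coefMor_sum_h3 𝒟 Finset.univ
    (fun t : T => (normLin (conjSub f V (t : G)) (Rep.res f M)) ∘ₗ (mackTw f V M (t : G)))
    (fun t d φ => by
      rw [LinearMap.comp_apply, LinearMap.comp_apply, mackTw_equivar, normLin_equivar])
    _ _ (fun φ => by
      simp only [LinearMap.comp_apply]
      exact normLin_mackey f V M hT hS φ) w]
  refine Finset.sum_congr rfl fun t _ => ?_
  rw [nmMor_h3]
  exact coefMor_comp_h3 𝒟 _ _ _ _ _ _ (fun _ => rfl) w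

/-- the twisted square on cochains/cohomology: Shapiro for `D_t ≤ D` after the twisted Mackey
component after restriction along `f` is the twist of `locSh`. -/
theorem sh_twMor_res_h3 (t : G) (z : H3 𝒰 (CoindV V (resV V M))) :
    (sh 𝒟 (conjSub f V t) (resV (conjSub f V t) (Rep.res f M))).h3
        ((twMor 𝒟 f V M t).h3 ((Mor.res 𝒰 𝒟 f hf (CoindV V (resV V M))).h3 z)) =
      (tauMor 𝒟 f V M t).h3 ((locSh 𝒰 𝒟 f hf V (resV V M) t).h3 z) := by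
  obtain ⟨c, hc, rfl⟩ := Hmid.exists_of z
  rw [h3_of, h3_of, h3_of, h3_of, h3_of]
  apply of_congr₃
  apply Subtype.ext
  funext ⟨d₁, d₂, d₃⟩
  change M.ρ t⁻¹ ((c.1 (f (d₁ : D), f (d₂ : D), f (d₃ : D))).1 (t * f 1)) =
    M.ρ t⁻¹ ((c.1 (f (d₁ : D), f (d₂ : D), f (d₃ : D))).1 t)
  rw [map_one, mul_one]

/-- **Mackey formula for corestriction, degree 3.** -/
theorem res_cor3 (hV : ∃ N, 𝒰.mem N ∧ N ≤ V) {T : Set G} [Fintype T]
    (hT : Covers (V := V) f T) (hS : Separated (V := V) f T)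
    (r : Retraction V) (hr : ∀ t ∈ T, r.toFun t = 1)
    (y : H3 (subBasis 𝒰 V) (resV V M)) :
    (Mor.res 𝒰 𝒟 f hf M).h3 (Sylow.cor3 V M 𝒰 hV y) =
      ∑ t : T, Sylow.cor3 (conjSub f V (t : G)) (Rep.res f M) 𝒟
        (conjSub_open 𝒰 𝒟 f hf V hV (t : G)) ((locTw 𝒰 𝒟 f hf V M (t : G)).h3 y) := by
  have := Sylow.finiteIndex_of_open 𝒰 hV
  have : ∀ t : T, (conjSub f V (t : G)).FiniteIndex := fun t =>
    Sylow.finiteIndex_of_open 𝒟 (conjSub_open 𝒰 𝒟 f hf V hV (t : G))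
  let _ : Fintype (G ⧸ V) := Fintype.ofFinite _
  let _ : ∀ t : T, Fintype (D ⧸ conjSub f V (t : G)) := fun t => Fintype.ofFinite _
  -- `y = sh z`
  set z := (Sylow.shEquiv3 V M 𝒰 hV).symm y with hz
  have hzy : (sh 𝒰 V (resV V M)).h3 z = y := (Sylow.shEquiv3 V M 𝒰 hV).apply_symm_apply y
  have hcor : Sylow.cor3 V M 𝒰 hV y = (Sylow.nmMor V M 𝒰).h3 z := rfl
  rw [hcor, nmMor_h3, res_normLin_h3, normLin_decomp_h3 𝒟 f V M hT hS]
  refine Finset.sum_congr rfl fun t _ => ?_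
  have hcor' : Sylow.cor3 (conjSub f V (t : G)) (Rep.res f M) 𝒟
      (conjSub_open 𝒰 𝒟 f hf V hV (t : G)) ((locTw 𝒰 𝒟 f hf V M (t : G)).h3 y) =
      (Sylow.nmMor (conjSub f V (t : G)) (Rep.res f M) 𝒟).h3
        ((Sylow.shEquiv3 (conjSub f V (t : G)) (Rep.res f M) 𝒟
          (conjSub_open 𝒰 𝒟 f hf V hV (t : G))).symm ((locTw 𝒰 𝒟 f hf V M (t : G)).h3 y)) := rfl
  rw [hcor']
  congr 1
  rw [eq_comm, LinearEquiv.symm_apply_eq]
  change (locTw 𝒰 𝒟 f hf V M (t : G)).h3 y =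
    (sh 𝒟 (conjSub f V (t : G)) (resV (conjSub f V (t : G)) (Rep.res f M))).h3 _
  rw [sh_twMor_res_h3, locSh_h3 hf (resV V M) hV r (hr t t.2), hzy]
  exact comp_h3 _ _ y

/-! ### localisation commutes with restriction: `locTw t ∘ res_V^G = res_{D_t}^D ∘ res_f` -/

theorem mackTw_unit (t : G) (m : M) :
    mackTw f V M t ((Summand.unit V M).hom m) =
      (Summand.unit (conjSub f V t) (Rep.res f M)).hom m := by
  apply Subtype.ext
  funext d
  change M.ρ t⁻¹ (M.ρ (t * f d) m) = M.ρ (f d) m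
  rw [← ρ_mul_apply, inv_mul_cancel_left]

theorem twMor_unit_h1 (t : G) (x : H1 𝒰 M) :
    (twMor 𝒟 f V M t).h1 ((Mor.res 𝒰 𝒟 f hf (CoindV V (resV V M))).h1
        ((Sylow.unitMor V M 𝒰).h1 x)) =
      (Sylow.unitMor (conjSub f V t) (Rep.res f M) 𝒟).h1 ((Mor.res 𝒰 𝒟 f hf M).h1 x) := by
  obtain ⟨c, hc, rfl⟩ := Hmid.exists_of x
  rw [h1_of, h1_of, h1_of, h1_of, h1_of]
  apply of_congr₁
  apply Subtype.ext
  funext p
  exact mackTw_unit f V M t _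

theorem twMor_unit_h2 (t : G) (x : H2 𝒰 M) :
    (twMor 𝒟 f V M t).h2 ((Mor.res 𝒰 𝒟 f hf (CoindV V (resV V M))).h2
        ((Sylow.unitMor V M 𝒰).h2 x)) =
      (Sylow.unitMor (conjSub f V t) (Rep.res f M) 𝒟).h2 ((Mor.res 𝒰 𝒟 f hf M).h2 x) := by
  obtain ⟨c, hc, rfl⟩ := Hmid.exists_of x
  rw [h2_of, h2_of, h2_of, h2_of, h2_of]
  apply of_congr₂
  apply Subtype.ext
  funext p
  exact mackTw_unit f V M t _

theorem twMor_unit_h3 (t : G) (x : H3 𝒰 M) :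
    (twMor 𝒟 f V M t).h3 ((Mor.res 𝒰 𝒟 f hf (CoindV V (resV V M))).h3
        ((Sylow.unitMor V M 𝒰).h3 x)) =
      (Sylow.unitMor (conjSub f V t) (Rep.res f M) 𝒟).h3 ((Mor.res 𝒰 𝒟 f hf M).h3 x) := by
  obtain ⟨c, hc, rfl⟩ := Hmid.exists_of x
  rw [h3_of, h3_of, h3_of, h3_of, h3_of]
  apply of_congr₃
  apply Subtype.ext
  funext p
  exact mackTw_unit f V M t _

/-- **localisation commutes with restriction, degree 1.** -/
theorem locTw_res1 (hV : ∃ N, 𝒰.mem N ∧ N ≤ V) (r : Retraction V) {t : G}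
    (ht : r.toFun t = 1) (x : H1 𝒰 M) :
    (locTw 𝒰 𝒟 f hf V M t).h1 ((Sylow.resMor V M 𝒰).h1 x) =
      (Sylow.resMor (conjSub f V t) (Rep.res f M) 𝒟).h1 ((Mor.res 𝒰 𝒟 f hf M).h1 x) := by
  rw [← Sylow.sh_unit_h1 V M 𝒰 x, ← Sylow.sh_unit_h1 (conjSub f V t) (Rep.res f M) 𝒟,
    ← twMor_unit_h1 𝒰 𝒟 f hf V M t x]
  change (locTw 𝒰 𝒟 f hf V M t).h1 ((sh 𝒰 V (resV V M)).h1 _) =
    (sh 𝒟 (conjSub f V t) (resV (conjSub f V t) (Rep.res f M))).h1 _
  rw [sh_twMor_res_h1, locSh_h1 hf (resV V M) hV r ht]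
  exact comp_h1 _ _ _

/-- **localisation commutes with restriction, degree 2.** -/
theorem locTw_res2 (hV : ∃ N, 𝒰.mem N ∧ N ≤ V) (r : Retraction V) {t : G}
    (ht : r.toFun t = 1) (x : H2 𝒰 M) :
    (locTw 𝒰 𝒟 f hf V M t).h2 ((Sylow.resMor V M 𝒰).h2 x) =
      (Sylow.resMor (conjSub f V t) (Rep.res f M) 𝒟).h2 ((Mor.res 𝒰 𝒟 f hf M).h2 x) := by
  rw [← Sylow.sh_unit_h2 V M 𝒰 x, ← Sylow.sh_unit_h2 (conjSub f V t) (Rep.res f M) 𝒟,
    ← twMor_unit_h2 𝒰 𝒟 f hf V M t x]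
  change (locTw 𝒰 𝒟 f hf V M t).h2 ((sh 𝒰 V (resV V M)).h2 _) =
    (sh 𝒟 (conjSub f V t) (resV (conjSub f V t) (Rep.res f M))).h2 _
  rw [sh_twMor_res_h2, locSh_h2 hf (resV V M) hV r ht]
  exact comp_h2 _ _ _

/-- **localisation commutes with restriction, degree 3.** -/
theorem locTw_res3 (hV : ∃ N, 𝒰.mem N ∧ N ≤ V) (r : Retraction V) {t : G}
    (ht : r.toFun t = 1) (x : H3 𝒰 M) :
    (locTw 𝒰 𝒟 f hf V M t).h3 ((Sylow.resMor V M 𝒰).h3 x) =
      (Sylow.resMor (conjSub f V t) (Rep.res f M) 𝒟).h3 ((Mor.res 𝒰 𝒟 f hf M).h3 x) := by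
  rw [← Sylow.sh_unit_h3 V M 𝒰 x, ← Sylow.sh_unit_h3 (conjSub f V t) (Rep.res f M) 𝒟,
    ← twMor_unit_h3 𝒰 𝒟 f hf V M t x]
  change (locTw 𝒰 𝒟 f hf V M t).h3 ((sh 𝒰 V (resV V M)).h3 _) =
    (sh 𝒟 (conjSub f V t) (resV (conjSub f V t) (Rep.res f M))).h3 _
  rw [sh_twMor_res_h3, locSh_h3 hf (resV V M) hV r ht]
  exact comp_h3 _ _ _

end Main

end Fermat.Agent.S55.Bridge.MackeyCorLC
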