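/-
S55 / Bridge: Mackey + Shapiro for level-constant cohomology, part 3: FINITENESS of the set of
double coset representatives and the packaged statement.  Owner: helper82.

* `finite_of_finiteIndex` : a `Separated` set of representatives of `V \ G / f(D)` is finite when
  `V` has finite index;
* `finiteIndex_of_open` : an open subgroup (for an `NBasis`) has finite index;
* `exists_finite_reps` : a finite set `T ∋ 1` of representatives with a retraction of `V`
  normalised on `T`;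
* `mackey_shapiro_package` : everything together.
-/
import Mathlib
import Fermat.Agent.S55.Formal.LC
import Fermat.Agent.S55.Bridge.ShapiroLC
import Fermat.Agent.S55.Bridge.Mackey
import Fermat.Agent.S55.Bridge.MackeyLC
import Fermat.Agent.S55.Bridge.MackeyProd

set_option autoImplicit false
set_option linter.unusedSectionVars false

open CategoryTheory groupCohomology

namespace Fermat.Agent.S55.Bridge.MackeyFinite

open Fermat.Agent.S55.Formal Fermat.Agent.S55.Bridge.ShapiroGeneric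
  Fermat.Agent.S55.Bridge.ShapiroFull Fermat.Agent.S55.Bridge.ShapiroLC
  Fermat.Agent.S55.Bridge.Mackey Fermat.Agent.S55.Bridge.MackeyLC
  Fermat.Agent.S55.Bridge.MackeyProd

variable {k : Type} [CommRing k] {G : Type} [Group G] {D : Type} [Group D]

theorem finite_of_finiteIndex {V : Subgroup G} [V.FiniteIndex] {f : D →* G} {T : Set G}
    (hS : Separated (V := V) f T) : Finite T := by
  have : Finite (G ⧸ V) := Subgroup.finite_quotient_of_finiteIndex
  refine Finite.of_injective (fun t : T => (((t : G)⁻¹ : G) : G ⧸ V)) ?_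
  intro t t' h
  have h1 : ((t : G)⁻¹)⁻¹ * (t' : G)⁻¹ ∈ V := QuotientGroup.eq.1 h
  rw [inv_inv] at h1
  apply Subtype.ext
  refine (hS _ t'.2 _ t.2 ⟨⟨_, h1⟩, 1, ?_⟩).symm
  simp

theorem finiteIndex_of_open {𝒰 : NBasis G} {V : Subgroup G} (hV : ∃ N, 𝒰.mem N ∧ N ≤ V) :
    V.FiniteIndex := by
  obtain ⟨N, hN, hle⟩ := hV
  have := 𝒰.finiteIndex hN
  exact Subgroup.finiteIndex_of_le hle

theorem exists_finite_reps (V : Subgroup G) [V.FiniteIndex] (f : D →* G) :
    ∃ T : Set G, (1 : G) ∈ T ∧ Finite T ∧ Covers (V := V) f T ∧ Separated (V := V) f T ∧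
      ∃ r : Retraction V, ∀ t ∈ T, r.toFun t = 1 := by
  obtain ⟨T, h1, hT, hS⟩ := exists_reps V f
  exact ⟨T, h1, finite_of_finiteIndex hS, hT, hS, exists_retraction_normalised h1 hS⟩

/-- **Mackey + Shapiro, packaged.**  For `V ≤ G` open and `f : D →* G` continuous there is a
finite set `T ∋ 1` of representatives of `V \ G / f(D)` such that, for `i = 0, …, 3`:
the family `(mackSh t).h_i`, `t ∈ T`, identifies `H^i_LC(D, res_f coind_V^G A)` with
`∏_{t ∈ T} H^i_LC(D_t, A_t)`, and under this identification and Shapiro's isomorphism `sh` the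
restriction `H^i_LC(G, coind_V^G A) → H^i_LC(D, res_f coind_V^G A)` becomes `(κ_t^*)_{t ∈ T}`. -/
theorem mackey_shapiro_package (𝒰 : NBasis G) (𝒟 : NBasis D) (f : D →* G) (hf : IsCont 𝒰 𝒟 f)
    (V : Subgroup G) (hV : ∃ N, 𝒰.mem N ∧ N ≤ V) (A : Rep.{0, 0, 0} k V) :
    ∃ T : Set G, (1 : G) ∈ T ∧ Finite T ∧ Covers (V := V) f T ∧ Separated (V := V) f T ∧
      (Function.Bijective (fun (x : ↥(H0 𝒟 (Rep.res f (CoindV V A)))) (t : T) =>
          (mackSh 𝒟 f V A (t : G)).h0 x) ∧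
        Function.Bijective (fun (x : H1 𝒟 (Rep.res f (CoindV V A))) (t : T) =>
          (mackSh 𝒟 f V A (t : G)).h1 x) ∧
        Function.Bijective (fun (x : H2 𝒟 (Rep.res f (CoindV V A))) (t : T) =>
          (mackSh 𝒟 f V A (t : G)).h2 x) ∧
        Function.Bijective (fun (x : H3 𝒟 (Rep.res f (CoindV V A))) (t : T) =>
          (mackSh 𝒟 f V A (t : G)).h3 x)) ∧
      (∀ t ∈ T,
        (∀ x, (mackSh 𝒟 f V A t).h0 ((Mor.res 𝒰 𝒟 f hf (CoindV V A)).h0 x) =
          (kap 𝒰 𝒟 f hf V A t).h0 ((sh 𝒰 V A).h0 x)) ∧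
        (∀ x, (mackSh 𝒟 f V A t).h1 ((Mor.res 𝒰 𝒟 f hf (CoindV V A)).h1 x) =
          (kap 𝒰 𝒟 f hf V A t).h1 ((sh 𝒰 V A).h1 x)) ∧
        (∀ x, (mackSh 𝒟 f V A t).h2 ((Mor.res 𝒰 𝒟 f hf (CoindV V A)).h2 x) =
          (kap 𝒰 𝒟 f hf V A t).h2 ((sh 𝒰 V A).h2 x)) ∧
        (∀ x, (mackSh 𝒟 f V A t).h3 ((Mor.res 𝒰 𝒟 f hf (CoindV V A)).h3 x) =
          (kap 𝒰 𝒟 f hf V A t).h3 ((sh 𝒰 V A).h3 x))) := by
  have := finiteIndex_of_open hV
  obtain ⟨T, h1, hfin, hT, hS, r, hr⟩ := exists_finite_reps V f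
  refine ⟨T, h1, hfin, hT, hS, ⟨mackSh_h0_bijective 𝒟 f V A hT hS,
    mackSh_h1_bijective 𝒰 𝒟 f hf V A hT hS hV, mackSh_h2_bijective 𝒰 𝒟 f hf V A hT hS hV,
    mackSh_h3_bijective 𝒰 𝒟 f hf V A hT hS hV⟩, fun t ht => ⟨fun x => ?_, fun x => ?_,
      fun x => ?_, fun x => ?_⟩⟩
  · rw [← locSh_eq_h0]; exact locSh_h0 hf A x
  · rw [← locSh_eq_h1]; exact locSh_h1 hf A hV r (hr t ht) x
  · rw [← locSh_eq_h2]; exact locSh_h2 hf A hV r (hr t ht) x
  · rw [← locSh_eq_h3]; exact locSh_h3 hf A hV r (hr t ht) x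

end Fermat.Agent.S55.Bridge.MackeyFinite
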