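/-
S55 / Bridge: DESCENT OF "NO SINGLE SUPPORT" along an open subgroup, by restriction/corestriction
and the Mackey formula (the Mackey half of row M.inv, #1807 (5)(ii)).  Owner: helper82.

`X : Site`, `k` a field, `M : Rep k X.G`, `V ≤ X.G` open, `T v` finite sets of representatives of
`V \ G / ι_v(Γ_v)` containing `1`.  `(locTw … v t).h2` = localisation of a class of `H²(V; M)` at the
place `(v, t)` of the `V`-site.

* `cor2_injective_of_finrank` : corestriction is injective when `[G : H]` is invertible and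
  `dim H²(H; M) ≤ dim H²(G; M) < ∞`;
* `locTw_h2_eq_zero_iff` : the twist `ρ t⁻¹` does not affect vanishing;
* `nss_at_base` : a class of `H²(G; M)` supported only at `v₀` (a place with ONE place of the
  `V`-site above it and local degree invertible in `k`) vanishes at `v₀`, if NSS holds over `V`;
* `nss_descent` : NSS over `(X, M)` from NSS + two-point classes over the `V`-site.
-/
import Mathlib
import Fermat.Agent.S55.Formal.LC
import Fermat.Agent.S55.Formal.Site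
import Fermat.Agent.S55.Bridge.MackeyCorLC

set_option autoImplicit false
set_option linter.unusedSectionVars false

open CategoryTheory groupCohomology Module

namespace Fermat.Agent.S55.Bridge.NssDescent

open Fermat.Agent.S55.Formal Fermat.Agent.S55.Bridge.ShapiroGeneric
  Fermat.Agent.S55.Bridge.ShapiroLC Fermat.Agent.S55.Bridge.Mackey
  Fermat.Agent.S55.Bridge.MackeyLC Fermat.Agent.S55.Bridge.MackeyProd
  Fermat.Agent.S55.Bridge.MackeyCor Fermat.Agent.S55.Bridge.MackeyCorLC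
  Fermat.Agent.S55.Middle

variable {k : Type} [Field k]

/-! ### corestriction is injective in the one-dimensional situation -/

section CorInj

variable {G : Type} [Group G] (H : Subgroup G) (M : Rep.{0, 0, 0} k G) (𝒰 : NBasis G)
  (hH : ∃ N, 𝒰.mem N ∧ N ≤ H)

include hH in
theorem res_h2_injective (hidx : ((H.index : ℕ) : k) ≠ 0) :
    Function.Injective (Sylow.resMor H M 𝒰).h2 := by
  rw [injective_iff_map_eq_zero]
  intro x hx
  have h := Sylow.res_h2_eq_zero_imp H M 𝒰 hH x hx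
  exact (smul_eq_zero.1 h).resolve_left hidx

theorem cor2_injective_of_finrank (hidx : ((H.index : ℕ) : k) ≠ 0)
    [Module.Finite k (H2 𝒰 M)]
    [Module.Finite k (H2 (subBasis 𝒰 H) (Rep.res H.subtype M))]
    (hle : finrank k (H2 (subBasis 𝒰 H) (Rep.res H.subtype M)) ≤ finrank k (H2 𝒰 M)) :
    Function.Injective (Sylow.cor2 H M 𝒰 hH) := by
  have hinj := res_h2_injective H M 𝒰 hH hidx
  have hge := LinearMap.finrank_le_finrank_of_injective hinj
  have hsurj : Function.Surjective (Sylow.resMor H M 𝒰).h2 :=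
    (LinearMap.injective_iff_surjective_of_finrank_eq_finrank (le_antisymm hge hle)).1 hinj
  rw [injective_iff_map_eq_zero]
  intro b hb
  obtain ⟨a, rfl⟩ := hsurj b
  rw [Sylow.cor2_res] at hb
  rw [(smul_eq_zero.1 hb).resolve_left hidx, map_zero]

end CorInj

/-! ### the twist is invisible for vanishing -/

section Twist

variable {G : Type} [Group G] {D : Type} [Group D]
variable (𝒰 : NBasis G) (𝒟 : NBasis D) (f : D →* G) (hf : IsCont 𝒰 𝒟 f)
variable (V : Subgroup G) (M : Rep.{0, 0, 0} k G)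

/-- the inverse twist `ρ t`. -/
noncomputable def tauInvMor (t : G) : Mor (subBasis 𝒟 (conjSub f V t))
    (resV (conjSub f V t) (Rep.res f M)) (subBasis 𝒟 (conjSub f V t))
    (conjCoef f V (resV V M) t) :=
  coefMor _ (M.ρ t : (resV (conjSub f V t) (Rep.res f M)) →ₗ[k] (conjCoef f V (resV V M) t))
    (fun d m => by
      change M.ρ t (M.ρ (f (d : D)) m) = M.ρ ((conjHom f V t d : V) : G) (M.ρ t m)
      rw [coe_conjHom, ← ρ_mul_apply, ← ρ_mul_apply]
      congr 2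
      group)

theorem tauInv_tau_h2 (t : G) (y : H2 (subBasis 𝒟 (conjSub f V t)) (conjCoef f V (resV V M) t)) :
    (tauInvMor 𝒟 f V M t).h2 ((tauMor 𝒟 f V M t).h2 y) = y := by
  obtain ⟨c, hc, rfl⟩ := Hmid.exists_of y
  rw [h2_of, h2_of]
  apply of_congr₂
  apply Subtype.ext
  funext p
  change M.ρ t (M.ρ t⁻¹ (c.1 p)) = c.1 p
  rw [← ρ_mul_apply, mul_inv_cancel, map_one]
  rfl

/-- vanishing of the twisted localisation = vanishing of the plain restriction along `κ_t`. -/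
theorem locTw_h2_eq_zero_iff (t : G) (y : H2 (subBasis 𝒰 V) (resV V M)) :
    (locTw 𝒰 𝒟 f hf V M t).h2 y = 0 ↔ (kap 𝒰 𝒟 f hf V (resV V M) t).h2 y = 0 := by
  have h : (locTw 𝒰 𝒟 f hf V M t).h2 y =
      (tauMor 𝒟 f V M t).h2 ((kap 𝒰 𝒟 f hf V (resV V M) t).h2 y) := comp_h2 _ _ y
  rw [h]
  constructor
  · intro h0
    have := congrArg (tauInvMor 𝒟 f V M t).h2 h0
    rwa [tauInv_tau_h2, map_zero] at this
  · intro h0
    rw [h0, map_zero]

end Twist

/-! ### linear algebra: two-point classes from `codim ≤ 1` + no single support -/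

section TwoPoint

variable {ι : Type} [Fintype ι] [DecidableEq ι] {A : Type} [AddCommGroup A] [Module k A]
  {B : ι → Type} [∀ i, AddCommGroup (B i)] [∀ i, Module k (B i)]

/-- If the image of `L : A → Π_i B_i` has codimension `≤ 1` and contains no nonzero element
supported at a single index, then for `i₁ ≠ i₀` with `B i₁ ≠ 0 ≠ B i₀` there is an element of the
image supported exactly at `{i₁, i₀}` (nonzero at `i₁`). -/
theorem exists_two_point (L : A →ₗ[k] (∀ i, B i))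
    [Module.Finite k ((∀ i, B i) ⧸ LinearMap.range L)]
    (hcodim : finrank k ((∀ i, B i) ⧸ LinearMap.range L) ≤ 1)
    (hnss : ∀ (a : A) (i₀ : ι), (∀ i, i ≠ i₀ → L a i = 0) → L a i₀ = 0)
    {i₁ i₀ : ι} (hne : i₁ ≠ i₀) (h₁ : ∃ b : B i₁, b ≠ 0) (h₀ : ∃ b : B i₀, b ≠ 0) :
    ∃ a : A, L a i₁ ≠ 0 ∧ ∀ i, i ≠ i₁ → i ≠ i₀ → L a i = 0 := by
  obtain ⟨b₁, hb₁⟩ := h₁
  obtain ⟨b₀, hb₀⟩ := h₀
  obtain ⟨v, hv⟩ := finrank_le_one_iff.1 hcodim
  obtain ⟨c₁, hc₁⟩ := hv (Submodule.Quotient.mk (Pi.single i₁ b₁))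
  obtain ⟨c₀, hc₀⟩ := hv (Submodule.Quotient.mk (Pi.single i₀ b₀))
  -- `c₁ ≠ 0`
  have hc₁0 : c₁ ≠ 0 := by
    intro h
    rw [h, zero_smul] at hc₁
    have hmem : (Pi.single i₁ b₁ : ∀ i, B i) ∈ LinearMap.range L :=
      (Submodule.Quotient.mk_eq_zero _).1 hc₁.symm
    obtain ⟨a, ha⟩ := hmem
    have := hnss a i₁ (fun i hi => by rw [ha, Pi.single_eq_of_ne hi])
    rw [ha, Pi.single_eq_same] at this
    exact hb₁ this
  -- the combination `c₀ e₁ - c₁ e₀` lies in the image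
  have hmem : (c₀ • (Pi.single i₁ b₁ : ∀ i, B i) - c₁ • (Pi.single i₀ b₀ : ∀ i, B i)) ∈
      LinearMap.range L := by
    rw [← Submodule.Quotient.mk_eq_zero, Submodule.Quotient.mk_sub, Submodule.Quotient.mk_smul,
      Submodule.Quotient.mk_smul, ← hc₁, ← hc₀, smul_smul, smul_smul, mul_comm, sub_self]
  obtain ⟨a, ha⟩ := hmem
  have hval : ∀ i, L a i = c₀ • (Pi.single i₁ b₁ : ∀ i, B i) i -
      c₁ • (Pi.single i₀ b₀ : ∀ i, B i) i := by
    intro i
    rw [ha]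
    rfl
  -- `c₀ ≠ 0`
  have hc₀0 : c₀ ≠ 0 := by
    intro h
    have := hnss a i₀ (fun i hi => by
      rw [hval i, h, zero_smul, Pi.single_eq_of_ne hi, smul_zero, sub_zero])
    rw [hval i₀, h, zero_smul, zero_sub, Pi.single_eq_same, neg_eq_zero, smul_eq_zero] at this
    rcases this with h' | h'
    · exact hc₁0 h'
    · exact hb₀ h'
  refine ⟨a, ?_, fun i hi1 hi0 => ?_⟩
  · rw [hval i₁, Pi.single_eq_same, Pi.single_eq_of_ne hne, smul_zero, sub_zero]
    exact smul_ne_zero hc₀0 hb₁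
  · rw [hval i, Pi.single_eq_of_ne hi1, Pi.single_eq_of_ne hi0, smul_zero, smul_zero, sub_zero]

end TwoPoint

/-! ### descent of no-single-support -/

section Main

variable (X : Site) (M : Rep.{0, 0, 0} k X.G) (V : Subgroup X.G)
variable (hV : ∃ N, X.𝒰.mem N ∧ N ≤ V)
variable (T : ∀ v : X.I, Set X.G)

/-- localisation of a `V`-class at the place `(v, t)`. -/
noncomputable abbrev Lvt (v : X.I) (t : X.G) :=
  locTw X.𝒰 (X.𝒱 v) (X.ι v) (X.cont v) V M t

theorem res_eq (v : X.I) : X.res M v = Mor.res X.𝒰 (X.𝒱 v) (X.ι v) (X.cont v) M := rfl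

variable (h1 : ∀ v, (1 : X.G) ∈ T v)
  (hS : ∀ v, Separated (V := V) (X.ι v) (T v))
  (v₀ : X.I) (hv₀ : ∀ t ∈ T v₀, t = 1)
  (hidx : (((conjSub (X.ι v₀) V 1).index : ℕ) : k) ≠ 0)
  (hK : ∀ (y : H2 (subBasis X.𝒰 V) (resV V M)) (v : X.I) (t : X.G), t ∈ T v →
    (∀ (v' : X.I) (t' : X.G), t' ∈ T v' → (v' ≠ v ∨ t' ≠ t) → (Lvt X M V v' t').h2 y = 0) →
      (Lvt X M V v t).h2 y = 0)

include hV h1 hS hv₀ hidx hK in
/-- a class supported only at `v₀` vanishes at `v₀`. -/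
theorem nss_at_base (x : H2 X.𝒰 M) (hx : ∀ v, v ≠ v₀ → (X.res M v).h2 x = 0) :
    (X.res M v₀).h2 x = 0 := by
  have hy : ∀ (v' : X.I) (t' : X.G), t' ∈ T v' → (v' ≠ v₀ ∨ t' ≠ 1) →
      (Lvt X M V v' t').h2 ((Sylow.resMor V M X.𝒰).h2 x) = 0 := by
    intro v' t' ht' hne
    have hv' : v' ≠ v₀ := by
      rcases hne with h | h
      · exact h
      · intro e
        subst e
        exact h (hv₀ t' ht')
    obtain ⟨r, hr⟩ := exists_retraction_normalised (V := V) (f := X.ι v') (h1 v') (hS v')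
    rw [locTw_res2 X.𝒰 (X.𝒱 v') (X.ι v') (X.cont v') V M hV r (hr t' ht') x]
    have h0 : (Mor.res X.𝒰 (X.𝒱 v') (X.ι v') (X.cont v') M).h2 x = 0 := hx v' hv'
    rw [h0, map_zero]
  have h0 := hK _ v₀ 1 (h1 v₀) hy
  obtain ⟨r, hr⟩ := exists_retraction_normalised (V := V) (f := X.ι v₀) (h1 v₀) (hS v₀)
  rw [locTw_res2 X.𝒰 (X.𝒱 v₀) (X.ι v₀) (X.cont v₀) V M hV r (hr 1 (h1 v₀)) x] at h0
  have h2 := Sylow.res_h2_eq_zero_imp (conjSub (X.ι v₀) V 1) (Rep.res (X.ι v₀) M) (X.𝒱 v₀)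
    (conjSub_open X.𝒰 (X.𝒱 v₀) (X.ι v₀) (X.cont v₀) V hV 1) _ h0
  exact (smul_eq_zero.1 h2).resolve_left hidx

variable [∀ v, Fintype (T v)]
  (hT : ∀ v, Covers (V := V) (X.ι v) (T v))
  (htwo : ∀ (v : X.I) (t : X.G), v ≠ v₀ → t ∈ T v →
    ∃ y : H2 (subBasis X.𝒰 V) (resV V M), (Lvt X M V v t).h2 y ≠ 0 ∧
      ∀ (v' : X.I) (t' : X.G), t' ∈ T v' → (v' ≠ v ∨ t' ≠ t) → v' ≠ v₀ →
        (Lvt X M V v' t').h2 y = 0)
  (hdim : ∀ v, v ≠ v₀ → ∀ a b : H2 (X.𝒱 v) (X.loc M v), a ≠ 0 → ∃ c : k, b = c • a)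
  (hcor : Function.Injective (Sylow.cor2 (conjSub (X.ι v₀) V 1) (Rep.res (X.ι v₀) M) (X.𝒱 v₀)
    (conjSub_open X.𝒰 (X.𝒱 v₀) (X.ι v₀) (X.cont v₀) V hV 1)))

include hV h1 hS hv₀ hidx hK hT htwo hdim hcor in
/-- **Descent of no-single-support** from the `V`-site to `X`. -/
theorem nss_descent (x : H2 X.𝒰 M) (v₁ : X.I) (hx : ∀ v, v ≠ v₁ → (X.res M v).h2 x = 0) :
    (X.res M v₁).h2 x = 0 := by
  by_cases hv : v₁ = v₀
  · subst hv
    exact nss_at_base X M V hV T h1 hS v₁ hv₀ hidx hK x hx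
  by_contra ha
  -- the two-point class above `v₁`
  obtain ⟨y, hy1, hy2⟩ := htwo v₁ 1 hv (h1 v₁)
  -- its corestriction and the localisations of the corestriction
  have hloc : ∀ v, (X.res M v).h2 (Sylow.cor2 V M X.𝒰 hV y) =
      ∑ t : T v, Sylow.cor2 (conjSub (X.ι v) V (t : X.G)) (Rep.res (X.ι v) M) (X.𝒱 v)
        (conjSub_open X.𝒰 (X.𝒱 v) (X.ι v) (X.cont v) V hV (t : X.G))
        ((Lvt X M V v (t : X.G)).h2 y) := by
    intro v
    obtain ⟨r, hr⟩ := exists_retraction_normalised (V := V) (f := X.ι v) (h1 v) (hS v)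
    exact res_cor2 X.𝒰 (X.𝒱 v) (X.ι v) (X.cont v) V M hV (hT v) (hS v) r hr y
  -- away from `v₁`, `v₀` the corestriction is locally trivial
  have hz0 : ∀ v, v ≠ v₁ → v ≠ v₀ → (X.res M v).h2 (Sylow.cor2 V M X.𝒰 hV y) = 0 := by
    intro v hv1 hv0
    rw [hloc v]
    refine Finset.sum_eq_zero fun t _ => ?_
    rw [hy2 v t t.2 (Or.inl hv1) hv0, map_zero]
  -- at `v₁` it is a multiple of `loc x`
  obtain ⟨c, hc⟩ := hdim v₁ hv _ ((X.res M v₁).h2 (Sylow.cor2 V M X.𝒰 hV y)) ha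
  -- `w = z - c x` is supported at `v₀` only
  have hw : ∀ v, v ≠ v₀ → (X.res M v).h2 (Sylow.cor2 V M X.𝒰 hV y - c • x) = 0 := by
    intro v hv0
    rw [map_sub, map_smul]
    by_cases hv1 : v = v₁
    · subst hv1
      rw [hc, sub_self]
    · rw [hz0 v hv1 hv0, hx v hv1, smul_zero, sub_zero]
  have hw0 := nss_at_base X M V hV T h1 hS v₀ hv₀ hidx hK _ hw
  rw [map_sub, map_smul, hx v₀ (Ne.symm hv), smul_zero, sub_zero, hloc v₀] at hw0
  -- the sum over `T v₀ = {1}` is the single term at `1`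
  rw [Fintype.sum_eq_single (⟨1, h1 v₀⟩ : T v₀) (fun t ht => by
    exact absurd (Subtype.ext (hv₀ t t.2)) ht)] at hw0
  have hy0 : (Lvt X M V v₀ 1).h2 y = 0 := by
    apply hcor
    rw [map_zero]
    exact hw0
  -- so `y` is supported at `(v₁, 1)` only: contradiction with NSS over `V`
  apply hy1
  apply hK y v₁ 1 (h1 v₁)
  intro v' t' ht' hne
  by_cases hv0 : v' = v₀
  · subst hv0
    rw [hv₀ t' ht']
    exact hy0
  · exact hy2 v' t' ht' hne hv0

end Main

end Fermat.Agent.S55.Bridge.NssDescent
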