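/-
S55 / Bridge (helper14): LC cohomology does not depend on the coefficient RING.

The numerical base `BaseA` of the formal end speaks about `ZMod p`-linear LC groups
(`H_i 𝒰 (perm (ZMod p) U)`, `finrank (ZMod p)`), while every Kummer / divisor long exact sequence of
the Middle block lives in `ℤ`-linear LC groups (`Rep ℤ GQ`: `muP`, `OS`, `KS`; `Rep ℤ Γ_q`: `Ωˣ`).
This file is the dictionary.

* `Hmid` over two rings: `addMap`, `addEquiv` (additive maps of middle homologies induced by additive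
  maps of the middle terms), `addMap_of`, `addEquiv_of` (`rfl`).
* `toInt M : Rep ℤ G` (same carrier, `(toInt M).ρ g m = M.ρ g m` by `rfl`); `isLC₀_toInt … isLC₃_toInt`
  (`Iff.rfl`); `cEquiv₀ … cEquiv₃`; `h0IntEquiv … h3IntEquiv : H_i 𝒰 M ≃+ H_i 𝒰 (toInt M)`
  (same representative: `h1IntEquiv_of` …); `vanish₃_toInt_iff`, `vanish₂_toInt_iff`,
  `isUSmooth_toInt`.
* naturality: `morToInt α : Mor 𝒰 (toInt A) 𝒰' (toInt B)` and `morToInt_h0 … morToInt_h3`;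
  `toInt_res`, `toInt_trivial` (`rfl`).
* retractions: `h0_retract … h3_retract` (`β.φ ∘ α.φ = id`, `α.f ∘ β.f = id` ⇒ `β.h_i ∘ α.h_i = id`);
  `h0IsoEquiv … h3IsoEquiv : H_i 𝒰 A ≃ₗ[k] H_i 𝒰 B` for `A ≅ B`; `vanish₃_iso_iff`.
* the semilinear entry point: `isoOfAddEquiv φ hφ : toInt A ≅ B` for an additive equivariant
  bijection `φ : A ≃+ B` (`A : Rep k G`, `B : Rep ℤ G`), `semiEquiv₀ … semiEquiv₃ : H_i 𝒰 A ≃+ H_i 𝒰 B`,
  `vanish₃_semi_iff`.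
* `trivialIsoOfCyclic` : `toInt (Rep.trivial (ZMod p) G (ZMod p)) ≅ B` when `B` is cyclic of order
  `p`, generated by a `G`-fixed element (`𝔽_p ≅ μ_p` over a group fixing `ζ_p`).
* counting glue over `ZMod p`: `card_eq_pow_finrank`, `finrank_le_iff_card_le`,
  `finrank_eq_iff_card_eq`, `finrank_le_of_addEquiv`, `finrank_eq_of_addEquiv`,
  `card_le_of_finrank_le`.
-/
import Mathlib
import Fermat.Agent.S55.Formal.LC

set_option autoImplicit false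

open CategoryTheory

namespace Fermat.Agent.S55.Bridge.ScalarsLC

open Fermat.Agent.S55.Formal

noncomputable section

/-! ### additive maps between middle homologies over different rings -/

section HmidAdd

variable {k k' : Type*} [CommRing k] [CommRing k']
variable {A B C : Type*} [AddCommGroup A] [Module k A] [AddCommGroup B] [Module k B]
  [AddCommGroup C] [Module k C]
variable {A' B' C' : Type*} [AddCommGroup A'] [Module k' A'] [AddCommGroup B'] [Module k' B']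
  [AddCommGroup C'] [Module k' C']
variable {f : A →ₗ[k] B} {g : B →ₗ[k] C} {f' : A' →ₗ[k'] B'} {g' : B' →ₗ[k'] C'}

/-- restriction of an additive map to the kernels -/
def kerAdd (φ : B →+ B') (hker : ∀ b, g b = 0 → g' (φ b) = 0) :
    ↥(LinearMap.ker g) →+ ↥(LinearMap.ker g') where
  toFun z := ⟨φ z.1, LinearMap.mem_ker.mpr (hker z.1 (LinearMap.mem_ker.mp z.2))⟩
  map_zero' := Subtype.ext (map_zero φ)
  map_add' x y := Subtype.ext (map_add φ x.1 y.1)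

/-- The additive map on middle homology induced by an additive map `φ : B → B'` preserving
cocycles and coboundaries (the two complexes may live over different rings). -/
def addMap (φ : B →+ B') (hker : ∀ b, g b = 0 → g' (φ b) = 0)
    (hrange : ∀ a, ∃ a', f' a' = φ (f a)) : Hmid f g →+ Hmid f' g' :=
  QuotientAddGroup.lift ((LinearMap.range f).comap (LinearMap.ker g).subtype).toAddSubgroup
    ((Hmid.mk f' g').toAddMonoidHom.comp (kerAdd φ hker))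
    (by
      rintro ⟨z, hz⟩ ⟨a, ha⟩
      obtain ⟨a', ha'⟩ := hrange a
      simp only [Submodule.subtype_apply] at ha
      show Hmid.mk f' g' _ = 0
      rw [Hmid.mk_eq_zero_iff]
      exact ⟨a', by rw [ha', ha]; rfl⟩)

theorem addMap_of (φ : B →+ B') (hker : ∀ b, g b = 0 → g' (φ b) = 0)
    (hrange : ∀ a, ∃ a', f' a' = φ (f a)) (b : B) (hb : g b = 0) :
    addMap φ hker hrange (Hmid.of b hb : Hmid f g) = Hmid.of (φ b) (hker b hb) := rfl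

theorem addMap_comp {k'' : Type*} [CommRing k''] {A'' B'' C'' : Type*} [AddCommGroup A'']
    [Module k'' A''] [AddCommGroup B''] [Module k'' B''] [AddCommGroup C''] [Module k'' C'']
    {f'' : A'' →ₗ[k''] B''} {g'' : B'' →ₗ[k''] C''}
    (φ : B →+ B') (hker : ∀ b, g b = 0 → g' (φ b) = 0)
    (hrange : ∀ a, ∃ a', f' a' = φ (f a))
    (ψ : B' →+ B'') (hker' : ∀ b, g' b = 0 → g'' (ψ b) = 0)
    (hrange' : ∀ a, ∃ a', f'' a' = ψ (f' a)) (x : Hmid f g) :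
    addMap ψ hker' hrange' (addMap φ hker hrange x) =
      addMap (ψ.comp φ) (fun b hb => hker' _ (hker b hb))
        (fun a => by
          obtain ⟨a', ha'⟩ := hrange a
          obtain ⟨a'', ha''⟩ := hrange' a'
          exact ⟨a'', by rw [ha'', ha']; rfl⟩) x := by
  obtain ⟨b, hb, rfl⟩ := Hmid.exists_of x
  rfl

theorem addMap_id (hker : ∀ b, g b = 0 → g (AddMonoidHom.id B b) = 0)
    (hrange : ∀ a, ∃ a', f a' = AddMonoidHom.id B (f a)) (x : Hmid f g) :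
    addMap (AddMonoidHom.id B) hker hrange x = x := by
  obtain ⟨b, hb, rfl⟩ := Hmid.exists_of x
  rfl

/-- An additive bijection of the middle terms matching cocycles and coboundaries in both
directions induces an additive equivalence of middle homologies. -/
def addEquiv (φ : B ≃+ B') (hker : ∀ b, g b = 0 → g' (φ b) = 0)
    (hrange : ∀ a, ∃ a', f' a' = φ (f a))
    (hker' : ∀ b', g' b' = 0 → g (φ.symm b') = 0)
    (hrange' : ∀ a', ∃ a, f a = φ.symm (f' a')) : Hmid f g ≃+ Hmid f' g' where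
  toFun := addMap φ.toAddMonoidHom hker hrange
  invFun := addMap φ.symm.toAddMonoidHom hker' hrange'
  left_inv x := by
    obtain ⟨b, hb, rfl⟩ := Hmid.exists_of x
    show (Hmid.of (φ.symm (φ b)) (hker' _ (hker b hb)) : Hmid f g) = Hmid.of b hb
    congr 1
    exact φ.symm_apply_apply b
  right_inv x := by
    obtain ⟨b, hb, rfl⟩ := Hmid.exists_of x
    show (Hmid.of (φ (φ.symm b)) (hker _ (hker' b hb)) : Hmid f' g') = Hmid.of b hb
    congr 1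
    exact φ.apply_symm_apply b
  map_add' := map_add _

theorem addEquiv_of (φ : B ≃+ B') (hker : ∀ b, g b = 0 → g' (φ b) = 0)
    (hrange : ∀ a, ∃ a', f' a' = φ (f a))
    (hker' : ∀ b', g' b' = 0 → g (φ.symm b') = 0)
    (hrange' : ∀ a', ∃ a, f a = φ.symm (f' a')) (b : B) (hb : g b = 0) :
    addEquiv φ hker hrange hker' hrange' (Hmid.of b hb : Hmid f g) = Hmid.of (φ b) (hker b hb) :=
  rfl

end HmidAdd

/-! ### restriction of scalars to `ℤ` -/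

section ToInt

variable {k : Type} [CommRing k] {G : Type} [Group G]

/-- the underlying `ℤ`-linear representation -/
def intRho (M : Rep.{0, 0, 0} k G) : Representation ℤ G M where
  toFun g := (M.ρ g).toAddMonoidHom.toIntLinearMap
  map_one' := by
    ext m
    simp
  map_mul' g h := by
    ext m
    simp

/-- `M` as a representation over `ℤ` (same carrier, same action). -/
def toInt (M : Rep.{0, 0, 0} k G) : Rep.{0, 0, 0} ℤ G := Rep.of (intRho M)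

@[simp] lemma toInt_ρ_apply (M : Rep.{0, 0, 0} k G) (g : G) (m : M) :
    (toInt M).ρ g m = M.ρ g m := rfl

variable (𝒰 : NBasis G) (M : Rep.{0, 0, 0} k G)

lemma isLC₀_toInt (m : M) : IsLC₀ 𝒰 (toInt M) m ↔ IsLC₀ 𝒰 M m := Iff.rfl
lemma isLC₁_toInt (f : G → M) : IsLC₁ 𝒰 (toInt M) f ↔ IsLC₁ 𝒰 M f := Iff.rfl
lemma isLC₂_toInt (f : G × G → M) : IsLC₂ 𝒰 (toInt M) f ↔ IsLC₂ 𝒰 M f := Iff.rfl
lemma isLC₃_toInt (f : G × G × G → M) : IsLC₃ 𝒰 (toInt M) f ↔ IsLC₃ 𝒰 M f := Iff.rfl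

open groupCohomology

lemma d₀₁_toInt (m : M) : (d₀₁ (toInt M)).hom m = (d₀₁ M).hom m := by
  funext g
  rfl

lemma d₁₂_toInt (x : G → M) : (d₁₂ (toInt M)).hom x = (d₁₂ M).hom x := by
  funext ⟨g, h⟩
  rfl

lemma d₂₃_toInt (x : G × G → M) : (d₂₃ (toInt M)).hom x = (d₂₃ M).hom x := by
  funext ⟨g, h, j⟩
  rfl

lemma d₃₄_toInt (x : G × G × G → M) : d₃₄ (toInt M) x = d₃₄ M x := by
  funext ⟨g, h, j, l⟩
  rfl

/-- identity on smooth vectors -/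
def cEquiv₀ : ↥(C₀ 𝒰 M) ≃+ ↥(C₀ 𝒰 (toInt M)) where
  toFun x := ⟨x.1, x.2⟩
  invFun x := ⟨x.1, x.2⟩
  left_inv _ := rfl
  right_inv _ := rfl
  map_add' _ _ := rfl

/-- identity on LC `1`-cochains -/
def cEquiv₁ : ↥(C₁ 𝒰 M) ≃+ ↥(C₁ 𝒰 (toInt M)) where
  toFun x := ⟨x.1, x.2⟩
  invFun x := ⟨x.1, x.2⟩
  left_inv _ := rfl
  right_inv _ := rfl
  map_add' _ _ := rfl

/-- identity on LC `2`-cochains -/
def cEquiv₂ : ↥(C₂ 𝒰 M) ≃+ ↥(C₂ 𝒰 (toInt M)) where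
  toFun x := ⟨x.1, x.2⟩
  invFun x := ⟨x.1, x.2⟩
  left_inv _ := rfl
  right_inv _ := rfl
  map_add' _ _ := rfl

/-- identity on LC `3`-cochains -/
def cEquiv₃ : ↥(C₃ 𝒰 M) ≃+ ↥(C₃ 𝒰 (toInt M)) where
  toFun x := ⟨x.1, x.2⟩
  invFun x := ⟨x.1, x.2⟩
  left_inv _ := rfl
  right_inv _ := rfl
  map_add' _ _ := rfl

lemma dC₀_toInt (x : ↥(C₀ 𝒰 M)) :
    dC₀ 𝒰 (toInt M) (cEquiv₀ 𝒰 M x) = cEquiv₁ 𝒰 M (dC₀ 𝒰 M x) :=
  Subtype.ext (d₀₁_toInt M x.1)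

lemma dC₁_toInt (x : ↥(C₁ 𝒰 M)) :
    dC₁ 𝒰 (toInt M) (cEquiv₁ 𝒰 M x) = cEquiv₂ 𝒰 M (dC₁ 𝒰 M x) :=
  Subtype.ext (d₁₂_toInt M x.1)

lemma dC₂_toInt (x : ↥(C₂ 𝒰 M)) :
    dC₂ 𝒰 (toInt M) (cEquiv₂ 𝒰 M x) = cEquiv₃ 𝒰 M (dC₂ 𝒰 M x) :=
  Subtype.ext (d₂₃_toInt M x.1)

lemma dC₃_toInt (x : ↥(C₃ 𝒰 M)) :
    dC₃ 𝒰 (toInt M) (cEquiv₃ 𝒰 M x) = dC₃ 𝒰 M x :=
  d₃₄_toInt M x.1

lemma dC₀_toInt_symm (x : ↥(C₀ 𝒰 (toInt M))) :
    dC₀ 𝒰 M ((cEquiv₀ 𝒰 M).symm x) = (cEquiv₁ 𝒰 M).symm (dC₀ 𝒰 (toInt M) x) :=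
  Subtype.ext (d₀₁_toInt M x.1).symm

lemma dC₁_toInt_symm (x : ↥(C₁ 𝒰 (toInt M))) :
    dC₁ 𝒰 M ((cEquiv₁ 𝒰 M).symm x) = (cEquiv₂ 𝒰 M).symm (dC₁ 𝒰 (toInt M) x) :=
  Subtype.ext (d₁₂_toInt M x.1).symm

lemma dC₂_toInt_symm (x : ↥(C₂ 𝒰 (toInt M))) :
    dC₂ 𝒰 M ((cEquiv₂ 𝒰 M).symm x) = (cEquiv₃ 𝒰 M).symm (dC₂ 𝒰 (toInt M) x) :=
  Subtype.ext (d₂₃_toInt M x.1).symm

lemma dC₃_toInt_symm (x : ↥(C₃ 𝒰 (toInt M))) :
    dC₃ 𝒰 M ((cEquiv₃ 𝒰 M).symm x) = dC₃ 𝒰 (toInt M) x :=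
  (d₃₄_toInt M x.1).symm

/-- `H⁰` does not depend on the coefficient ring. -/
def h0IntEquiv : ↥(H0 𝒰 M) ≃+ ↥(H0 𝒰 (toInt M)) where
  toFun x := ⟨cEquiv₀ 𝒰 M x.1, by
    have hx := LinearMap.mem_ker.mp x.2
    rw [LinearMap.mem_ker, dC₀_toInt, hx, map_zero]⟩
  invFun x := ⟨(cEquiv₀ 𝒰 M).symm x.1, by
    have hx := LinearMap.mem_ker.mp x.2
    rw [LinearMap.mem_ker, dC₀_toInt_symm, hx, map_zero]⟩
  left_inv _ := rfl
  right_inv _ := rfl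
  map_add' _ _ := rfl

/-- `H¹` does not depend on the coefficient ring. -/
def h1IntEquiv : H1 𝒰 M ≃+ H1 𝒰 (toInt M) :=
  addEquiv (cEquiv₁ 𝒰 M)
    (fun b hb => by rw [dC₁_toInt, hb, map_zero])
    (fun a => ⟨cEquiv₀ 𝒰 M a, dC₀_toInt 𝒰 M a⟩)
    (fun b hb => by rw [dC₁_toInt_symm, hb, map_zero])
    (fun a => ⟨(cEquiv₀ 𝒰 M).symm a, dC₀_toInt_symm 𝒰 M a⟩)

/-- `H²` does not depend on the coefficient ring. -/
def h2IntEquiv : H2 𝒰 M ≃+ H2 𝒰 (toInt M) :=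
  addEquiv (cEquiv₂ 𝒰 M)
    (fun b hb => by rw [dC₂_toInt, hb, map_zero])
    (fun a => ⟨cEquiv₁ 𝒰 M a, dC₁_toInt 𝒰 M a⟩)
    (fun b hb => by rw [dC₂_toInt_symm, hb, map_zero])
    (fun a => ⟨(cEquiv₁ 𝒰 M).symm a, dC₁_toInt_symm 𝒰 M a⟩)

/-- `H³` does not depend on the coefficient ring. -/
def h3IntEquiv : H3 𝒰 M ≃+ H3 𝒰 (toInt M) :=
  addEquiv (cEquiv₃ 𝒰 M)
    (fun b hb => (dC₃_toInt 𝒰 M b).trans hb)
    (fun a => ⟨cEquiv₂ 𝒰 M a, dC₂_toInt 𝒰 M a⟩)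
    (fun b hb => (dC₃_toInt_symm 𝒰 M b).trans hb)
    (fun a => ⟨(cEquiv₂ 𝒰 M).symm a, dC₂_toInt_symm 𝒰 M a⟩)

@[simp] lemma h0IntEquiv_coe (x : ↥(H0 𝒰 M)) :
    (((h0IntEquiv 𝒰 M x).1 : ↥(C₀ 𝒰 (toInt M))).1 : M) = ((x.1 : ↥(C₀ 𝒰 M)).1 : M) := rfl

lemma h1IntEquiv_of (b : ↥(C₁ 𝒰 M)) (hb : dC₁ 𝒰 M b = 0) (hb' : dC₁ 𝒰 (toInt M) (cEquiv₁ 𝒰 M b) = 0) :
    h1IntEquiv 𝒰 M (Hmid.of b hb) = Hmid.of (cEquiv₁ 𝒰 M b) hb' := rfl

lemma h2IntEquiv_of (b : ↥(C₂ 𝒰 M)) (hb : dC₂ 𝒰 M b = 0) (hb' : dC₂ 𝒰 (toInt M) (cEquiv₂ 𝒰 M b) = 0) :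
    h2IntEquiv 𝒰 M (Hmid.of b hb) = Hmid.of (cEquiv₂ 𝒰 M b) hb' := rfl

lemma h3IntEquiv_of (b : ↥(C₃ 𝒰 M)) (hb : dC₃ 𝒰 M b = 0) (hb' : dC₃ 𝒰 (toInt M) (cEquiv₃ 𝒰 M b) = 0) :
    h3IntEquiv 𝒰 M (Hmid.of b hb) = Hmid.of (cEquiv₃ 𝒰 M b) hb' := rfl

theorem vanish₃_toInt_iff : Vanish₃ 𝒰 (toInt M) ↔ Vanish₃ 𝒰 M := by
  constructor
  · intro h f hf
    obtain ⟨b, hb⟩ := h (cEquiv₃ 𝒰 M f) ((dC₃_toInt 𝒰 M f).trans hf)
    refine ⟨(cEquiv₂ 𝒰 M).symm b, ?_⟩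
    rw [dC₂_toInt_symm, hb]
    rfl
  · intro h f hf
    obtain ⟨b, hb⟩ := h ((cEquiv₃ 𝒰 M).symm f) ((dC₃_toInt_symm 𝒰 M f).trans hf)
    refine ⟨cEquiv₂ 𝒰 M b, ?_⟩
    rw [dC₂_toInt, hb]
    rfl

theorem vanish₂_toInt_iff : Vanish₂ 𝒰 (toInt M) ↔ Vanish₂ 𝒰 M := by
  constructor
  · intro h f hf
    obtain ⟨b, hb⟩ := h (cEquiv₂ 𝒰 M f) (by rw [dC₂_toInt, hf, map_zero])
    refine ⟨(cEquiv₁ 𝒰 M).symm b, ?_⟩
    rw [dC₁_toInt_symm, hb]
    rfl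
  · intro h f hf
    obtain ⟨b, hb⟩ := h ((cEquiv₂ 𝒰 M).symm f) (by rw [dC₂_toInt_symm, hf, map_zero])
    refine ⟨cEquiv₁ 𝒰 M b, ?_⟩
    rw [dC₁_toInt, hb]
    rfl

lemma isUSmooth_toInt : IsUSmooth 𝒰 (toInt M) ↔ IsUSmooth 𝒰 M := Iff.rfl

end ToInt

/-! ### naturality -/

section Naturality

variable {k : Type} [CommRing k] {G : Type} [Group G] {G' : Type} [Group G']
variable {𝒰 : NBasis G} {A : Rep.{0, 0, 0} k G} {𝒰' : NBasis G'} {B : Rep.{0, 0, 0} k G'}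

/-- a `k`-linear morphism of situations, seen over `ℤ` -/
def morToInt (α : Mor 𝒰 A 𝒰' B) : Mor 𝒰 (toInt A) 𝒰' (toInt B) where
  f := α.f
  cont := α.cont
  φ := α.φ.toAddMonoidHom.toIntLinearMap
  equivar := α.equivar

@[simp] lemma morToInt_f (α : Mor 𝒰 A 𝒰' B) : (morToInt α).f = α.f := rfl
@[simp] lemma morToInt_φ_apply (α : Mor 𝒰 A 𝒰' B) (a : A) : (morToInt α).φ a = α.φ a := rfl

theorem morToInt_h0 (α : Mor 𝒰 A 𝒰' B) (x : ↥(H0 𝒰 A)) :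
    (morToInt α).h0 (h0IntEquiv 𝒰 A x) = h0IntEquiv 𝒰' B (α.h0 x) := rfl

theorem morToInt_h1 (α : Mor 𝒰 A 𝒰' B) (x : H1 𝒰 A) :
    (morToInt α).h1 (h1IntEquiv 𝒰 A x) = h1IntEquiv 𝒰' B (α.h1 x) := by
  obtain ⟨b, hb, rfl⟩ := Hmid.exists_of x
  rfl

theorem morToInt_h2 (α : Mor 𝒰 A 𝒰' B) (x : H2 𝒰 A) :
    (morToInt α).h2 (h2IntEquiv 𝒰 A x) = h2IntEquiv 𝒰' B (α.h2 x) := by
  obtain ⟨b, hb, rfl⟩ := Hmid.exists_of x
  rfl

theorem morToInt_h3 (α : Mor 𝒰 A 𝒰' B) (x : H3 𝒰 A) :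
    (morToInt α).h3 (h3IntEquiv 𝒰 A x) = h3IntEquiv 𝒰' B (α.h3 x) := by
  obtain ⟨b, hb, rfl⟩ := Hmid.exists_of x
  rfl

/-- restriction commutes with restriction of scalars -/
theorem toInt_res (f : G' →* G) (A : Rep.{0, 0, 0} k G) :
    toInt (Rep.res f A) = Rep.res f (toInt A) := rfl

theorem toInt_trivial (V : Type) [AddCommGroup V] [Module k V] :
    toInt (Rep.trivial k G V) = Rep.trivial ℤ G V := rfl

end Naturality

/-! ### retractions and isomorphisms -/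

section Retract

variable {k : Type} [CommRing k] {G : Type} [Group G] {G' : Type} [Group G']
variable {𝒰 : NBasis G} {A : Rep.{0, 0, 0} k G} {𝒰' : NBasis G'} {B : Rep.{0, 0, 0} k G'}

theorem h0_retract (α : Mor 𝒰 A 𝒰' B) (β : Mor 𝒰' B 𝒰 A) (hφ : ∀ a, β.φ (α.φ a) = a)
    (x : ↥(H0 𝒰 A)) : β.h0 (α.h0 x) = x :=
  Subtype.ext (Subtype.ext (hφ _))

theorem h1_retract (α : Mor 𝒰 A 𝒰' B) (β : Mor 𝒰' B 𝒰 A) (hφ : ∀ a, β.φ (α.φ a) = a)
    (hf : ∀ g, α.f (β.f g) = g) (x : H1 𝒰 A) : β.h1 (α.h1 x) = x := by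
  obtain ⟨b, hb, rfl⟩ := Hmid.exists_of x
  have hb1 : dC₁ 𝒰' B (α.c₁ b) = 0 := by
    have := LinearMap.congr_fun α.c₂_dC₁ b
    simp only [LinearMap.comp_apply] at this
    rw [← this, hb, map_zero]
  have hb2 : dC₁ 𝒰 A (β.c₁ (α.c₁ b)) = 0 := by
    have := LinearMap.congr_fun β.c₂_dC₁ (α.c₁ b)
    simp only [LinearMap.comp_apply] at this
    rw [← this, hb1, map_zero]
  show (Hmid.of (β.c₁ (α.c₁ b)) hb2 : H1 𝒰 A) = Hmid.of b hb
  congr 1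
  apply Subtype.ext
  funext g
  simp only [Mor.c₁_coe, Mor.p₁_apply, hφ, hf]

theorem h2_retract (α : Mor 𝒰 A 𝒰' B) (β : Mor 𝒰' B 𝒰 A) (hφ : ∀ a, β.φ (α.φ a) = a)
    (hf : ∀ g, α.f (β.f g) = g) (x : H2 𝒰 A) : β.h2 (α.h2 x) = x := by
  obtain ⟨b, hb, rfl⟩ := Hmid.exists_of x
  have hb1 : dC₂ 𝒰' B (α.c₂ b) = 0 := by
    have := LinearMap.congr_fun α.c₃_dC₂ b
    simp only [LinearMap.comp_apply] at this
    rw [← this, hb, map_zero]
  have hb2 : dC₂ 𝒰 A (β.c₂ (α.c₂ b)) = 0 := by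
    have := LinearMap.congr_fun β.c₃_dC₂ (α.c₂ b)
    simp only [LinearMap.comp_apply] at this
    rw [← this, hb1, map_zero]
  show (Hmid.of (β.c₂ (α.c₂ b)) hb2 : H2 𝒰 A) = Hmid.of b hb
  congr 1
  apply Subtype.ext
  funext ⟨g, h⟩
  simp only [Mor.c₂_coe, Mor.p₂_apply, hφ, hf]

theorem h3_retract (α : Mor 𝒰 A 𝒰' B) (β : Mor 𝒰' B 𝒰 A) (hφ : ∀ a, β.φ (α.φ a) = a)
    (hf : ∀ g, α.f (β.f g) = g) (x : H3 𝒰 A) : β.h3 (α.h3 x) = x := by
  obtain ⟨b, hb, rfl⟩ := Hmid.exists_of x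
  have hb1 : dC₃ 𝒰' B (α.c₃ b) = 0 := by
    have := LinearMap.congr_fun α.p₄_dC₃ b
    simp only [LinearMap.comp_apply] at this
    rw [← this, hb, map_zero]
  have hb2 : dC₃ 𝒰 A (β.c₃ (α.c₃ b)) = 0 := by
    have := LinearMap.congr_fun β.p₄_dC₃ (α.c₃ b)
    simp only [LinearMap.comp_apply] at this
    rw [← this, hb1, map_zero]
  show (Hmid.of (β.c₃ (α.c₃ b)) hb2 : H3 𝒰 A) = Hmid.of b hb
  congr 1
  apply Subtype.ext
  funext ⟨g, h, j⟩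
  simp only [Mor.c₃_coe, Mor.p₃_apply, hφ, hf]

end Retract

section IsoEquiv

variable {k : Type} [CommRing k] {G : Type} [Group G] (𝒰 : NBasis G) {A B : Rep.{0, 0, 0} k G}

lemma iso_inv_hom_apply' (e : A ≅ B) (a : A) : e.inv.hom (e.hom.hom a) = a := by simp
lemma iso_hom_inv_apply' (e : A ≅ B) (b : B) : e.hom.hom (e.inv.hom b) = b := by simp

/-- an isomorphism of representations induces a linear equivalence on LC `H⁰` -/
def h0IsoEquiv (e : A ≅ B) : ↥(H0 𝒰 A) ≃ₗ[k] ↥(H0 𝒰 B) :=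
  LinearEquiv.ofLinearMap (Mor.ofHom 𝒰 e.hom).h0 (Mor.ofHom 𝒰 e.inv).h0
    (LinearMap.ext fun x => h0_retract (Mor.ofHom 𝒰 e.inv) (Mor.ofHom 𝒰 e.hom)
      (iso_hom_inv_apply' e) x)
    (LinearMap.ext fun x => h0_retract (Mor.ofHom 𝒰 e.hom) (Mor.ofHom 𝒰 e.inv)
      (iso_inv_hom_apply' e) x)

/-- an isomorphism of representations induces a linear equivalence on LC `H¹` -/
def h1IsoEquiv (e : A ≅ B) : H1 𝒰 A ≃ₗ[k] H1 𝒰 B :=
  LinearEquiv.ofLinearMap (Mor.ofHom 𝒰 e.hom).h1 (Mor.ofHom 𝒰 e.inv).h1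
    (LinearMap.ext fun x => h1_retract (Mor.ofHom 𝒰 e.inv) (Mor.ofHom 𝒰 e.hom)
      (iso_hom_inv_apply' e) (fun _ => rfl) x)
    (LinearMap.ext fun x => h1_retract (Mor.ofHom 𝒰 e.hom) (Mor.ofHom 𝒰 e.inv)
      (iso_inv_hom_apply' e) (fun _ => rfl) x)

/-- an isomorphism of representations induces a linear equivalence on LC `H²` -/
def h2IsoEquiv (e : A ≅ B) : H2 𝒰 A ≃ₗ[k] H2 𝒰 B :=
  LinearEquiv.ofLinearMap (Mor.ofHom 𝒰 e.hom).h2 (Mor.ofHom 𝒰 e.inv).h2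
    (LinearMap.ext fun x => h2_retract (Mor.ofHom 𝒰 e.inv) (Mor.ofHom 𝒰 e.hom)
      (iso_hom_inv_apply' e) (fun _ => rfl) x)
    (LinearMap.ext fun x => h2_retract (Mor.ofHom 𝒰 e.hom) (Mor.ofHom 𝒰 e.inv)
      (iso_inv_hom_apply' e) (fun _ => rfl) x)

/-- an isomorphism of representations induces a linear equivalence on LC `H³` -/
def h3IsoEquiv (e : A ≅ B) : H3 𝒰 A ≃ₗ[k] H3 𝒰 B :=
  LinearEquiv.ofLinearMap (Mor.ofHom 𝒰 e.hom).h3 (Mor.ofHom 𝒰 e.inv).h3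
    (LinearMap.ext fun x => h3_retract (Mor.ofHom 𝒰 e.inv) (Mor.ofHom 𝒰 e.hom)
      (iso_hom_inv_apply' e) (fun _ => rfl) x)
    (LinearMap.ext fun x => h3_retract (Mor.ofHom 𝒰 e.hom) (Mor.ofHom 𝒰 e.inv)
      (iso_inv_hom_apply' e) (fun _ => rfl) x)

@[simp] lemma h0IsoEquiv_apply (e : A ≅ B) (x : ↥(H0 𝒰 A)) :
    h0IsoEquiv 𝒰 e x = (Mor.ofHom 𝒰 e.hom).h0 x := rfl
@[simp] lemma h1IsoEquiv_apply (e : A ≅ B) (x : H1 𝒰 A) :
    h1IsoEquiv 𝒰 e x = (Mor.ofHom 𝒰 e.hom).h1 x := rfl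
@[simp] lemma h2IsoEquiv_apply (e : A ≅ B) (x : H2 𝒰 A) :
    h2IsoEquiv 𝒰 e x = (Mor.ofHom 𝒰 e.hom).h2 x := rfl
@[simp] lemma h3IsoEquiv_apply (e : A ≅ B) (x : H3 𝒰 A) :
    h3IsoEquiv 𝒰 e x = (Mor.ofHom 𝒰 e.hom).h3 x := rfl

theorem vanish₃_of_iso (e : A ≅ B) (h : Vanish₃ 𝒰 A) : Vanish₃ 𝒰 B := by
  intro f hf
  have hf' : dC₃ 𝒰 A ((Mor.ofHom 𝒰 e.inv).c₃ f) = 0 := by
    have := LinearMap.congr_fun (Mor.ofHom 𝒰 e.inv).p₄_dC₃ f
    simp only [LinearMap.comp_apply] at this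
    rw [← this, hf, map_zero]
  obtain ⟨b, hb⟩ := h _ hf'
  refine ⟨(Mor.ofHom 𝒰 e.hom).c₂ b, ?_⟩
  have := LinearMap.congr_fun (Mor.ofHom 𝒰 e.hom).c₃_dC₂ b
  simp only [LinearMap.comp_apply] at this
  rw [← this, hb]
  apply Subtype.ext
  funext ⟨g, h, j⟩
  simp only [Mor.c₃_coe, Mor.p₃_apply]
  exact iso_hom_inv_apply' e _

theorem vanish₃_iso_iff (e : A ≅ B) : Vanish₃ 𝒰 A ↔ Vanish₃ 𝒰 B :=
  ⟨vanish₃_of_iso 𝒰 e, vanish₃_of_iso 𝒰 e.symm⟩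

end IsoEquiv

/-! ### the semilinear entry point -/

section Semi

attribute [local instance 2000] Rep.hV2

variable {k : Type} [CommRing k] {G : Type} [Group G] (𝒰 : NBasis G)
variable {A : Rep.{0, 0, 0} k G} {B : Rep.{0, 0, 0} ℤ G}

/-- An additive equivariant bijection from a `k`-linear representation to a `ℤ`-linear one is an
isomorphism `toInt A ≅ B`. -/
def isoOfAddEquiv (φ : A ≃+ B) (hφ : ∀ g a, φ (A.ρ g a) = B.ρ g (φ a)) : toInt A ≅ B :=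
  Rep.mkIso (ρ := intRho A) (σ := B.ρ) (Representation.Equiv.mk
    { φ with
      map_smul' := fun n a => by
        have := map_intCast_smul φ.toAddMonoidHom ℤ ℤ n a
        simpa using this }
    (fun g => by
      apply LinearMap.ext
      intro a
      exact hφ g a))

@[simp] lemma isoOfAddEquiv_hom_apply (φ : A ≃+ B) (hφ : ∀ g a, φ (A.ρ g a) = B.ρ g (φ a))
    (a : A) : (isoOfAddEquiv φ hφ).hom.hom a = φ a := rfl

@[simp] lemma isoOfAddEquiv_inv_apply (φ : A ≃+ B) (hφ : ∀ g a, φ (A.ρ g a) = B.ρ g (φ a))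
    (b : B) : (isoOfAddEquiv φ hφ).inv.hom b = φ.symm b := rfl

/-- `H⁰` of a `k`-linear representation and of an additively isomorphic `ℤ`-linear one -/
def semiEquiv₀ (φ : A ≃+ B) (hφ : ∀ g a, φ (A.ρ g a) = B.ρ g (φ a)) :
    ↥(H0 𝒰 A) ≃+ ↥(H0 𝒰 B) :=
  (h0IntEquiv 𝒰 A).trans
    { toFun := (Mor.ofHom 𝒰 (isoOfAddEquiv φ hφ).hom).h0
      invFun := (Mor.ofHom 𝒰 (isoOfAddEquiv φ hφ).inv).h0
      left_inv := h0_retract _ _ (iso_inv_hom_apply' _)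
      right_inv := h0_retract _ _ (iso_hom_inv_apply' _)
      map_add' := map_add _ }

/-- `H¹` of a `k`-linear representation and of an additively isomorphic `ℤ`-linear one -/
def semiEquiv₁ (φ : A ≃+ B) (hφ : ∀ g a, φ (A.ρ g a) = B.ρ g (φ a)) : H1 𝒰 A ≃+ H1 𝒰 B :=
  (h1IntEquiv 𝒰 A).trans
    { toFun := (Mor.ofHom 𝒰 (isoOfAddEquiv φ hφ).hom).h1
      invFun := (Mor.ofHom 𝒰 (isoOfAddEquiv φ hφ).inv).h1
      left_inv := h1_retract _ _ (iso_inv_hom_apply' _) (fun _ => rfl)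
      right_inv := h1_retract _ _ (iso_hom_inv_apply' _) (fun _ => rfl)
      map_add' := map_add _ }

/-- `H²` of a `k`-linear representation and of an additively isomorphic `ℤ`-linear one -/
def semiEquiv₂ (φ : A ≃+ B) (hφ : ∀ g a, φ (A.ρ g a) = B.ρ g (φ a)) : H2 𝒰 A ≃+ H2 𝒰 B :=
  (h2IntEquiv 𝒰 A).trans
    { toFun := (Mor.ofHom 𝒰 (isoOfAddEquiv φ hφ).hom).h2
      invFun := (Mor.ofHom 𝒰 (isoOfAddEquiv φ hφ).inv).h2
      left_inv := h2_retract _ _ (iso_inv_hom_apply' _) (fun _ => rfl)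
      right_inv := h2_retract _ _ (iso_hom_inv_apply' _) (fun _ => rfl)
      map_add' := map_add _ }

/-- `H³` of a `k`-linear representation and of an additively isomorphic `ℤ`-linear one -/
def semiEquiv₃ (φ : A ≃+ B) (hφ : ∀ g a, φ (A.ρ g a) = B.ρ g (φ a)) : H3 𝒰 A ≃+ H3 𝒰 B :=
  (h3IntEquiv 𝒰 A).trans
    { toFun := (Mor.ofHom 𝒰 (isoOfAddEquiv φ hφ).hom).h3
      invFun := (Mor.ofHom 𝒰 (isoOfAddEquiv φ hφ).inv).h3
      left_inv := h3_retract _ _ (iso_inv_hom_apply' _) (fun _ => rfl)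
      right_inv := h3_retract _ _ (iso_hom_inv_apply' _) (fun _ => rfl)
      map_add' := map_add _ }

theorem vanish₃_semi_iff (φ : A ≃+ B) (hφ : ∀ g a, φ (A.ρ g a) = B.ρ g (φ a)) :
    Vanish₃ 𝒰 A ↔ Vanish₃ 𝒰 B :=
  (vanish₃_toInt_iff 𝒰 A).symm.trans (vanish₃_iso_iff 𝒰 (isoOfAddEquiv φ hφ))

end Semi

/-! ### `𝔽_p` with trivial action versus a cyclic module of order `p` with trivial action -/

section Cyclic

variable {G : Type} [Group G] (p : ℕ) [Fact p.Prime]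

/-- `n ↦ n • ζ` on `ZMod p`, for `ζ` killed by `p` -/
def zmodHom {B : Type} [AddCommGroup B] (ζ : B) (hp : (p : ℤ) • ζ = 0) : ZMod p →+ B :=
  ZMod.lift p ⟨zmultiplesHom B ζ, by simpa using hp⟩

lemma zmodHom_intCast {B : Type} [AddCommGroup B] (ζ : B) (hp : (p : ℤ) • ζ = 0) (n : ℤ) :
    zmodHom p ζ hp (n : ZMod p) = n • ζ := by
  unfold zmodHom
  rw [ZMod.lift_coe]
  simp

lemma zmodHom_bijective {B : Type} [AddCommGroup B] (ζ : B) (hζ : ζ ≠ 0) (hp : (p : ℤ) • ζ = 0)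
    (hgen : ∀ b : B, ∃ n : ℤ, b = n • ζ) : Function.Bijective (zmodHom p ζ hp) := by
  constructor
  · rw [← AddMonoidHom.ker_eq_bot_iff]
    rcases IsSimpleAddGroup.eq_bot_or_eq_top_of_normal (zmodHom p ζ hp).ker
      inferInstance with h | h
    · exact h
    · exfalso
      have h1 : (1 : ZMod p) ∈ (zmodHom p ζ hp).ker := by rw [h]; trivial
      rw [AddMonoidHom.mem_ker] at h1
      have h2 := zmodHom_intCast p ζ hp 1
      rw [Int.cast_one, h1, one_smul] at h2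
      exact hζ h2.symm
  · intro b
    obtain ⟨n, rfl⟩ := hgen b
    exact ⟨(n : ZMod p), zmodHom_intCast p ζ hp n⟩

/-- The additive equivalence `ZMod p ≃+ B` for a cyclic group of order `p` generated by `ζ`. -/
def zmodAddEquiv {B : Type} [AddCommGroup B] (ζ : B) (hζ : ζ ≠ 0) (hp : (p : ℤ) • ζ = 0)
    (hgen : ∀ b : B, ∃ n : ℤ, b = n • ζ) : ZMod p ≃+ B :=
  AddEquiv.ofBijective (zmodHom p ζ hp) (zmodHom_bijective p ζ hζ hp hgen)

/-- **`𝔽_p ≅ μ_p` when `ζ_p` is fixed**: if `B` is a `ℤ`-linear representation whose underlying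
group is cyclic of order `p`, generated by a `G`-fixed `ζ`, then the trivial representation
`ZMod p` (restricted to `ℤ`) is isomorphic to `B`. -/
def trivialIsoOfCyclic (B : Rep.{0, 0, 0} ℤ G) (ζ : B) (hζ : ζ ≠ 0) (hp : (p : ℤ) • ζ = 0)
    (hgen : ∀ b : B, ∃ n : ℤ, b = n • ζ) (hfix : ∀ g, B.ρ g ζ = ζ) :
    toInt (Rep.trivial (ZMod p) G (ZMod p)) ≅ B :=
  isoOfAddEquiv (A := Rep.trivial (ZMod p) G (ZMod p)) (zmodAddEquiv p ζ hζ hp hgen) (fun g a => by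
    obtain ⟨n, rfl⟩ := ZMod.intCast_surjective a
    show zmodHom p ζ hp (n : ZMod p) = B.ρ g (zmodHom p ζ hp (n : ZMod p))
    rw [zmodHom_intCast, map_zsmul, hfix])

end Cyclic

/-! ### counting glue: `finrank` over `ZMod p` versus cardinality -/

section Count

open Module

variable (p : ℕ) [Fact p.Prime] {V : Type*} [AddCommGroup V] [Module (ZMod p) V]

theorem moduleFinite_iff_finite : Module.Finite (ZMod p) V ↔ Finite V :=
  Module.finite_iff_finite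

theorem card_eq_pow_finrank [Finite V] : Nat.card V = p ^ finrank (ZMod p) V := by
  have : Module.Finite (ZMod p) V := (moduleFinite_iff_finite p).2 inferInstance
  rw [Module.natCard_eq_pow_finrank (K := ZMod p) (V := V), Nat.card_zmod]

theorem finrank_le_iff_card_le [Finite V] (n : ℕ) :
    finrank (ZMod p) V ≤ n ↔ Nat.card V ≤ p ^ n := by
  rw [card_eq_pow_finrank p, Nat.pow_le_pow_iff_right (Fact.out : p.Prime).one_lt]

theorem finrank_eq_iff_card_eq [Finite V] (n : ℕ) :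
    finrank (ZMod p) V = n ↔ Nat.card V = p ^ n := by
  rw [card_eq_pow_finrank p]
  exact ⟨fun h => by rw [h], fun h => Nat.pow_right_injective (Fact.out : p.Prime).two_le h⟩

variable {W : Type*} [AddCommGroup W]

theorem finite_of_addEquiv (e : V ≃+ W) [Finite W] : Finite V :=
  Finite.of_equiv W e.symm.toEquiv

/-- Dimension bound from a cardinality bound on an additively isomorphic group (e.g. the same LC
cohomology group computed over `ℤ`). -/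
theorem finrank_le_of_addEquiv (e : V ≃+ W) [Finite W] {n : ℕ} (h : Nat.card W ≤ p ^ n) :
    Module.Finite (ZMod p) V ∧ finrank (ZMod p) V ≤ n := by
  have : Finite V := finite_of_addEquiv e
  refine ⟨(moduleFinite_iff_finite p).2 inferInstance, ?_⟩
  rw [finrank_le_iff_card_le, Nat.card_congr e.toEquiv]
  exact h

theorem finrank_eq_of_addEquiv (e : V ≃+ W) [Finite W] {n : ℕ} (h : Nat.card W = p ^ n) :
    Module.Finite (ZMod p) V ∧ finrank (ZMod p) V = n := by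
  have : Finite V := finite_of_addEquiv e
  refine ⟨(moduleFinite_iff_finite p).2 inferInstance, ?_⟩
  rw [finrank_eq_iff_card_eq, Nat.card_congr e.toEquiv]
  exact h

theorem card_le_of_finrank_le (e : V ≃+ W) [Module.Finite (ZMod p) V] {n : ℕ}
    (h : finrank (ZMod p) V ≤ n) : Finite W ∧ Nat.card W ≤ p ^ n := by
  have : Finite V := (moduleFinite_iff_finite p).1 inferInstance
  have : Finite W := Finite.of_equiv V e.toEquiv
  refine ⟨inferInstance, ?_⟩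
  rw [← Nat.card_congr e.toEquiv, ← finrank_le_iff_card_le]
  exact h

end Count

end

end Fermat.Agent.S55.Bridge.ScalarsLC
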