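/-
S55 / Bridge (C1), global side: the Prelude's `IntermediateField.IsUnramifiedOutside`
(inertia groups of valuation subrings of `ℚ̄` fix the field) versus ideal-theoretic ramification
in number fields.  Owner: helper14.

Main results (namespace `Fermat.Agent.S55.Bridge.Unram`):

* `isUnramifiedOutside_map`            : conjugates of a field unramified outside `S` are so;
* `isUnramifiedOutside_normalClosure`,
  `exists_isGalois_ge`                 : levels can always be enlarged to fields Galois over `ℚ`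
                                         (with normal fixing subgroup);
* `imageField ι`                       : the image of an embedding `ι : F →+* ℚ̄` of an abstract
                                         field, as an `IntermediateField ℚ ℚ̄`;
* `exists_algEquiv_of_fixes`, `exists_gal_of_algEquiv` : restriction `Gal(ℚ̄/ιK) → Gal(F/K)` is
                                         well defined and onto (`F/K` normal);
* `isUnramifiedOutside_of_inertia_eq_bot` : (ideal ⇒ Prelude) `K ⊆ F` number fields, `F/K` Galois,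
      `ι K` unramified outside `S`, all primes of `F` over `q ∉ S` have trivial inertia group in
      `Gal(F/K)`  ⟹  `ι F` unramified outside `S`;
* `inertia_eq_bot_of_isUnramifiedOutside` : (Prelude ⇒ ideal) `ι F` unramified outside `S` ⟹ every
      prime of `F` over `q ∉ S` has trivial inertia group in `Gal(F/K)` (any `K ⊆ F`, `F/K` Galois);
* `inertia_eq_bot_iff_ramificationIdx_eq_one` : trivial inertia ⇔ `e = 1`;
* `isUnramifiedOutside_iff_of_isGalois` : for `F ⊆ ℚ̄` finite Galois over `ℚ`, both languages agree.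
-/
import Mathlib
import Fermat.Prelude.Def_GroupCohomology_ContinuousUnramified
import Fermat.Agent.Lib.InertiaBridge.Lift
import Fermat.Agent.Lib.InertiaBridge.Restrict
import Fermat.Agent.Lib.UnramifiedTrivial
import Fermat.Agent.Lib.InertiaRestrict
import Fermat.Agent.Lib.InertiaNumberField

set_option autoImplicit false
set_option linter.unusedSectionVars false

open scoped Pointwise NumberField

namespace Fermat.Agent.S55.Bridge.Unram

open Fermat.Agent.Lib.InertiaBridge

local notation "Qbar" => AlgebraicClosure ℚ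
local notation "Γ" => (AlgebraicClosure ℚ ≃ₐ[ℚ] AlgebraicClosure ℚ)

local instance instIsGaloisQbar : IsGalois ℚ Qbar :=
  Fermat.Agent.Lib.UnramifiedTrivial.isGalois_algebraicClosure_rat

section Conj

/-- Membership in the fixing subgroup of a conjugate field. -/
theorem mem_fixingSubgroup_map_iff (F : IntermediateField ℚ Qbar) (σ τ : Γ) :
    τ ∈ (F.map (σ : Qbar →ₐ[ℚ] Qbar)).fixingSubgroup ↔ σ⁻¹ * τ * σ ∈ F.fixingSubgroup := by
  rw [IntermediateField.mem_fixingSubgroup_iff, IntermediateField.mem_fixingSubgroup_iff]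
  constructor
  · intro h x hx
    have := h (σ x) ⟨x, hx, rfl⟩
    change σ⁻¹ (τ (σ x)) = x
    rw [this]
    exact σ.symm_apply_apply x
  · rintro h _ ⟨x, hx, rfl⟩
    have := h x hx
    change σ⁻¹ (τ (σ x)) = x at this
    have h2 := congrArg σ this
    rw [show σ (σ⁻¹ (τ (σ x))) = τ (σ x) from σ.apply_symm_apply _] at h2
    exact h2

/-- **Conjugation stability**: a conjugate of a field unramified outside `S` is unramified
outside `S`. -/
theorem isUnramifiedOutside_map {S : Finset Nat.Primes} {F : IntermediateField ℚ Qbar}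
    (hF : F.IsUnramifiedOutside S) (σ : Γ) :
    (F.map (σ : Qbar →ₐ[ℚ] Qbar)).IsUnramifiedOutside S := by
  have := hF.1
  refine ⟨?_, fun q hq A hA τ hτ => ?_⟩
  · exact LinearEquiv.finiteDimensional (F.equivMap (σ : Qbar →ₐ[ℚ] Qbar)).toLinearEquiv
  · rw [mem_fixingSubgroup_map_iff]
    have h1 := Lift.conj_mem_inertiaSubgroupIn σ⁻¹ hτ
    have h2 := Lift.liesOverPrime_smul σ⁻¹ hA
    have := hF.2 q hq _ h2 h1
    simpa using this

end Conj

section NormalClosure

attribute [local instance 10000] IntermediateField.algebra'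

/-- **Normal closure**: the normal closure of a field unramified outside `S` is unramified
outside `S`. -/
theorem isUnramifiedOutside_normalClosure {S : Finset Nat.Primes} {F : IntermediateField ℚ Qbar}
    (hF : F.IsUnramifiedOutside S) :
    (IntermediateField.normalClosure ℚ F Qbar).IsUnramifiedOutside S := by
  have := hF.1
  refine ⟨inferInstance, fun q hq A hA τ hτ => ?_⟩
  have h1 : Subgroup.zpowers τ ≤ (IntermediateField.normalClosure ℚ F Qbar).fixingSubgroup := by
    rw [← IntermediateField.le_iff_le, IntermediateField.normalClosure_def'', iSup_le_iff]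
    intro σ
    rw [IntermediateField.le_iff_le, Subgroup.zpowers_le]
    exact (isUnramifiedOutside_map hF σ).2 q hq A hA hτ
  exact h1 (Subgroup.mem_zpowers τ)

theorem isGalois_normalClosure (F : IntermediateField ℚ Qbar) :
    IsGalois ℚ (IntermediateField.normalClosure ℚ F Qbar) := by
  have : Normal ℚ (IntermediateField.normalClosure ℚ F Qbar) := inferInstance
  exact ⟨⟩

end NormalClosure

/-- Levels can always be taken Galois over `ℚ` (all instances are the default ones). -/
theorem exists_isGalois_ge {S : Finset Nat.Primes} {F : IntermediateField ℚ Qbar}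
    (hF : F.IsUnramifiedOutside S) :
    ∃ N : IntermediateField ℚ Qbar, F ≤ N ∧ N.IsUnramifiedOutside S ∧ IsGalois ℚ N ∧
      N.fixingSubgroup.Normal := by
  have := hF.1
  have hG : IsGalois ℚ (IntermediateField.normalClosure ℚ F Qbar) := isGalois_normalClosure F
  refine ⟨IntermediateField.normalClosure ℚ F Qbar, IntermediateField.le_normalClosure F,
    isUnramifiedOutside_normalClosure hF, hG, ?_⟩
  exact (InfiniteGalois.normal_iff_isGalois _).2 hG

section Image

variable {F : Type*} [Field F]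

/-- The image of a field embedding into `ℚ̄`, as an intermediate field. -/
noncomputable def imageField (ι : F →+* Qbar) : IntermediateField ℚ Qbar :=
  ι.fieldRange.toIntermediateField fun r => by
    rw [show algebraMap ℚ Qbar r = ((r : ℚ) : Qbar) from (eq_ratCast _ r)]
    exact SubfieldClass.ratCast_mem _ r

theorem mem_imageField {ι : F →+* Qbar} {x : Qbar} : x ∈ imageField ι ↔ ∃ y, ι y = x := Iff.rfl

theorem mem_fixingSubgroup_imageField {ι : F →+* Qbar} {σ : Γ} :
    σ ∈ (imageField ι).fixingSubgroup ↔ ∀ y : F, σ (ι y) = ι y := by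
  rw [IntermediateField.mem_fixingSubgroup_iff]
  constructor
  · intro h y
    exact h (ι y) ⟨y, rfl⟩
  · rintro h _ ⟨y, rfl⟩
    exact h y

end Image

section Relative

variable {K F : Type*} [Field K] [Field F] [Algebra K F] [Normal K F]

/-- An element of `Gal(ℚ̄/ℚ)` fixing `ι K` restricts to a `K`-automorphism of the normal
extension `F`. -/
theorem exists_algEquiv_of_fixes (ι : F →+* Qbar) (τ : Γ)
    (hτ : ∀ k : K, τ (ι (algebraMap K F k)) = ι (algebraMap K F k)) :
    ∃ t : F ≃ₐ[K] F, ∀ y, ι (t y) = τ (ι y) := by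
  let _ : Algebra F Qbar := ι.toAlgebra
  let _ : Algebra K Qbar := (ι.comp (algebraMap K F)).toAlgebra
  have : IsScalarTower K F Qbar := IsScalarTower.of_algebraMap_eq' rfl
  let τK : Qbar ≃ₐ[K] Qbar := { τ.toRingEquiv with commutes' := hτ }
  refine ⟨τK.restrictNormal F, fun y => ?_⟩
  exact AlgEquiv.restrictNormal_commutes τK F y

/-- Every `K`-automorphism of `F` extends to `ℚ̄`. -/
theorem exists_gal_of_algEquiv [Algebra ℚ K] [Algebra ℚ F] [IsScalarTower ℚ K F]
    (ι : F →+* Qbar) (t : F ≃ₐ[K] F) :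
    ∃ τ : Γ, ∀ y, τ (ι y) = ι (t y) := by
  let _ : Algebra F Qbar := ι.toAlgebra
  have : IsScalarTower ℚ F Qbar := IsScalarTower.of_algebraMap_eq' (Subsingleton.elim _ _)
  refine ⟨(t.restrictScalars ℚ).liftNormal Qbar, fun y => ?_⟩
  exact AlgEquiv.liftNormal_commutes (t.restrictScalars ℚ) Qbar y

end Relative

section NF

open Fermat.Agent.Lib

variable {K F : Type*} [Field K] [Field F] [NumberField K] [NumberField F] [Algebra K F]
  [IsGalois K F]

theorem finiteDimensional_imageField (ι : F →+* Qbar) :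
    FiniteDimensional ℚ (imageField ι) := by
  have h : imageField ι = (ι.toRatAlgHom).fieldRange := by
    ext x
    rfl
  rw [h]
  exact LinearEquiv.finiteDimensional (AlgEquiv.ofInjectiveField ι.toRatAlgHom).toLinearEquiv

/-- The prime of `𝓞 F` cut out by a valuation subring of `ℚ̄` through the embedding `ι`. -/
noncomputable def primeBelow (ι : F →+* Qbar) (A : ValuationSubring Qbar) : Ideal (𝓞 F) :=
  InertiaNumberField.primeOf (A.comap ι)

instance (ι : F →+* Qbar) (A : ValuationSubring Qbar) : (primeBelow ι A).IsPrime := by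
  unfold primeBelow; infer_instance

theorem mem_primeBelow {ι : F →+* Qbar} {A : ValuationSubring Qbar} {x : 𝓞 F} :
    x ∈ primeBelow ι A ↔ ι (x : F) ∈ A.nonunits := by
  unfold primeBelow
  rw [InertiaNumberField.mem_primeOf, InertiaRestrict.mem_nonunits_comap_iff]

theorem natCast_mem_primeBelow {ι : F →+* Qbar} {A : ValuationSubring Qbar} {q : ℕ}
    (hA : A.LiesOverPrime q) : (q : 𝓞 F) ∈ primeBelow ι A := by
  rw [mem_primeBelow]
  unfold ValuationSubring.LiesOverPrime at hA
  simpa using hA

/-- **Ideal-theoretic ⇒ Prelude.**  `K ⊆ F` number fields, `F/K` Galois, `ι : F → ℚ̄`.  If `ι K` is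
unramified outside `S` (Prelude sense) and every prime of `F` over a rational prime `q ∉ S` has
trivial inertia group in `Gal(F/K)`, then `ι F` is unramified outside `S` (Prelude sense). -/
theorem isUnramifiedOutside_of_inertia_eq_bot (ι : F →+* Qbar) {S : Finset Nat.Primes}
    (hK : (imageField (ι.comp (algebraMap K F))).IsUnramifiedOutside S)
    (h : ∀ q : Nat.Primes, q ∉ S → ∀ P : Ideal (𝓞 F), P.IsPrime → ((q : ℕ) : 𝓞 F) ∈ P →
      Ideal.inertia (F ≃ₐ[K] F) P = ⊥) :
    (imageField ι).IsUnramifiedOutside S := by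
  refine ⟨finiteDimensional_imageField ι, fun q hq A hA τ hτ => ?_⟩
  have hτK : ∀ k : K, τ (ι (algebraMap K F k)) = ι (algebraMap K F k) :=
    mem_fixingSubgroup_imageField.1 (hK.2 q hq A hA hτ)
  obtain ⟨t, ht⟩ := exists_algEquiv_of_fixes ι τ hτK
  have ht1 : t ∈ Ideal.inertia (F ≃ₐ[K] F) (primeBelow ι A) := by
    intro x
    change t • x - x ∈ primeBelow ι A
    rw [mem_primeBelow]
    have h1 : ι (((t • x - x : 𝓞 F)) : F) = τ (ι (x : F)) - ι (x : F) := by
      have : (((t • x - x : 𝓞 F)) : F) = t (x : F) - (x : F) := by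
        push_cast
        rfl
      rw [this, map_sub, ht]
    rw [h1]
    refine InertiaRestrict.apply_sub_mem_nonunits hτ ?_
    exact FrobeniusIF.mem_of_isIntegral_int A
      ((x.isIntegral_coe).map (ι.toIntAlgHom : F →ₐ[ℤ] Qbar))
  rw [h q hq (primeBelow ι A) inferInstance (natCast_mem_primeBelow hA), Subgroup.mem_bot] at ht1
  rw [mem_fixingSubgroup_imageField]
  intro y
  rw [← ht, ht1]
  rfl

/-- A valuation subring of `ℚ̄` over a given nonzero prime of `𝓞 F`. -/
theorem exists_primeBelow_eq (ι : F →+* Qbar) (P : Ideal (𝓞 F)) [hP : P.IsPrime] (h0 : P ≠ ⊥) :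
    ∃ A : ValuationSubring Qbar, primeBelow ι A = P := by
  obtain ⟨A, hA⟩ := UnramifiedTrivial.exists_valuationSubring_over ι P hP.ne_top
  refine ⟨A, ?_⟩
  have hmax : P.IsMaximal := Ring.DimensionLEOne.maximalOfPrime h0 hP
  symm
  refine hmax.eq_of_le (Ideal.IsPrime.ne_top inferInstance) fun x hx => ?_
  rw [mem_primeBelow]
  exact hA x hx

/-- **Prelude ⇒ ideal-theoretic.**  `K ⊆ F` number fields, `F/K` Galois, `ι : F → ℚ̄`.  If `ι F` is
unramified outside `S` (Prelude sense) then every prime of `F` over a rational prime `q ∉ S` has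
trivial inertia group in `Gal(F/K)`. -/
theorem inertia_eq_bot_of_isUnramifiedOutside (ι : F →+* Qbar) {S : Finset Nat.Primes}
    (hF : (imageField ι).IsUnramifiedOutside S) (q : Nat.Primes) (hq : q ∉ S)
    (P : Ideal (𝓞 F)) [hP : P.IsPrime] (hqP : ((q : ℕ) : 𝓞 F) ∈ P) :
    Ideal.inertia (F ≃ₐ[K] F) P = ⊥ := by
  rw [eq_bot_iff]
  intro t ht
  rw [Subgroup.mem_bot]
  have h0 : P ≠ ⊥ := by
    rintro rfl
    rw [Ideal.mem_bot] at hqP
    have : ((q : ℕ) : 𝓞 F) ≠ 0 := Nat.cast_ne_zero.2 q.2.ne_zero
    exact this hqP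
  obtain ⟨A, hA⟩ := exists_primeBelow_eq ι P h0
  have hAq : A.LiesOverPrime (q : ℕ) := by
    have h1 : ((q : ℕ) : 𝓞 F) ∈ primeBelow ι A := hA ▸ hqP
    rw [mem_primeBelow] at h1
    unfold ValuationSubring.LiesOverPrime
    simpa using h1
  obtain ⟨τ₀, hτ₀⟩ := exists_gal_of_algEquiv ι t
  -- integers of `ι F`
  have hint : ∀ x ∈ imageField ι, IsIntegral ℤ x → ∃ y : 𝓞 F, ι (y : F) = x := by
    rintro _ ⟨y, rfl⟩ hy
    have hy' : IsIntegral ℤ y :=
      (isIntegral_algHom_iff (ι.toIntAlgHom : F →ₐ[ℤ] Qbar) ι.injective).1 hy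
    exact ⟨⟨y, hy'⟩, rfl⟩
  have hmem : ∀ y : 𝓞 F, ι (y : F) ∈ A.nonunits ↔ y ∈ P := fun y => by
    rw [← mem_primeBelow, hA]
  have hcoe : ∀ (s : F ≃ₐ[K] F) (y : 𝓞 F), ((s • y : 𝓞 F) : F) = s (y : F) := fun _ _ => rfl
  have hτ₀inv : ∀ y : F, τ₀⁻¹ (ι y) = ι (t⁻¹ y) := by
    intro y
    have := hτ₀ (t⁻¹ y)
    rw [show t (t⁻¹ y) = y from t.apply_symm_apply y] at this
    rw [← this]
    exact τ₀.symm_apply_apply _
  -- step 1: decomposition group
  obtain ⟨τ₁, hτ₁, hD⟩ := Restrict.exists_mul_mem_decomp_of_field (imageField ι) A τ₀ (by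
    intro x hx hxint
    obtain ⟨y, rfl⟩ := hint x hx hxint
    rw [hτ₀inv, ← hcoe, hmem, hmem]
    have h1 : t⁻¹ • y - y ∈ P := (Ideal.inertia (F ≃ₐ[K] F) P).inv_mem ht y
    constructor
    · intro h2
      have := P.sub_mem h2 h1
      simpa using this
    · intro h2
      have := P.add_mem h1 h2
      simpa using this)
  have hτ₁' := mem_fixingSubgroup_imageField.1 hτ₁
  -- step 2: inertia group
  obtain ⟨τ₂, hτ₂, hI⟩ := Restrict.exists_mul_mem_inertia_of_field (imageField ι) A (τ₁ * τ₀) hD (by
    intro x hx hxint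
    obtain ⟨y, rfl⟩ := hint x hx hxint
    have h1 : (τ₁ * τ₀) (ι (y : F)) = ι ((t • y : 𝓞 F) : F) := by
      change τ₁ (τ₀ (ι (y : F))) = _
      rw [hτ₀, hτ₁', hcoe]
    rw [h1, ← map_sub]
    have h2 : ((t • y : 𝓞 F) : F) - (y : F) = ((t • y - y : 𝓞 F) : F) := by push_cast; rfl
    rw [h2, hmem]
    exact ht y)
  have h3 : τ₂ * (τ₁ * τ₀) ∈ (imageField ι).fixingSubgroup := hF.2 q hq A hAq hI
  have h4 : τ₀ ∈ (imageField ι).fixingSubgroup := by
    have := Subgroup.mul_mem _ (Subgroup.inv_mem _ hτ₁)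
      (Subgroup.mul_mem _ (Subgroup.inv_mem _ hτ₂) h3)
    simpa [mul_assoc] using this
  ext y
  apply ι.injective
  rw [← hτ₀]
  exact mem_fixingSubgroup_imageField.1 h4 y

end NF

section Ram

variable {K F : Type*} [Field K] [Field F] [NumberField K] [NumberField F] [Algebra K F]
  [IsGalois K F]

/-- In a Galois extension of number fields the inertia group of a prime is trivial iff its
ramification index is one. -/
theorem inertia_eq_bot_iff_ramificationIdx_eq_one (P : Ideal (𝓞 F)) [hP : P.IsPrime] :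
    Ideal.inertia (F ≃ₐ[K] F) P = ⊥ ↔ P.ramificationIdx (𝓞 K) = 1 := by
  have := IsGaloisGroup.of_isFractionRing (F ≃ₐ[K] F) (𝓞 K) (𝓞 F) K F
  have hcard := Ideal.card_inertia_eq_ramificationIdxIn (G := F ≃ₐ[K] F) (P.under (𝓞 K)) P
  rw [Ideal.ramificationIdxIn_eq_ramificationIdx (P.under (𝓞 K)) P (F ≃ₐ[K] F)] at hcard
  rw [← hcard, Subgroup.card_eq_one]

end Ram

section IF

theorem imageField_val (F₀ : IntermediateField ℚ Qbar) :
    imageField (algebraMap F₀ Qbar) = F₀ := by
  ext x
  rw [mem_imageField]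
  constructor
  · rintro ⟨y, rfl⟩
    exact y.2
  · intro hx
    exact ⟨⟨x, hx⟩, rfl⟩

/-- A subfield of `ℚ̄` of finite degree is a number field. -/
theorem numberField_of_finiteDimensional (F₀ : IntermediateField ℚ Qbar)
    (h : FiniteDimensional ℚ F₀) : NumberField F₀ :=
  { to_charZero := inferInstance, to_finiteDimensional := h }

/-- For `F₀ ⊆ ℚ̄` finite Galois over `ℚ`: the Prelude's "unramified outside `S`" is the
ideal-theoretic one. -/
theorem isUnramifiedOutside_iff_of_isGalois (F₀ : IntermediateField ℚ Qbar) [NumberField F₀]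
    [IsGalois ℚ F₀] (S : Finset Nat.Primes) :
    F₀.IsUnramifiedOutside S ↔
      ∀ q : Nat.Primes, q ∉ S → ∀ P : Ideal (𝓞 F₀), P.IsPrime → ((q : ℕ) : 𝓞 F₀) ∈ P →
        Ideal.inertia (F₀ ≃ₐ[ℚ] F₀) P = ⊥ := by
  constructor
  · intro hF q hq P hP hqP
    rw [← imageField_val F₀] at hF
    exact inertia_eq_bot_of_isUnramifiedOutside (K := ℚ) (algebraMap F₀ Qbar) hF q hq P hqP
  · intro h
    rw [← imageField_val F₀]
    refine isUnramifiedOutside_of_inertia_eq_bot (K := ℚ) (algebraMap F₀ Qbar) ?_ h
    refine IntermediateField.IsUnramifiedOutside.of_le ?_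
      (IntermediateField.isUnramifiedOutside_bot S)
    rintro _ ⟨r, rfl⟩
    rw [IntermediateField.mem_bot]
    exact ⟨r, rfl⟩

end IF

end Fermat.Agent.S55.Bridge.Unram
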